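import Fermat.Agent.AV.MW.Height.Extend
import Mathlib.NumberTheory.Height.MvPolynomial
import Mathlib.FieldTheory.IsAlgClosed.AlgebraicClosure
import Mathlib.FieldTheory.IntermediateField.Adjoin.Basic

/-!
# Absolute logarithmic height of tuples of algebraic numbers

`absHt x` is the absolute logarithmic Weil height of the projective point with coordinates `x`.
-/

set_option autoImplicit false

open Height Module IntermediateField

noncomputable section

namespace FermatLib.AV.MW

local notation "Qb" => AlgebraicClosure ℚ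

theorem isAlgebraic_ratBar : Algebra.IsAlgebraic ℚ Qb := AlgebraicClosure.isAlgebraic ℚ

/-- A number field inside `ℚ̄` containing a given finite set. -/
def fieldOf (s : Set Qb) : IntermediateField ℚ Qb := IntermediateField.adjoin ℚ s

theorem finiteDimensional_fieldOf {s : Set Qb} (hs : s.Finite) :
    FiniteDimensional ℚ (fieldOf s) := by
  have := hs.to_subtype
  exact IntermediateField.finiteDimensional_adjoin fun x _ =>
    (isAlgebraic_ratBar.isAlgebraic x).isIntegral

variable {ι : Type*} [Finite ι]

instance instFiniteDimensionalFieldOfRange (x : ι → Qb) :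
    FiniteDimensional ℚ (fieldOf (Set.range x)) :=
  finiteDimensional_fieldOf (Set.finite_range x)

/-- The absolute logarithmic height of a tuple of algebraic numbers. -/
def absHt (x : ι → Qb) : ℝ :=
  haveI : NumberField (fieldOf (Set.range x)) := NumberField.mk
  logHeight (fun i => (⟨x i, subset_adjoin ℚ _ (Set.mem_range_self i)⟩ :
    fieldOf (Set.range x))) / finrank ℚ (fieldOf (Set.range x))

/-- The absolute height can be computed in any number field containing the coordinates. -/
theorem absHt_eq {K : Type*} [Field K] [NumberField K] (f : K →+* Qb) (y : ι → K) :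
    absHt (fun i => f (y i)) = logHeight y / finrank ℚ K := by
  set F := fieldOf (Set.range fun i => f (y i)) with hF
  have : NumberField F := NumberField.mk
  have hle : ∀ z : F, (z : Qb) ∈ f.toRatAlgHom.fieldRange := fun z => by
    refine (IntermediateField.adjoin_le_iff.mpr ?_) z.2
    rintro _ ⟨i, rfl⟩
    exact ⟨y i, rfl⟩
  choose g hg using hle
  have hg' : ∀ z : F, f (g z) = z := hg
  let gH : F →+* K :=
    { toFun := g
      map_one' := f.injective (by rw [hg', map_one]; rfl)
      map_mul' := fun a b => f.injective (by rw [hg', map_mul, hg', hg']; rfl)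
      map_zero' := f.injective (by rw [hg', map_zero]; rfl)
      map_add' := fun a b => f.injective (by rw [hg', map_add, hg', hg']; rfl) }
  let alg : Algebra F K := gH.toAlgebra
  have : IsScalarTower ℚ F K := IsScalarTower.of_algebraMap_eq fun q => by simp
  set z : ι → F := fun i => ⟨f (y i), subset_adjoin ℚ _ (Set.mem_range_self i)⟩
  have hy : y = fun i => algebraMap F K (z i) := funext fun i => f.injective (hg' (z i)).symm
  have hne : (finrank ℚ F : ℝ) ≠ 0 := Nat.cast_ne_zero.mpr finrank_pos.ne'
  have hne' : (finrank F K : ℝ) ≠ 0 := by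
    have : FiniteDimensional F K := Module.Finite.of_restrictScalars_finite ℚ F K
    exact Nat.cast_ne_zero.mpr finrank_pos.ne'
  conv_rhs => rw [hy, logHeight_algebraMap_comp, ← finrank_mul_finrank ℚ F K, Nat.cast_mul,
    mul_comm (finrank ℚ F : ℝ), mul_div_mul_left _ _ hne']
  rfl

/-- Every tuple of algebraic numbers is the image of a tuple from a number field inside `ℚ̄`. -/
theorem absHt_eq_lift {K : IntermediateField ℚ Qb} [FiniteDimensional ℚ K] (x : ι → Qb)
    (hx : ∀ i, x i ∈ K) :
    haveI : NumberField K := NumberField.mk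
    absHt x = logHeight (fun i => (⟨x i, hx i⟩ : K)) / finrank ℚ K :=
  haveI : NumberField K := NumberField.mk
  absHt_eq (K := K) K.val.toRingHom fun i => ⟨x i, hx i⟩

theorem absHt_nonneg (x : ι → Qb) : 0 ≤ absHt x :=
  haveI : NumberField (fieldOf (Set.range x)) := NumberField.mk
  div_nonneg (logHeight_nonneg _) (Nat.cast_nonneg _)

@[simp]
theorem absHt_zero : absHt (0 : ι → Qb) = 0 := by
  have h := absHt_eq (Rat.castHom Qb) (0 : ι → ℚ)
  simpa [Pi.zero_def] using h

theorem absHt_ratCast (y : ι → ℚ) : absHt (fun i => (y i : Qb)) = logHeight y := by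
  simpa using absHt_eq (Rat.castHom Qb) y

theorem absHt_smul (x : ι → Qb) {c : Qb} (hc : c ≠ 0) :
    absHt (fun i => c * x i) = absHt x := by
  let K := fieldOf (insert c (Set.range x))
  have : FiniteDimensional ℚ K := finiteDimensional_fieldOf ((Set.finite_range x).insert c)
  have : NumberField K := NumberField.mk
  have hcK : c ∈ K := subset_adjoin ℚ _ (Set.mem_insert ..)
  have hxK : ∀ i, x i ∈ K := fun i =>
    subset_adjoin ℚ _ (Set.mem_insert_of_mem _ (Set.mem_range_self i))
  rw [absHt_eq_lift (K := K) x hxK, absHt_eq_lift (K := K) (fun i => c * x i)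
    fun i => mul_mem hcK (hxK i)]
  rw [← logHeight_smul_eq_logHeight (fun i => (⟨x i, hxK i⟩ : K)) (c := ⟨c, hcK⟩)
    fun h => hc (congrArg Subtype.val h)]
  rfl

theorem absHt_pow (x : ι → Qb) (n : ℕ) : absHt (fun i => x i ^ n) = n * absHt x := by
  have : NumberField (fieldOf (Set.range x)) := NumberField.mk
  let y : ι → fieldOf (Set.range x) := fun i => ⟨x i, subset_adjoin ℚ _ (Set.mem_range_self i)⟩
  rw [show absHt x = _ from absHt_eq (fieldOf (Set.range x)).val.toRingHom y]
  refine (absHt_eq (fieldOf (Set.range x)).val.toRingHom fun i => y i ^ n).trans ?_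
  rw [show (fun i => y i ^ n) = y ^ n from rfl, logHeight_pow, mul_div_assoc]

/-- Heights grow at most by a constant under a fixed linear map. -/
theorem exists_absHt_linearMap_le {κ : Type*} [Finite κ] [Fintype ι] (A : κ → ι → Qb) :
    ∃ C : ℝ, ∀ x : ι → Qb, absHt (fun k => ∑ i, A k i * x i) ≤ absHt x + C := by
  classical
  refine ⟨Real.log (Nat.card ι) + absHt (fun p : κ × ι => A p.1 p.2), fun x => ?_⟩
  let K := fieldOf (Set.range (fun p : κ × ι => A p.1 p.2) ∪ Set.range x)
  have : FiniteDimensional ℚ K :=
    finiteDimensional_fieldOf ((Set.finite_range _).union (Set.finite_range x))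
  have : NumberField K := NumberField.mk
  have hxK : ∀ i, x i ∈ K := fun i => subset_adjoin ℚ _ (Or.inr (Set.mem_range_self i))
  have hAK : ∀ p : κ × ι, A p.1 p.2 ∈ K := fun p =>
    subset_adjoin ℚ _ (Or.inl (Set.mem_range_self p))
  let y : ι → K := fun i => ⟨x i, hxK i⟩
  let B : κ × ι → K := fun p => ⟨A p.1 p.2, hAK p⟩
  have e1 : absHt x = logHeight y / finrank ℚ K := absHt_eq_lift x hxK
  have e2 : absHt (fun p : κ × ι => A p.1 p.2) = logHeight B / finrank ℚ K := absHt_eq_lift _ hAK
  have e3 : absHt (fun k => ∑ i, A k i * x i) =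
      logHeight (fun k => ∑ i, B (k, i) * y i) / finrank ℚ K := by
    rw [← absHt_eq K.val.toRingHom (fun k => ∑ i, B (k, i) * y i)]
    simp [B, y]
  have hd : (0 : ℝ) < finrank ℚ K := Nat.cast_pos.mpr finrank_pos
  rw [e1, e2, e3, div_le_iff₀ hd]
  refine (logHeight_linearMap_apply_le B y).trans (le_of_eq ?_)
  rw [NumberField.totalWeight_eq_finrank]
  field_simp
  ring

/-- The height of a Segre product is the sum of the heights. -/
theorem absHt_prod {α : Type*} [Fintype α] {β : α → Type*} [∀ a, Finite (β a)]
    (x : (a : α) → β a → Qb) (hx : ∀ a, x a ≠ 0) :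
    absHt (fun I : (a : α) → β a => ∏ a, x a (I a)) = ∑ a, absHt (x a) := by
  let s : Set Qb := ⋃ a, Set.range (x a)
  let K := fieldOf s
  have : FiniteDimensional ℚ K :=
    finiteDimensional_fieldOf (Set.finite_iUnion fun a => Set.finite_range _)
  have : NumberField K := NumberField.mk
  have hxK : ∀ a i, x a i ∈ K := fun a i =>
    subset_adjoin ℚ _ (Set.mem_iUnion_of_mem a (Set.mem_range_self i))
  let y : (a : α) → β a → K := fun a i => ⟨x a i, hxK a i⟩
  have hy : ∀ a, y a ≠ 0 := fun a h => hx a (funext fun i => congrArg Subtype.val (congrFun h i))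
  rw [Finset.sum_congr rfl fun a _ => absHt_eq_lift (K := K) (x a) (hxK a), ← Finset.sum_div,
    ← logHeight_fun_prod_eq hy]
  refine Eq.trans ?_ (absHt_eq K.val.toRingHom fun I : (a : α) → β a => ∏ a, y a (I a))
  simp [y]

/-- The height of the tensor product of two vectors is the sum of the heights. -/
theorem absHt_mul {κ : Type*} [Finite κ] {x : ι → Qb} {z : κ → Qb} (hx : x ≠ 0) (hz : z ≠ 0) :
    absHt (fun p : ι × κ => x p.1 * z p.2) = absHt x + absHt z := by
  let K := fieldOf (Set.range x ∪ Set.range z)
  have : FiniteDimensional ℚ K :=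
    finiteDimensional_fieldOf ((Set.finite_range x).union (Set.finite_range z))
  have : NumberField K := NumberField.mk
  have hxK : ∀ i, x i ∈ K := fun i => subset_adjoin ℚ _ (Or.inl (Set.mem_range_self i))
  have hzK : ∀ i, z i ∈ K := fun i => subset_adjoin ℚ _ (Or.inr (Set.mem_range_self i))
  let y : ι → K := fun i => ⟨x i, hxK i⟩
  let w : κ → K := fun i => ⟨z i, hzK i⟩
  have hy : y ≠ 0 := fun h => hx (funext fun i => congrArg Subtype.val (congrFun h i))
  have hw : w ≠ 0 := fun h => hz (funext fun i => congrArg Subtype.val (congrFun h i))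
  rw [absHt_eq_lift (K := K) x hxK, absHt_eq_lift (K := K) z hzK, ← add_div,
    ← logHeight_fun_mul_eq hy hw, ← absHt_eq K.val.toRingHom]
  rfl

end FermatLib.AV.MW

end
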