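import Fermat.Agent.AV.MW.Height.Divisors
import Mathlib.Data.Fin.Tuple.Basic
import Mathlib.Data.Set.Finite.Range

/-!
# The height of a divisor class and the parallelogram law
-/

set_option autoImplicit false

open Finset

noncomputable section

namespace FermatLib.AV.MW

local notation "Qb" => AlgebraicClosure ℚ

/-- Divisor classes on top of a height model: the class of `d` points is `[p₁ + ⋯ + p_d - d O]`. -/
structure HtClasses {P : Type*} (M : HtModel P) (J : Type*) [AddCommGroup J] where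
  d₀ : ℕ
  cls : {d : ℕ} → (Fin d → P) → J
  cls_append : ∀ {d e : ℕ} (D : Fin d → P) (E : Fin e → P),
    cls (Fin.append D E) = cls D + cls E
  exists_rep : ∀ d, d₀ ≤ d → ∀ (x : J) (T : Set P), T.Finite →
    ∃ D : Fin d → P, Function.Injective D ∧ cls D = x ∧ ∀ i, D i ∉ T
  exists_zeroSet : ∀ d, d₀ ≤ d → ∀ S : Fin d → P, Function.Injective S → cls S = 0 →
    ∃ c : Fin (M.dim d) → Qb, M.IsZeroSet c S

namespace HtModel

variable {P : Type*} (M : HtModel P)

/-- The cross term between two sets of points. -/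
def cross {d e : ℕ} (D : Fin d → P) (E : Fin e → P) : ℝ :=
  ∑ j, ∑ i, (M.pairB (D j) (E i) + M.h1 (D j) + M.h1 (E i))

theorem cross_append_left {d d' e : ℕ} (D : Fin d → P) (D' : Fin d' → P) (E : Fin e → P) :
    M.cross (Fin.append D D') E = M.cross D E + M.cross D' E := by
  simp only [cross, Fin.sum_univ_add, Fin.append_left, Fin.append_right]

theorem cross_append_right {d e e' : ℕ} (D : Fin d → P) (E : Fin e → P) (E' : Fin e' → P) :
    M.cross D (Fin.append E E') = M.cross D E + M.cross D E' := by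
  simp only [cross, Fin.sum_univ_add, Fin.append_left, Fin.append_right, Finset.sum_add_distrib]
  ring

theorem qHt_append {d e : ℕ} (D : Fin d → P) (E : Fin e → P) :
    M.qHt (Fin.append D E) = M.qHt D + M.qHt E + M.cross D E := by
  have hsum : ∀ {n : ℕ} (i : Fin n) (f : Fin n → ℝ),
      ∑ j ∈ Finset.Iio i, f j = ∑ j, if j < i then f j else 0 := fun i f => by
    rw [← Finset.sum_filter]
    congr 1
    ext j
    simp
  simp only [qHt, hsum, Fin.sum_univ_add]
  have h1 : ∀ i j : Fin d, Fin.castAdd e j < Fin.castAdd e i ↔ j < i := fun i j => Iff.rfl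
  have h2 : ∀ (i : Fin d) (j : Fin e), ¬ Fin.natAdd d j < Fin.castAdd e i := fun i j h => by
    have h' : (Fin.natAdd d j).val < (Fin.castAdd e i).val := h
    simp only [Fin.val_natAdd, Fin.val_castAdd] at h'
    omega
  have h3 : ∀ (i : Fin e) (j : Fin d), Fin.castAdd e j < Fin.natAdd d i := fun i j => by
    show (Fin.castAdd e j).val < (Fin.natAdd d i).val
    simp only [Fin.val_natAdd, Fin.val_castAdd]
    omega
  have h4 : ∀ i j : Fin e, Fin.natAdd d j < Fin.natAdd d i ↔ j < i := fun i j => by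
    show (Fin.natAdd d j).val < (Fin.natAdd d i).val ↔ j.val < i.val
    simp only [Fin.val_natAdd]
    omega
  simp only [h1, h2, h3, h4, if_false, if_true, Fin.append_left, Fin.append_right,
    Finset.sum_add_distrib, Finset.sum_const_zero, add_zero, cross, Finset.sum_const,
    Finset.card_univ, Fintype.card_fin, nsmul_eq_mul]
  rw [Finset.sum_comm (f := fun (i : Fin e) (j : Fin d) => M.pairB (D j) (E i))]
  push_cast
  rw [← Finset.mul_sum]
  ring

end HtModel

namespace HtClasses

variable {P : Type*} {M : HtModel P} {J : Type*} [AddCommGroup J] (G : HtClasses M J)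

theorem injective_append {d e : ℕ} {D : Fin d → P} {E : Fin e → P} (hD : Function.Injective D)
    (hE : Function.Injective E) (h : ∀ i j, D i ≠ E j) : Function.Injective (Fin.append D E) :=
  Fin.append_injective_iff.mpr ⟨hD, hE, h⟩

theorem exists_qHt_congr (d : ℕ) (hd : G.d₀ ≤ d) :
    ∃ C : ℝ, ∀ D D₁ : Fin d → P, Function.Injective D → Function.Injective D₁ →
      G.cls D = G.cls D₁ → |M.qHt D - M.qHt D₁| ≤ C := by
  obtain ⟨C, hC⟩ := M.exists_qHt_sub_le d
  have key : ∀ D D₁ : Fin d → P, Function.Injective D → Function.Injective D₁ →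
      G.cls D = G.cls D₁ → (∀ i j, D i ≠ D₁ j) → |M.qHt D - M.qHt D₁| ≤ C := by
    intro D D₁ hD hD₁ h hdis
    obtain ⟨D', hD', hx, hT⟩ := G.exists_rep d hd (-G.cls D) (Set.range D ∪ Set.range D₁)
      ((Set.finite_range D).union (Set.finite_range D₁))
    obtain ⟨c, hc⟩ := G.exists_zeroSet (d + d) (hd.trans (Nat.le_add_right d d)) _
      (injective_append hD hD' fun i j e => hT j (Or.inl ⟨i, e⟩))
      (by rw [G.cls_append, hx, add_neg_cancel])
    obtain ⟨c₁, hc₁⟩ := G.exists_zeroSet (d + d) (hd.trans (Nat.le_add_right d d)) _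
      (injective_append hD₁ hD' fun i j e => hT j (Or.inr ⟨i, e⟩))
      (by rw [G.cls_append, hx, ← h, add_neg_cancel])
    exact hC D D₁ D' c c₁ hc hc₁ hdis
  refine ⟨C + C, fun D D₁ hD hD₁ h => ?_⟩
  obtain ⟨D₂, hD₂, hx, hT⟩ := G.exists_rep d hd (G.cls D) (Set.range D ∪ Set.range D₁)
    ((Set.finite_range D).union (Set.finite_range D₁))
  have a := abs_le.mp (key D D₂ hD hD₂ hx.symm fun i j e => hT j (Or.inl ⟨i, e⟩))
  have b := abs_le.mp (key D₁ D₂ hD₁ hD₂ (by rw [hx, h]) fun i j e => hT j (Or.inr ⟨i, e⟩))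
  rw [abs_le]
  constructor <;> linarith

open Classical in
/-- The height of a class computed from `d` points. -/
def Q (d : ℕ) (x : J) : ℝ :=
  if h : G.d₀ ≤ d then M.qHt (G.exists_rep d h x ∅ Set.finite_empty).choose else 0

theorem exists_qHt_sub_Q (d : ℕ) (hd : G.d₀ ≤ d) :
    ∃ C : ℝ, ∀ D : Fin d → P, Function.Injective D → |M.qHt D - G.Q d (G.cls D)| ≤ C := by
  obtain ⟨C, hC⟩ := G.exists_qHt_congr d hd
  refine ⟨C, fun D hD => ?_⟩
  rw [Q, dif_pos hd]
  have h := (G.exists_rep d hd (G.cls D) ∅ Set.finite_empty).choose_spec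
  exact hC D _ hD h.1 h.2.1.symm

/-- The symmetric height of a class computed from `d` points. -/
def Hsym (d : ℕ) (x : J) : ℝ := G.Q d x + G.Q d (-x)

theorem exists_doubled_parallelogram (d : ℕ) (hd : G.d₀ ≤ d) :
    ∃ C : ℝ, ∀ x y : J, |G.Hsym (d + d) (x + y) + G.Hsym (d + d) (x - y) -
      2 * (G.Hsym d x + G.Hsym d y)| ≤ C := by
  have hd2 : G.d₀ ≤ d + d := hd.trans (Nat.le_add_right d d)
  obtain ⟨C₁, h₁⟩ := G.exists_qHt_sub_Q d hd
  obtain ⟨C₂, h₂⟩ := G.exists_qHt_sub_Q (d + d) hd2
  obtain ⟨C₄, h₄⟩ := G.exists_qHt_sub_Q ((d + d) + (d + d)) (hd2.trans (Nat.le_add_right _ _))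
  refine ⟨|G.Q ((d + d) + (d + d)) 0| + 2 * |G.Q (d + d) 0| + 8 * C₁ + 6 * C₂ + C₄,
    fun x y => ?_⟩
  obtain ⟨D, hD, hDx, -⟩ := G.exists_rep d hd x ∅ Set.finite_empty
  obtain ⟨D', hD', hDx', hT₁⟩ := G.exists_rep d hd (-x) (Set.range D) (Set.finite_range D)
  obtain ⟨E, hE, hEy, hT₂⟩ := G.exists_rep d hd y (Set.range D ∪ Set.range D')
    ((Set.finite_range D).union (Set.finite_range D'))
  obtain ⟨E', hE', hEy', hT₃⟩ := G.exists_rep d hd (-y)
    (Set.range D ∪ Set.range D' ∪ Set.range E)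
    (((Set.finite_range D).union (Set.finite_range D')).union (Set.finite_range E))
  have dDD : ∀ i j, D i ≠ D' j := fun i j e => hT₁ j ⟨i, e⟩
  have dDE : ∀ i j, D i ≠ E j := fun i j e => hT₂ j (Or.inl ⟨i, e⟩)
  have dD'E : ∀ i j, D' i ≠ E j := fun i j e => hT₂ j (Or.inr ⟨i, e⟩)
  have dDE' : ∀ i j, D i ≠ E' j := fun i j e => hT₃ j (Or.inl (Or.inl ⟨i, e⟩))
  have dD'E' : ∀ i j, D' i ≠ E' j := fun i j e => hT₃ j (Or.inl (Or.inr ⟨i, e⟩))
  have dEE : ∀ i j, E i ≠ E' j := fun i j e => hT₃ j (Or.inr ⟨i, e⟩)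
  have pair : ∀ (A B : Fin d → P), Function.Injective A → Function.Injective B →
      (∀ i j, A i ≠ B j) →
      |M.qHt A + M.qHt B + M.cross A B - G.Q (d + d) (G.cls A + G.cls B)| ≤ C₂ := fun A B hA hB h => by
    rw [← M.qHt_append, ← G.cls_append]
    exact h₂ _ (injective_append hA hB h)
  have a := abs_le.mp (pair D E hD hE dDE)
  have b := abs_le.mp (pair D' E' hD' hE' dD'E')
  have c := abs_le.mp (pair D E' hD hE' dDE')
  have e := abs_le.mp (pair D' E hD' hE dD'E)
  have f := abs_le.mp (pair D D' hD hD' dDD)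
  have g := abs_le.mp (pair E E' hE hE' dEE)
  rw [hDx, hEy] at a
  rw [hDx', hEy'] at b
  rw [hDx, hEy'] at c
  rw [hDx', hEy] at e
  rw [hDx, hDx', add_neg_cancel] at f
  rw [hEy, hEy', add_neg_cancel] at g
  have k := h₄ (Fin.append (Fin.append D D') (Fin.append E E'))
    (injective_append (injective_append hD hD' dDD) (injective_append hE hE' dEE) fun i j => by
      induction i using Fin.addCases with
      | left i =>
        induction j using Fin.addCases with
        | left j => simpa only [Fin.append_left] using dDE i j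
        | right j => simpa only [Fin.append_left, Fin.append_right] using dDE' i j
      | right i =>
        induction j using Fin.addCases with
        | left j => simpa only [Fin.append_left, Fin.append_right] using dD'E i j
        | right j => simpa only [Fin.append_right] using dD'E' i j)
  rw [G.cls_append, G.cls_append, G.cls_append, hDx, hDx', hEy, hEy', add_neg_cancel,
    add_neg_cancel, add_zero, M.qHt_append, M.qHt_append, M.qHt_append,
    M.cross_append_left, M.cross_append_right, M.cross_append_right] at k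
  have k' := abs_le.mp k
  have u := abs_le.mp (h₁ D hD)
  have u' := abs_le.mp (h₁ D' hD')
  have w := abs_le.mp (h₁ E hE)
  have w' := abs_le.mp (h₁ E' hE')
  rw [hDx] at u
  rw [hDx'] at u'
  rw [hEy] at w
  rw [hEy'] at w'
  simp only [Hsym, show -(x + y) = -x + -y by abel, show x - y = x + -y by abel,
    show -(x + -y) = -x + y by abel]
  rw [abs_le]
  constructor <;>
    linarith [le_abs_self (G.Q ((d + d) + (d + d)) 0), neg_abs_le (G.Q ((d + d) + (d + d)) 0),
      le_abs_self (G.Q (d + d) 0), neg_abs_le (G.Q (d + d) 0)]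

/-- **The parallelogram law up to a bounded error.** -/
theorem exists_parallelogram (d : ℕ) (hd : G.d₀ ≤ d) :
    ∃ C : ℝ, ∀ x y : J,
      |G.Hsym d (x + y) + G.Hsym d (x - y) - 2 * (G.Hsym d x + G.Hsym d y)| ≤ C := by
  obtain ⟨C, hC⟩ := G.exists_doubled_parallelogram d hd
  refine ⟨2 * C + 2 * |G.Hsym d 0|, fun x y => ?_⟩
  have a := abs_le.mp (hC x y)
  have b := abs_le.mp (hC (x + y) 0)
  have c := abs_le.mp (hC (x - y) 0)
  simp only [add_zero, sub_zero] at b c
  rw [abs_le]
  constructor <;> linarith [le_abs_self (G.Hsym d 0), neg_abs_le (G.Hsym d 0)]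

end HtClasses

end FermatLib.AV.MW

end
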