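import Fermat.Agent.AV.MW.Height.TensorDet

/-!
# Heights of sections with prescribed simple zeros, and invariance of the point-set height
-/

set_option autoImplicit false

open Finset Matrix

noncomputable section

namespace FermatLib.AV.MW

local notation "Qb" => AlgebraicClosure ℚ

namespace HtModel

variable {P : Type*} (M : HtModel P)

/-- The section with coordinates `c`, as a function of the point. -/
def val (k : ℕ) (c : Fin (M.dim k) → Qb) : P → Qb := fun p => ∑ a, c a * M.ev k p a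

theorem val_mem (k : ℕ) (c : Fin (M.dim k) → Qb) : M.val k c ∈ M.W k :=
  M.mem_W_iff.mpr ⟨c, fun _ => rfl⟩

theorem val_zero (k : ℕ) : M.val k (0 : Fin (M.dim k) → Qb) = 0 := by
  funext p
  simp [val]

theorem val_add (k : ℕ) (c c' : Fin (M.dim k) → Qb) :
    M.val k (c + c') = M.val k c + M.val k c' := by
  funext p
  simp [val, add_mul, Finset.sum_add_distrib]

theorem val_smul (k : ℕ) (r : Qb) (c : Fin (M.dim k) → Qb) :
    M.val k (r • c) = r • M.val k c := by
  funext p
  simp [val, Finset.mul_sum, mul_assoc]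

/-- `val` as a linear map. -/
def valₗ (k : ℕ) : (Fin (M.dim k) → Qb) →ₗ[Qb] (P → Qb) where
  toFun := M.val k
  map_add' := M.val_add k
  map_smul' := M.val_smul k

theorem val_injective (k : ℕ) : Function.Injective (M.val k) := by
  refine (injective_iff_map_eq_zero (M.valₗ k)).mpr fun c hc => ?_
  funext a
  refine Fintype.linearIndependent_iff.mp (M.indep k) c ?_ a
  funext p
  simpa [valₗ, val] using congrFun hc p

theorem val_eq_zero_iff (k : ℕ) {c : Fin (M.dim k) → Qb} : M.val k c = 0 ↔ c = 0 :=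
  ⟨fun h => M.val_injective k (h.trans (M.val_zero k).symm), fun h => h ▸ M.val_zero k⟩

theorem val_single (k : ℕ) (a : Fin (M.dim k)) :
    M.val k (Pi.single a 1) = fun p => M.ev k p a := by
  funext p
  simp [val, Pi.single_apply]

/-- `c` is a section of level `k` with simple zeros exactly at the `k` distinct points `s`. -/
structure IsZeroSet {k : ℕ} (c : Fin (M.dim k) → Qb) (s : Fin k → P) : Prop where
  inj : Function.Injective s
  ne : c ≠ 0
  zero : ∀ i, M.val k c (s i) = 0

variable {M}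

theorem IsZeroSet.val_ne_zero {k : ℕ} {c : Fin (M.dim k) → Qb} {s : Fin k → P}
    (h : M.IsZeroSet c s) {q : P} (hq : ∀ i, q ≠ s i) : M.val k c q ≠ 0 := fun h0 => by
  have := M.card_zeros k (k + 1) (M.val k c) (M.val_mem k c)
    (fun e => h.ne ((M.val_eq_zero_iff k).mp e)) (Fin.cons q s)
    (Fin.cons_injective_iff.mpr ⟨fun ⟨i, hi⟩ => hq i hi.symm, h.inj⟩)
    (Fin.cases (by simpa using h0) fun i => by simpa using h.zero i)
  omega

variable (M)

/-- Coefficient vectors of the sections vanishing at given points. -/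
def vanish (N : ℕ) {d : ℕ} (p : Fin d → P) : Submodule Qb (Fin (M.dim N) → Qb) :=
  LinearMap.ker (LinearMap.pi fun l => (LinearMap.proj (p l)).comp (M.valₗ N))

theorem mem_vanish {N d : ℕ} {p : Fin d → P} {w : Fin (M.dim N) → Qb} :
    w ∈ M.vanish N p ↔ ∀ l, M.val N w (p l) = 0 := by
  simp [vanish, funext_iff, valₗ]

theorem finrank_vanish {N d : ℕ} {p : Fin d → P} (hp : M.minors N p ≠ 0) :
    Module.finrank Qb (M.vanish N p) + d = M.dim N := by
  obtain ⟨t, ht⟩ := Function.ne_iff.mp hp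
  let Φ := LinearMap.pi fun l => (LinearMap.proj (p l)).comp (M.valₗ N)
  let Mt : Matrix (Fin d) (Fin d) Qb := Matrix.of fun i l => M.ev N (p l) (t i)
  have hu : IsUnit Mt.det := (Ne.isUnit ht : _)
  have hsurj : Function.Surjective Φ := fun z => by
    refine ⟨∑ i, (z ᵥ* Mt⁻¹) i • Pi.single (t i) 1, funext fun l => ?_⟩
    calc Φ (∑ i, (z ᵥ* Mt⁻¹) i • Pi.single (t i) 1) l = ((z ᵥ* Mt⁻¹) ᵥ* Mt) l := by
          simp only [Φ, map_sum, map_smul, LinearMap.pi_apply, LinearMap.comp_apply,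
            LinearMap.proj_apply]
          simp [valₗ, val_single, Matrix.vecMul, dotProduct, Mt]
      _ = z l := by rw [Matrix.vecMul_vecMul, Matrix.nonsing_inv_mul _ hu, Matrix.vecMul_one]
  have h := LinearMap.finrank_range_add_finrank_ker Φ
  rw [LinearMap.range_eq_top.mpr hsurj, finrank_top, Module.finrank_pi, Module.finrank_pi,
    Fintype.card_fin, Fintype.card_fin] at h
  show Module.finrank Qb (LinearMap.ker Φ) + d = M.dim N
  omega

theorem minors_ne_zero {N d : ℕ} (hN : M.lo + d * M.b ≤ N) {p : Fin d → P}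
    (hp : Function.Injective p) : M.minors N p ≠ 0 := by
  obtain ⟨_, h⟩ := M.exists_minors_ge hN
  exact (h p hp).2

/-- A function vanishing at the simple zeros of a section is divisible by it. -/
theorem exists_eq_val_mul {k : ℕ} {c : Fin (M.dim k) → Qb} {s : Fin k → P}
    (hc : M.IsZeroSet c s) {l n : ℕ} (hn : k + l = n) (hl : M.lo + k * M.b ≤ l)
    {f : P → Qb} (hf : f ∈ M.W n) (hfs : ∀ i, f (s i) = 0) :
    ∃ u : Fin (M.dim l) → Qb, f = M.val k c * M.val l u := by
  subst hn
  have hlg : 2 * M.g ≤ l := by have := M.two_g_le_lo; omega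
  have hmem : ∀ u, M.val k c * M.val l u ∈ LinearMap.range (M.valₗ (k + l)) := fun u => by
    obtain ⟨e, he⟩ := M.mem_W_iff.mp (M.mul_mem_W (M.val_mem k c) (M.val_mem l u))
    exact ⟨e, funext fun p => (he p).symm⟩
  choose e he using hmem
  let L : (Fin (M.dim l) → Qb) →ₗ[Qb] (Fin (M.dim (k + l)) → Qb) :=
    { toFun := e
      map_add' := fun u v => M.val_injective (k + l) <| by
        rw [show M.val (k + l) (e (u + v)) = _ from he _, M.val_add, M.val_add,
          show M.val (k + l) (e u) = _ from he u, show M.val (k + l) (e v) = _ from he v, mul_add]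
      map_smul' := fun r u => M.val_injective (k + l) <| by
        rw [RingHom.id_apply, show M.val (k + l) (e (r • u)) = _ from he _, M.val_smul, M.val_smul,
          show M.val (k + l) (e u) = _ from he u, mul_smul_comm] }
  have hinj : Function.Injective L := (injective_iff_map_eq_zero L).mpr fun u hu => by
    have h0 : M.val k c * M.val l u = 0 := by
      rw [← show M.val (k + l) (L u) = _ from he u, hu, M.val_zero]
    rcases M.W_mul_eq_zero (M.val_mem k c) (M.val_mem l u) h0 with h | h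
    · exact absurd ((M.val_eq_zero_iff k).mp h) hc.ne
    · exact (M.val_eq_zero_iff l).mp h
  have hrange : LinearMap.range L = M.vanish (k + l) s := by
    refine Submodule.eq_of_le_of_finrank_eq ?_ ?_
    · rintro _ ⟨u, rfl⟩
      rw [M.mem_vanish]
      intro i
      rw [show M.val (k + l) (L u) = _ from he u, Pi.mul_apply, hc.zero i, zero_mul]
    · rw [LinearMap.finrank_range_of_inj hinj, Module.finrank_pi, Fintype.card_fin]
      have h1 := M.finrank_vanish (M.minors_ne_zero (N := k + l) (by omega) hc.inj)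
      have h2 := M.dim_eq l hlg
      have h3 := M.dim_eq (k + l) (by omega)
      omega
  obtain ⟨w, hw⟩ := M.mem_W_iff.mp hf
  obtain ⟨u, hu⟩ : w ∈ LinearMap.range L := by
    rw [hrange, M.mem_vanish]
    exact fun i => (hw (s i)).symm.trans (hfs i)
  refine ⟨u, funext fun p => ?_⟩
  rw [← show M.val (k + l) (L u) = _ from he u, hu, hw]
  rfl

theorem sval_eq_det (N : ℕ) {m : ℕ} (s : Fin m → Fin (M.dim N) → Qb) (R : Fin m → P) :
    M.sval N s R = (Matrix.of fun r b => M.val N (s r) (R b)).det := rfl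

theorem prod_val_mul_sval {k n l m : ℕ} (c : Fin (M.dim k) → Qb)
    (s : Fin m → Fin (M.dim n) → Qb) (u : Fin m → Fin (M.dim l) → Qb)
    (h : ∀ r, M.val n (s r) = M.val k c * M.val l (u r)) (R : Fin m → P) :
    (∏ b, M.val k c (R b)) * M.sval l u R = M.sval n s R := by
  rw [sval_eq_det, sval_eq_det, ← Matrix.det_mul_row]
  congr 1
  ext r b
  simp [h]

theorem absHt_eq_of_tval_eq {n n' m : ℕ} (hn : n = n') {r : Qb} (hr : r ≠ 0)
    {e : (Fin m → Fin (M.dim n)) → Qb} {e' : (Fin m → Fin (M.dim n')) → Qb}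
    (h : ∀ R, M.tval n e R = r * M.tval n' e' R) : absHt e = absHt e' := by
  subst hn
  rw [M.tval_ext n (c := e) (c' := fun I => r * e' I)
    ((funext h).trans (M.tval_smul n r e').symm), absHt_smul e' hr]

theorem exists_dim_mul_absHt (k l : ℕ) (hl : M.lo + k * M.b ≤ l) :
    ∃ C : ℝ, ∀ (c : Fin (M.dim k) → Qb) (s : Fin k → P), M.IsZeroSet c s →
      |(M.dim l : ℝ) * absHt c - M.vdmHt (k + l) s| ≤ C := by
  have hlg : 2 * M.g ≤ l := by have := M.two_g_le_lo; omega
  have hdm : k + M.dim l = M.dim (k + l) := by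
    have h2 := M.dim_eq l hlg
    have h3 := M.dim_eq (k + l) (by omega)
    omega
  have hdm0 : 0 + M.dim l = M.dim l := zero_add _
  obtain ⟨C₁, hC₁⟩ := M.exists_absHt_tD (k + l) hdm
  obtain ⟨C₂, hC₂⟩ := M.exists_abs_minors_sub_vdm_le (N := k + l) (d := k) (by omega)
  obtain ⟨C₃, hC₃⟩ := M.exists_tmul k l (M.dim l)
  set p₀ : Fin 0 → P := fun i => i.elim0
  set c₀ := M.tD l hdm0 p₀
  have hm₀ : M.minors l p₀ ≠ 0 := Function.ne_iff.mpr ⟨fun i => i.elim0, by simp [minors]⟩
  refine ⟨C₁ + C₂ + C₃ + absHt c₀, fun c s hc => ?_⟩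
  let std : Fin (M.dim l) → Fin (M.dim l) → Qb := fun r => Pi.single r 1
  have hstd : LinearIndependent Qb std := by
    rw [show std = ⇑(Pi.basisFun Qb (Fin (M.dim l))) from funext fun r => (Pi.basisFun_apply Qb _ r).symm]
    exact (Pi.basisFun Qb (Fin (M.dim l))).linearIndependent
  obtain ⟨r₀, hr₀, htv₀⟩ := M.exists_tval_tD_eq_sval l hdm0 hm₀ hstd fun _ i => i.elim0
  have hex : ∀ r, ∃ w : Fin (M.dim (k + l)) → Qb,
      M.val (k + l) w = M.val k c * M.val l (std r) := fun r => by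
    obtain ⟨w, hw⟩ := M.mem_W_iff.mp (M.mul_mem_W (M.val_mem k c) (M.val_mem l (std r)))
    exact ⟨w, funext fun p => (hw p).symm⟩
  choose w hw using hex
  have hwi : LinearIndependent Qb w := by
    refine Fintype.linearIndependent_iff.mpr fun d hd => ?_
    have h0 : M.val k c * M.val l (∑ r, d r • std r) = 0 := by
      have h' : M.valₗ (k + l) (∑ r, d r • w r) = 0 := by rw [hd, map_zero]
      have hl' : M.valₗ l (∑ r, d r • std r) = ∑ r, d r • M.val l (std r) := by
        simp [map_sum, valₗ, map_smul]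
      rw [show M.val l (∑ r, d r • std r) = _ from hl', Finset.mul_sum, ← h', map_sum]
      refine Finset.sum_congr rfl fun r _ => ?_
      rw [mul_smul_comm, ← hw r, map_smul]
      rfl
    rcases M.W_mul_eq_zero (M.val_mem k c) (M.val_mem l _) h0 with h | h
    · exact absurd ((M.val_eq_zero_iff k).mp h) hc.ne
    · exact Fintype.linearIndependent_iff.mp hstd d ((M.val_eq_zero_iff l).mp h)
  have hms := M.minors_ne_zero (N := k + l) (by omega) hc.inj
  obtain ⟨r₁, hr₁, htv⟩ := M.exists_tval_tD_eq_sval (k + l) hdm hms hwi fun r i => by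
    show M.val (k + l) (w r) (s i) = 0
    rw [hw, Pi.mul_apply, hc.zero, zero_mul]
  obtain ⟨e, he, hne⟩ := hC₃ (M.tpow (M.dim l) c) c₀
  obtain ⟨-, hb⟩ := hne (M.tpow_ne_zero _ hc.ne) (M.tD_ne_zero l hdm0 hm₀)
  have hH : absHt (M.tD (k + l) hdm s) = absHt e := by
    refine M.absHt_eq_of_tval_eq rfl (r := r₁ / r₀) (div_ne_zero hr₁ hr₀) fun R => ?_
    rw [htv, ← M.prod_val_mul_sval c w std hw, he, Pi.mul_apply, M.tval_tpow, htv₀]
    field_simp
    rw [mul_comm]
    rfl
  have a₁ := abs_le.mp (hC₁ s)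
  have a₂ := abs_le.mp (hC₂ s hc.inj)
  rw [M.absHt_tpow _ hc.ne, ← hH] at hb
  have a₃ := abs_le.mp hb
  have a₄ := absHt_nonneg c₀
  rw [abs_le]
  constructor <;> linarith

/-- The height of a section with simple zeros is the sum of the heights of the zeros. -/
theorem exists_absHt_zeroSet (k : ℕ) :
    ∃ C : ℝ, ∀ (c : Fin (M.dim k) → Qb) (s : Fin k → P), M.IsZeroSet c s →
      |absHt c - ∑ i, M.h1 (s i)| ≤ C := by
  set l := M.lo + k * M.b
  obtain ⟨C₁, hC₁⟩ := M.exists_dim_mul_absHt k l le_rfl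
  obtain ⟨C₂, hC₂⟩ := M.exists_dim_mul_absHt k (l + 1) (Nat.le_succ l)
  refine ⟨C₁ + C₂, fun c s hc => ?_⟩
  have hd : M.dim (l + 1) = M.dim l + 1 := by
    have hlg : 2 * M.g ≤ l := by have := M.two_g_le_lo; omega
    have h2 := M.dim_eq l hlg
    have h3 := M.dim_eq (l + 1) (by omega)
    omega
  have a₁ := abs_le.mp (hC₁ c s hc)
  have a₂ := abs_le.mp (hC₂ c s hc)
  rw [hd] at a₂
  simp only [vdmHt, Nat.cast_add, Nat.cast_one] at a₁ a₂
  rw [abs_le]
  constructor <;> linarith

/-- The height of a set of points, normalised to depend only on its divisor class. -/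
def qHt {d : ℕ} (p : Fin d → P) : ℝ :=
  ((d : ℝ) + M.g - 1) * ∑ l, M.h1 (p l) + ∑ i, ∑ j ∈ Finset.Iio i, M.pairB (p j) (p i)

theorem vdmHt_eq_qHt {N d m : ℕ} (hdm : d + m = M.dim N) (hN : 2 * M.g ≤ N) (p : Fin d → P) :
    M.vdmHt N p = M.qHt p + m * ∑ l, M.h1 (p l) := by
  have h : ((d + m + M.g : ℕ) : ℝ) = ((N + 1 : ℕ) : ℝ) := by rw [hdm, M.dim_eq N hN]
  push_cast at h
  simp only [qHt, vdmHt]
  linear_combination (-(∑ l, M.h1 (p l))) * h

/-- The arrays of two disjoint point sets with a common complement are proportional up to the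
sections. -/
theorem exists_tD_mul_eq {N d m : ℕ} (hN : M.lo + (d + d) * M.b ≤ N) (hdm : d + m = M.dim N)
    {D D₁ D' : Fin d → P} {c c₁ : Fin (M.dim (d + d)) → Qb}
    (hc : M.IsZeroSet c (Fin.append D D')) (hc₁ : M.IsZeroSet c₁ (Fin.append D₁ D'))
    (hDD : ∀ i j, D i ≠ D₁ j) :
    ∃ r : Qb, r ≠ 0 ∧ ∀ R : Fin m → P,
      (∏ b, M.val (d + d) c₁ (R b)) * M.tval N (M.tD N hdm D) R =
        r * ((∏ b, M.val (d + d) c (R b)) * M.tval N (M.tD N hdm D₁) R) := by
  have hNd : M.lo + d * M.b ≤ N :=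
    (Nat.add_le_add_left (Nat.mul_le_mul_right _ (Nat.le_add_right d d)) _).trans hN
  have hD : Function.Injective D := fun i j h => Fin.castAdd_injective d d
    (hc.inj (by simpa using h))
  have hD₁ : Function.Injective D₁ := fun i j h => Fin.castAdd_injective d d
    (hc₁.inj (by simpa using h))
  have hcD : ∀ i, M.val (d + d) c (D₁ i) ≠ 0 := fun i => hc.val_ne_zero fun j => by
    induction j using Fin.addCases with
    | left j => simpa using fun h => hDD j i h.symm
    | right j =>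
      simp only [Fin.append_right]
      intro h
      have h' := hc₁.inj (a₁ := Fin.castAdd d i) (a₂ := Fin.natAdd d j)
        (by rw [Fin.append_left, Fin.append_right]; exact h)
      have h'' := congrArg Fin.val h'
      simp only [Fin.val_castAdd, Fin.val_natAdd] at h''
      omega
  have hmD := M.minors_ne_zero hNd hD
  have hmD₁ := M.minors_ne_zero hNd hD₁
  have hfr : Module.finrank Qb (M.vanish N D) = m := by
    have := M.finrank_vanish hmD
    omega
  let bs := Module.finBasisOfFinrankEq Qb _ hfr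
  let s : Fin m → Fin (M.dim N) → Qb := fun r => (bs r : Fin (M.dim N) → Qb)
  have hs : LinearIndependent Qb s :=
    bs.linearIndependent.map' (M.vanish N D).subtype (Submodule.ker_subtype _)
  have hsv : ∀ r i, M.val N (s r) (D i) = 0 := fun r => M.mem_vanish.mp (bs r).2
  have hex : ∀ r, ∃ u : Fin (M.dim N) → Qb,
      M.val (d + d) c₁ * M.val N (s r) = M.val (d + d) c * M.val N u := fun r =>
    M.exists_eq_val_mul hc rfl hN (M.mul_mem_W (M.val_mem _ _) (M.val_mem _ _))
      (Fin.addCases (fun i => by rw [Pi.mul_apply, Fin.append_left, hsv r i, mul_zero]) fun i => by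
        have h0 := hc₁.zero (Fin.natAdd d i)
        rw [Fin.append_right] at h0
        rw [Pi.mul_apply, Fin.append_right, h0, zero_mul])
  choose u hu using hex
  have huv : ∀ r i, M.val N (u r) (D₁ i) = 0 := fun r i => by
    have h := congrFun (hu r) (D₁ i)
    have h0 := hc₁.zero (Fin.castAdd d i)
    simp only [Fin.append_left] at h0
    simpa [h0, hcD i] using h
  have hui : LinearIndependent Qb u := by
    refine Fintype.linearIndependent_iff.mpr fun a ha => ?_
    have h0 : M.val (d + d) c₁ * M.valₗ N (∑ r, a r • s r) = 0 := by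
      have h' : M.val (d + d) c * M.valₗ N (∑ r, a r • u r) = 0 := by rw [ha, map_zero, mul_zero]
      rw [← h', map_sum, map_sum, Finset.mul_sum, Finset.mul_sum]
      refine Finset.sum_congr rfl fun r _ => ?_
      rw [map_smul, map_smul, mul_smul_comm, mul_smul_comm]
      exact congrArg _ (hu r)
    rcases M.W_mul_eq_zero (M.val_mem _ c₁) (M.val_mem N _) h0 with h | h
    · exact absurd ((M.val_eq_zero_iff _).mp h) hc₁.ne
    · exact Fintype.linearIndependent_iff.mp hs a ((M.val_eq_zero_iff N).mp h)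
  obtain ⟨r, hr, htv⟩ := M.exists_tval_tD_eq_sval N hdm hmD hs fun r l => hsv r l
  obtain ⟨r₁, hr₁, htv₁⟩ := M.exists_tval_tD_eq_sval N hdm hmD₁ hui fun r l => huv r l
  have hprod : ∀ R : Fin m → P, (∏ b, M.val (d + d) c₁ (R b)) * M.sval N s R =
      (∏ b, M.val (d + d) c (R b)) * M.sval N u R := fun R => by
    simp only [sval_eq_det, ← Matrix.det_mul_row]
    congr 1
    ext r b
    exact congrFun (hu r) (R b)
  refine ⟨r / r₁, div_ne_zero hr hr₁, fun R => ?_⟩
  rw [htv, htv₁]
  field_simp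
  exact hprod R

/-- Invariance of `qHt` for two disjoint point sets with a common complement. -/
theorem exists_qHt_sub_le (d : ℕ) :
    ∃ C : ℝ, ∀ (D D₁ D' : Fin d → P) (c c₁ : Fin (M.dim (d + d)) → Qb),
      M.IsZeroSet c (Fin.append D D') → M.IsZeroSet c₁ (Fin.append D₁ D') →
      (∀ i j, D i ≠ D₁ j) → |M.qHt D - M.qHt D₁| ≤ C := by
  set N := M.lo + (d + d) * M.b
  have hNd : M.lo + d * M.b ≤ N :=
    Nat.add_le_add_left (Nat.mul_le_mul_right _ (Nat.le_add_right d d)) _
  have hNg : 2 * M.g ≤ N := by have := M.two_g_le_lo; omega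
  obtain ⟨m, hdm⟩ : ∃ m, d + m = M.dim N := ⟨M.dim N - d, by
    have h1 := M.dim_eq N hNg
    have h2 : d ≤ d * M.b := Nat.le_mul_of_pos_right _ M.b_pos
    have h3 := M.lo_ge
    omega⟩
  obtain ⟨C₁, hC₁⟩ := M.exists_absHt_tD N hdm
  obtain ⟨C₂, hC₂⟩ := M.exists_abs_minors_sub_vdm_le hNd
  obtain ⟨C₃, hC₃⟩ := M.exists_tmul (d + d) N m
  obtain ⟨C₄, hC₄⟩ := M.exists_absHt_zeroSet (d + d)
  refine ⟨2 * C₁ + 2 * C₂ + 2 * C₃ + 2 * m * C₄, fun D D₁ D' c c₁ hc hc₁ hDD => ?_⟩
  have hD : Function.Injective D := fun i j h => Fin.castAdd_injective d d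
    (hc.inj (by simpa using h))
  have hD₁ : Function.Injective D₁ := fun i j h => Fin.castAdd_injective d d
    (hc₁.inj (by simpa using h))
  have hmD := M.minors_ne_zero hNd hD
  have hmD₁ := M.minors_ne_zero hNd hD₁
  obtain ⟨r, hr, hprod⟩ := M.exists_tD_mul_eq (N := N) le_rfl hdm hc hc₁ hDD
  obtain ⟨e, he, hne⟩ := hC₃ (M.tpow m c₁) (M.tD N hdm D)
  obtain ⟨e₁, he₁, hne₁⟩ := hC₃ (M.tpow m c) (M.tD N hdm D₁)
  obtain ⟨-, hb⟩ := hne (M.tpow_ne_zero _ hc₁.ne) (M.tD_ne_zero N hdm hmD)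
  obtain ⟨-, hb₁⟩ := hne₁ (M.tpow_ne_zero _ hc.ne) (M.tD_ne_zero N hdm hmD₁)
  have hee : absHt e = absHt e₁ := by
    refine M.absHt_eq_of_tval_eq rfl (r := r) hr fun R => ?_
    rw [he, he₁, Pi.mul_apply, Pi.mul_apply, M.tval_tpow, M.tval_tpow]
    exact hprod R
  rw [M.absHt_tpow _ hc₁.ne, hee] at hb
  rw [M.absHt_tpow _ hc.ne] at hb₁
  have a := abs_le.mp hb
  have a' := abs_le.mp hb₁
  have b := abs_le.mp (hC₁ D)
  have b' := abs_le.mp (hC₁ D₁)
  have q := abs_le.mp (hC₂ D hD)
  have q' := abs_le.mp (hC₂ D₁ hD₁)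
  rw [M.vdmHt_eq_qHt hdm hNg] at q q'
  have z := abs_le.mp (hC₄ c _ hc)
  have z' := abs_le.mp (hC₄ c₁ _ hc₁)
  simp only [Fin.sum_univ_add, Fin.append_left, Fin.append_right] at z z'
  have hm : (0 : ℝ) ≤ m := Nat.cast_nonneg m
  rw [abs_le]
  constructor <;>
    linarith [mul_le_mul_of_nonneg_left z.1 hm, mul_le_mul_of_nonneg_left z.2 hm,
      mul_le_mul_of_nonneg_left z'.1 hm, mul_le_mul_of_nonneg_left z'.2 hm]

end HtModel

end FermatLib.AV.MW

end
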