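import Mathlib.NumberTheory.Height.NumberField
import Mathlib.RingTheory.Ideal.Norm.RelNorm

/-!
# Heights and extensions of number fields

For an extension `L / K` of number fields and a tuple `x` in `K`, the height of `x` computed
in `L` is the `[L : K]`-th power of the height computed in `K`.
-/

set_option autoImplicit false

open Height Module

namespace FermatLib.AV.MW

variable {K L : Type*} [Field K] [NumberField K] [Field L] [NumberField L] [Algebra K L]
variable {ι : Type*} [Finite ι]

omit [Finite ι] in
theorem prod_infinitePlace_pow_mult_eq_prod_embeddings (x : ι → K) :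
    ∏ v : NumberField.InfinitePlace K, (⨆ i, v (x i)) ^ v.mult =
      ∏ φ : K →+* ℂ, ⨆ i, ‖φ (x i)‖ := by
  classical
  rw [← Finset.prod_fiberwise Finset.univ NumberField.InfinitePlace.mk
    (fun φ : K →+* ℂ => ⨆ i, ‖φ (x i)‖)]
  refine Finset.prod_congr rfl fun w _ => ?_
  rw [Finset.prod_congr rfl (g := fun _ => ⨆ i, w (x i)) fun φ hφ => ?_, Finset.prod_const,
    NumberField.InfinitePlace.card_filter_mk_eq]
  rw [← (Finset.mem_filter.mp hφ).2]
  rfl

theorem card_embeddings_extending (φ : K →+* ℂ) :
    Nat.card {ψ : L →+* ℂ // ψ.comp (algebraMap K L) = φ} = finrank K L := by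
  let : Algebra K ℂ := φ.toAlgebra
  have : FiniteDimensional K L := Module.Finite.of_restrictScalars_finite ℚ K L
  rw [← AlgHom.card K L ℂ, ← Nat.card_eq_fintype_card]
  refine Nat.card_congr
    { toFun := fun ψ => ({ toRingHom := ψ.1, commutes' := fun r => RingHom.congr_fun ψ.2 r } :
        L →ₐ[K] ℂ)
      invFun := fun f => ⟨f.toRingHom, RingHom.ext fun r => f.commutes r⟩
      left_inv := fun ψ => rfl
      right_inv := fun f => rfl }

omit [Finite ι] in
theorem prod_embeddings_algebraMap (x : ι → K) :
    ∏ ψ : L →+* ℂ, ⨆ i, ‖ψ (algebraMap K L (x i))‖ =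
      (∏ φ : K →+* ℂ, ⨆ i, ‖φ (x i)‖) ^ finrank K L := by
  classical
  rw [← Finset.prod_fiberwise Finset.univ (fun ψ : L →+* ℂ => ψ.comp (algebraMap K L))
    (fun ψ => ⨆ i, ‖ψ (algebraMap K L (x i))‖), ← Finset.prod_pow]
  refine Finset.prod_congr rfl fun φ _ => ?_
  rw [Finset.prod_congr rfl (g := fun _ => ⨆ i, ‖φ (x i)‖) fun ψ hψ => ?_, Finset.prod_const,
    ← Fintype.card_subtype, ← Nat.card_eq_fintype_card, card_embeddings_extending]
  rw [← (Finset.mem_filter.mp hψ).2]
  rfl

open NumberField in
/-- The height of an integral tuple through embeddings and the norm of its content. -/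
theorem mulHeight_mul_absNorm_eq {x : ι → 𝓞 K} (hx : x ≠ 0) :
    mulHeight (fun i => (x i : K)) * (Ideal.span (Set.range x)).absNorm =
      ∏ φ : K →+* ℂ, ⨆ i, ‖φ (x i : K)‖ := by
  have hx' : (fun i => (x i : K)) ≠ 0 := fun h =>
    hx (funext fun i => RingOfIntegers.ext (congrFun h i))
  rw [NumberField.mulHeight_eq hx', mul_assoc,
    mul_comm _ ((Ideal.span (Set.range x)).absNorm : ℝ),
    absNorm_mul_finprod_finitePlace_eq_one hx, mul_one,
    prod_infinitePlace_pow_mult_eq_prod_embeddings]

open NumberField in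
theorem mulHeight_algebraMap_integral {x : ι → 𝓞 K} (hx : x ≠ 0) :
    mulHeight (fun i => algebraMap K L (x i)) =
      mulHeight (fun i => (x i : K)) ^ finrank K L := by
  let y : ι → 𝓞 L := fun i => algebraMap (𝓞 K) (𝓞 L) (x i)
  have hy : y ≠ 0 := fun h => hx <| funext fun i =>
    FaithfulSMul.algebraMap_injective (𝓞 K) (𝓞 L) (by simpa [y] using congrFun h i)
  have hcoe : (fun i => algebraMap K L (x i)) = fun i => (y i : L) := by
    funext i
    exact (IsScalarTower.algebraMap_apply (𝓞 K) K L (x i)).symm.trans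
      (IsScalarTower.algebraMap_apply (𝓞 K) (𝓞 L) L (x i))
  have hI : (Ideal.span (Set.range y)).absNorm =
      (Ideal.span (Set.range x)).absNorm ^ finrank K L := by
    have h1 : Ideal.span (Set.range y) =
        (Ideal.span (Set.range x)).map (algebraMap (𝓞 K) (𝓞 L)) := by
      rw [Ideal.map_span, ← Set.range_comp]
      rfl
    rw [h1, Ideal.absNorm_algebraMap]
    congr 1
    exact (IsFractionRing.finrank_eq (𝓞 K) K (𝓞 L) L).symm
  have e1 := mulHeight_mul_absNorm_eq hy
  have e2 := mulHeight_mul_absNorm_eq hx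
  have e3 := prod_embeddings_algebraMap (L := L) (fun i => (x i : K))
  rw [hcoe]
  have hpos : ((Ideal.span (Set.range y)).absNorm : ℝ) ≠ 0 := by
    have : Ideal.span (Set.range y) ≠ ⊥ := fun h => hy <| funext fun i => by
      have := Ideal.subset_span (α := 𝓞 L) (Set.mem_range_self (f := y) i)
      rwa [h] at this
    exact_mod_cast Ideal.absNorm_eq_zero_iff.not.mpr this
  apply mul_right_cancel₀ hpos
  rw [e1, hI, Nat.cast_pow, ← mul_pow, e2, ← e3]
  simp only [show ∀ i, algebraMap K L (x i : K) = (y i : L) from fun i => congrFun hcoe i]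

/-- The height of a tuple is raised to the power `[L : K]` in an extension `L / K`. -/
theorem mulHeight_algebraMap_comp (x : ι → K) :
    mulHeight (fun i => algebraMap K L (x i)) = mulHeight x ^ finrank K L := by
  rcases eq_or_ne x 0 with rfl | hx
  · simp
  obtain ⟨b, hb⟩ := IsLocalization.exist_integer_multiples_of_finite
    (nonZeroDivisors (NumberField.RingOfIntegers K)) x
  choose y hy using hb
  have hb0 : ((b : NumberField.RingOfIntegers K) : K) ≠ 0 := by
    simpa using nonZeroDivisors.coe_ne_zero b
  have hsm : (fun i => (y i : K)) = ((b : NumberField.RingOfIntegers K) : K) • x :=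
    funext fun i => (hy i).trans (Algebra.smul_def _ _)
  have hy0 : y ≠ 0 := fun h => hx <| funext fun i => by
    have h1 : ((b : NumberField.RingOfIntegers K) : K) • x i = 0 := by
      rw [← Pi.smul_apply, ← hsm, h]; rfl
    simpa [hb0] using h1
  have key := mulHeight_algebraMap_integral (L := L) hy0
  rw [hsm, mulHeight_smul_eq_mulHeight x hb0] at key
  rw [← key, ← mulHeight_smul_eq_mulHeight (fun i => algebraMap K L (x i))
    (c := algebraMap K L ((b : NumberField.RingOfIntegers K) : K)) (by simpa using hb0)]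
  congr 1
  funext i
  rw [Pi.smul_apply, smul_eq_mul, ← map_mul, ← smul_eq_mul, ← Pi.smul_apply, ← hsm]

theorem logHeight_algebraMap_comp (x : ι → K) :
    logHeight (fun i => algebraMap K L (x i)) = finrank K L * logHeight x := by
  rw [logHeight_eq_log_mulHeight, logHeight_eq_log_mulHeight, mulHeight_algebraMap_comp,
    Real.log_pow]

end FermatLib.AV.MW
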