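import Fermat.Agent.AV.MW.Height.Kummer

/-!
# Finitely many classes share a Kummer array
-/

set_option autoImplicit false

open Finset

noncomputable section

namespace FermatLib.AV.MW

local notation "Qb" => AlgebraicClosure ℚ

/-- The finiteness input: a product `c * u` factors in finitely many ways up to classes. -/
structure HtFinite {P : Type*} {M : HtModel P} {J : Type*} [AddCommGroup J]
    (G : HtClasses M J) : Prop where
  finite_classes : ∀ (d : ℕ) (u : Fin (M.dim (M.klvl d)) → Qb), u ≠ 0 →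
    {x : J | ∃ (D D' : Fin d → P) (c : Fin (M.dim (d + d)) → Qb)
      (a a' : Fin (M.dim (M.lvl d)) → Qb),
      M.IsZeroSet c (Fin.append D D') ∧ G.cls D = x ∧
      (∀ i, M.val (M.lvl d) a (D i) = 0) ∧ (∀ i, M.val (M.lvl d) a' (D' i) = 0) ∧
      M.val (M.lvl d) a * M.val (M.lvl d) a' =
        M.val (d + d) c * M.val (M.klvl d) u}.Finite

namespace HtModel

variable {P : Type*} (M : HtModel P)

theorem nvar_pos (d : ℕ) : 0 < M.nvar d := by
  have h1 := M.dim_eq (M.lvl d) (by have := M.two_g_le_lo; have := M.le_lvl d; omega)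
  have h2 := M.le_lvl d
  have h3 := M.lo_ge
  have h4 := M.b_pos
  simp only [nvar, lvl] at *
  omega

theorem exists_val_eq_tval_update (k : ℕ) {m : ℕ} (c : (Fin m → Fin (M.dim k)) → Qb)
    (R : Fin m → P) (i : Fin m) :
    ∃ u : Fin (M.dim k) → Qb, ∀ q, M.val k u q = M.tval k c (Function.update R i q) := by
  classical
  have hmem : (fun q => M.tval k c (Function.update R i q)) ∈ M.W k := by
    have h : (fun q => M.tval k c (Function.update R i q)) = ∑ I : Fin m → Fin (M.dim k),
        (c I * ∏ b ∈ Finset.univ.erase i, M.ev k (R b) (I b)) • fun q => M.ev k q (I i) := by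
      funext q
      simp only [tval, Finset.sum_apply, Pi.smul_apply, smul_eq_mul]
      refine Finset.sum_congr rfl fun I _ => ?_
      rw [← Finset.mul_prod_erase _ _ (Finset.mem_univ i), Function.update_self,
        Finset.prod_congr rfl fun b hb => by
          rw [Function.update_of_ne (Finset.ne_of_mem_erase hb)]]
      ring
    rw [h]
    exact Submodule.sum_mem _ fun I _ => Submodule.smul_mem _ _ (M.ev_mem_W (I i))
  obtain ⟨u, hu⟩ := M.mem_W_iff.mp hmem
  exact ⟨u, fun q => (hu q).symm⟩

theorem pointVal_update_eq_zero {d : ℕ} (D : Fin d → P) (R : Fin (M.nvar d) → P)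
    (i : Fin (M.nvar d)) (l : Fin d) : M.pointVal D (Function.update R i (D l)) = 0 := by
  rw [pointVal, tval_tD]
  exact (M.blockDet (M.lvl d) (M.add_nvar d)).map_eq_zero_of_eq _ (i := Sum.inl l) (j := Sum.inr i)
    (by simp) (by simp)

end HtModel

namespace HtClasses

variable {P : Type*} {M : HtModel P} {J : Type*} [AddCommGroup J] (G : HtClasses M J)

/-- Only finitely many classes have a given Kummer array. -/
theorem finite_fibre (hfin : HtFinite G) (d : ℕ) (hd : G.d₀ ≤ d)
    {F : (Fin (M.nvar d) → Fin (M.dim (M.klvl d))) → Qb} (hF : F ≠ 0) :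
    {x : J | ∃ (r : G.Rep d x) (z : Qb), ∀ I, r.F I = z * F I}.Finite := by
  classical
  obtain ⟨R, hR⟩ : ∃ R, M.tval (M.klvl d) F R ≠ 0 :=
    Function.ne_iff.mp fun h => hF (M.tval_injective _ h)
  let i₀ : Fin (M.nvar d) := ⟨0, M.nvar_pos d⟩
  obtain ⟨u, hu⟩ := M.exists_val_eq_tval_update (M.klvl d) F R i₀
  have hu0 : u ≠ 0 := fun h => hR (by
    have := hu (R i₀)
    rw [h, M.val_zero, Function.update_eq_self] at this
    exact this.symm)
  obtain ⟨C, hC⟩ := G.exists_absHt_sub_Hsym d hd
  refine (hfin.finite_classes d u hu0).subset fun x ⟨r, z, hz⟩ => ?_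
  obtain ⟨r', hr, hr'⟩ := G.exists_rep_avoiding d hd x (Set.finite_range R)
  obtain ⟨z', hz', he⟩ := G.kummer_unique d hd r r'
  have hz0 : z ≠ 0 := fun h => (hC x r).1 (funext fun I => by rw [hz I, h, zero_mul]; rfl)
  obtain ⟨a, ha⟩ := M.exists_val_eq_tval_update (M.lvl d)
    (M.tD (M.lvl d) (M.add_nvar d) r'.D) R i₀
  obtain ⟨a', ha'⟩ := M.exists_val_eq_tval_update (M.lvl d)
    (M.tD (M.lvl d) (M.add_nvar d) r'.D') R i₀
  let γ : Qb := ∏ b ∈ Finset.univ.erase i₀, M.val (d + d) r'.c (R b)
  have hγ : γ * (z' * z) ≠ 0 := by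
    refine mul_ne_zero (Finset.prod_ne_zero_iff.mpr fun b _ => r'.zeroSet.val_ne_zero fun j => ?_)
      (mul_ne_zero hz' hz0)
    induction j using Fin.addCases with
    | left j => rw [Fin.append_left]; exact fun h => hr j ⟨b, h⟩
    | right j => rw [Fin.append_right]; exact fun h => hr' j ⟨b, h⟩
  refine ⟨r'.D, r'.D', r'.c, a, (γ * (z' * z))⁻¹ • a', r'.zeroSet, r'.cls_D, fun l => ?_,
    fun l => ?_, funext fun q => ?_⟩
  · rw [ha]
    exact M.pointVal_update_eq_zero r'.D R i₀ l
  · rw [M.val_smul, Pi.smul_apply, ha']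
    exact smul_eq_zero_of_right _ (M.pointVal_update_eq_zero r'.D' R i₀ l)
  · have hk := r'.isKummer (Function.update R i₀ q)
    have hF' : M.tval (M.klvl d) r'.F (Function.update R i₀ q) =
        z' * z * M.tval (M.klvl d) F (Function.update R i₀ q) := by
      rw [← congrFun (M.tval_smul (M.klvl d) (z' * z) F) (Function.update R i₀ q)]
      congr 1
      funext I
      rw [he, hz, mul_assoc]
    have hc : ∏ b, M.val (d + d) r'.c (Function.update R i₀ q b) = M.val (d + d) r'.c q * γ := by
      rw [← Finset.mul_prod_erase _ _ (Finset.mem_univ i₀), Function.update_self]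
      congr 1
      exact Finset.prod_congr rfl fun b hb => by
        rw [Function.update_of_ne (Finset.ne_of_mem_erase hb)]
    rw [hF', hc, ← hu] at hk
    rw [Pi.mul_apply, Pi.mul_apply, M.val_smul, Pi.smul_apply, ha, ha', smul_eq_mul]
    simp only [HtModel.pointVal] at hk
    rw [mul_left_comm, show M.tval (M.lvl d) (M.tD (M.lvl d) (M.add_nvar d) r'.D)
        (Function.update R i₀ q) * M.tval (M.lvl d) (M.tD (M.lvl d) (M.add_nvar d) r'.D')
        (Function.update R i₀ q) = γ * (z' * z) * (M.val (d + d) r'.c q * M.val (M.klvl d) u q) by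
      linear_combination -hk, inv_mul_cancel_left₀ hγ]

end HtClasses

end FermatLib.AV.MW

end
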