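import Fermat.Agent.AV.MW.Height.Abs
import Mathlib.LinearAlgebra.Matrix.Determinant.Basic
import Mathlib.LinearAlgebra.Finsupp.LinearCombination

/-!
# Multihomogeneous forms and heights

`forms ι n` is the space of forms of multidegree `n` in a family of vector variables.
-/

set_option autoImplicit false

open Finset

noncomputable section

namespace FermatLib.AV.MW

local notation "Qb" => AlgebraicClosure ℚ

variable {α : Type*} [Fintype α] {ι : α → Type*}

/-- The monomial with index `I` in a family of vector variables. -/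
def monoForm {n : α → ℕ} (I : (a : α) → Fin (n a) → ι a) (x : (a : α) → ι a → Qb) : Qb :=
  ∏ a, ∏ l, x a (I a l)

variable (ι) in
/-- The forms of multidegree `n` in a family of vector variables. -/
def forms (n : α → ℕ) : Submodule Qb (((a : α) → ι a → Qb) → Qb) :=
  Submodule.span Qb (Set.range fun I : (a : α) → Fin (n a) → ι a => monoForm I)

theorem monoForm_mem {n : α → ℕ} (I : (a : α) → Fin (n a) → ι a) : monoForm I ∈ forms ι n :=
  Submodule.subset_span (Set.mem_range_self I)

theorem forms_congr {n p : α → ℕ} (h : n = p) {f : ((a : α) → ι a → Qb) → Qb}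
    (hf : f ∈ forms ι n) : f ∈ forms ι p :=
  h ▸ hf

theorem const_mem_forms (c : Qb) : (fun _ => c) ∈ forms ι 0 := by
  have h : (fun _ => c) =
      c • monoForm (ι := ι) (n := 0) (fun a l => (Nat.not_lt_zero _ l.2).elim) := by
    funext x
    simp [monoForm]
  rw [h]
  exact Submodule.smul_mem _ _ (monoForm_mem _)

theorem proj_mem_forms [DecidableEq α] (a : α) (i : ι a) :
    (fun x => x a i) ∈ forms ι (Pi.single a 1) := by
  let I : (b : α) → Fin ((Pi.single a 1 : α → ℕ) b) → ι b := fun b l =>
    if h : b = a then h ▸ i else absurd l.2 (by simp [h])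
  suffices h : (fun x : (a : α) → ι a → Qb => x a i) = monoForm I by
    rw [h]; exact monoForm_mem _
  funext x
  rw [monoForm, Finset.prod_eq_single a]
  · have hn : (Pi.single a 1 : α → ℕ) a = 1 := by simp
    rw [← Equiv.prod_comp (finCongr hn.symm), Fin.prod_univ_one]
    simp [I]
  · intro b _ hb
    exact Finset.prod_eq_one fun l _ => absurd l.2 (by simp [hb])
  · simp

theorem mul_mem_forms {n p : α → ℕ} {f g : ((a : α) → ι a → Qb) → Qb} (hf : f ∈ forms ι n)
    (hg : g ∈ forms ι p) : f * g ∈ forms ι (n + p) := by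
  induction hf using Submodule.span_induction with
  | mem u hu =>
    induction hg using Submodule.span_induction with
    | mem v hv =>
      obtain ⟨I, rfl⟩ := hu
      obtain ⟨J, rfl⟩ := hv
      have : monoForm I * monoForm J =
          monoForm (n := n + p) fun a => Fin.append (I a) (J a) := by
        funext x
        simp only [Pi.mul_apply, monoForm, ← Finset.prod_mul_distrib]
        refine Finset.prod_congr rfl fun a _ => ?_
        simp [Fin.prod_univ_add]
      rw [this]
      exact monoForm_mem _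
    | zero => simp
    | add v w _ _ hv hw => rw [mul_add]; exact add_mem hv hw
    | smul c v _ hv => rw [mul_smul_comm]; exact Submodule.smul_mem _ c hv
  | zero => simp
  | add v w _ _ hv hw => rw [add_mul]; exact add_mem hv hw
  | smul c v _ hv => rw [smul_mul_assoc]; exact Submodule.smul_mem _ c hv

theorem prod_mem_forms {β : Type*} (s : Finset β) (n : β → α → ℕ)
    (f : β → ((a : α) → ι a → Qb) → Qb) (hf : ∀ b ∈ s, f b ∈ forms ι (n b)) :
    (fun x => ∏ b ∈ s, f b x) ∈ forms ι (∑ b ∈ s, n b) := by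
  classical
  induction s using Finset.induction_on with
  | empty => simpa using const_mem_forms (ι := ι) 1
  | insert b s hb ih =>
    rw [Finset.sum_insert hb]
    simp_rw [Finset.prod_insert hb]
    exact mul_mem_forms (hf b (Finset.mem_insert_self ..))
      (ih fun c hc => hf c (Finset.mem_insert_of_mem hc))

theorem sum_mem_forms {β : Type*} (s : Finset β) {n : α → ℕ}
    (f : β → ((a : α) → ι a → Qb) → Qb) (hf : ∀ b ∈ s, f b ∈ forms ι n) :
    (fun x => ∑ b ∈ s, f b x) ∈ forms ι n := by
  have : (fun x => ∑ b ∈ s, f b x) = ∑ b ∈ s, f b := by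
    funext x
    simp
  rw [this]
  exact Submodule.sum_mem _ hf

theorem const_mul_mem_forms {n : α → ℕ} (c : Qb) {f : ((a : α) → ι a → Qb) → Qb}
    (hf : f ∈ forms ι n) : (fun x => c * f x) ∈ forms ι n :=
  Submodule.smul_mem _ c hf

theorem det_mem_forms {β : Type*} [Fintype β] [DecidableEq β] (n : β → α → ℕ)
    (M : β → β → ((a : α) → ι a → Qb) → Qb) (hM : ∀ i j, M i j ∈ forms ι (n j)) :
    (fun x => (Matrix.of fun i j => M i j x).det) ∈ forms ι (∑ j, n j) := by
  simp_rw [Matrix.det_apply, Matrix.of_apply]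
  refine sum_mem_forms _ _ fun σ _ => ?_
  have h := prod_mem_forms Finset.univ n (fun i => M (σ i) i) fun i _ => hM _ i
  rcases Int.units_eq_one_or (Equiv.Perm.sign σ) with hs | hs
  · simpa [hs] using h
  · simp only [hs, Units.smul_def, Units.val_neg, Units.val_one, neg_smul, one_smul]
    exact Submodule.neg_mem _ h

variable [∀ a, Finite (ι a)]

theorem absHt_monoForm (n : α → ℕ) {x : (a : α) → ι a → Qb} (hx : ∀ a, x a ≠ 0) :
    absHt (fun I : (a : α) → Fin (n a) → ι a => monoForm I x) = ∑ a, n a * absHt (x a) := by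
  refine (absHt_prod (β := fun a => Fin (n a) → ι a) (fun a J => ∏ l, x a (J l))
    fun a => ?_).trans (Finset.sum_congr rfl fun a _ => ?_)
  · obtain ⟨i, hi⟩ := Function.ne_iff.mp (hx a)
    exact Function.ne_iff.mpr ⟨fun _ => i, Finset.prod_ne_zero_iff.mpr fun _ _ => hi⟩
  · rw [absHt_prod (fun _ : Fin (n a) => x a) fun _ => hx a]
    simp

omit [∀ a, Finite (ι a)] in
theorem monoForm_vec_ne_zero (n : α → ℕ) {x : (a : α) → ι a → Qb} (hx : ∀ a, x a ≠ 0) :
    (fun I : (a : α) → Fin (n a) → ι a => monoForm I x) ≠ 0 := by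
  choose i hi using fun a => Function.ne_iff.mp (hx a)
  exact Function.ne_iff.mpr ⟨fun a _ => i a, Finset.prod_ne_zero_iff.mpr fun a _ =>
    Finset.prod_ne_zero_iff.mpr fun _ _ => hi a⟩

/-- A vector whose coordinates are forms of multidegree `n` has height at most the weighted sum
of the heights, up to a constant. -/
theorem exists_absHt_forms_le {κ : Type*} [Finite κ] (n : α → ℕ)
    (φ : κ → ((a : α) → ι a → Qb) → Qb) (hφ : ∀ k, φ k ∈ forms ι n) :
    ∃ C : ℝ, ∀ x : (a : α) → ι a → Qb, (∀ a, x a ≠ 0) →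
      absHt (fun k => φ k x) ≤ ∑ a, n a * absHt (x a) + C := by
  classical
  have := fun a => Fintype.ofFinite (ι a)
  choose A hA using fun k => Submodule.mem_span_range_iff_exists_fun Qb |>.mp (hφ k)
  obtain ⟨C, hC⟩ := exists_absHt_linearMap_le A
  refine ⟨C, fun x hx => ?_⟩
  have : (fun k => φ k x) = fun k => ∑ I, A k I * monoForm I x := by
    funext k
    rw [← hA k, Finset.sum_apply]
    rfl
  rw [this, ← absHt_monoForm n hx]
  exact hC _

/-- The height of a combination with coefficients forms of multidegree `n`. -/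
theorem exists_absHt_combination_le {κ κ' : Type*} [Finite κ] [Finite κ'] [Fintype κ]
    (n : α → ℕ) (q : κ' → κ → ((a : α) → ι a → Qb) → Qb) (hq : ∀ k' k, q k' k ∈ forms ι n) :
    ∃ C : ℝ, ∀ (x : (a : α) → ι a → Qb) (y : κ → Qb), (∀ a, x a ≠ 0) →
      absHt (fun k' => ∑ k, q k' k x * y k) ≤ absHt y + ∑ a, n a * absHt (x a) + C := by
  classical
  have := fun a => Fintype.ofFinite (ι a)
  choose A hA using fun k' k => Submodule.mem_span_range_iff_exists_fun Qb |>.mp (hq k' k)
  obtain ⟨C, hC⟩ := exists_absHt_linearMap_le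
    (fun k' (p : κ × ((a : α) → Fin (n a) → ι a)) => A k' p.1 p.2)
  refine ⟨max C 0, fun x y hx => ?_⟩
  rcases eq_or_ne y 0 with rfl | hy
  · have : (fun k' => ∑ k, q k' k x * (0 : κ → Qb) k) = 0 := by funext; simp
    rw [this, absHt_zero, absHt_zero, zero_add]
    exact add_nonneg (Finset.sum_nonneg fun a _ => mul_nonneg (Nat.cast_nonneg _) (absHt_nonneg _))
      (le_max_right ..)
  have h1 : (fun k' => ∑ k, q k' k x * y k) = fun k' =>
      ∑ p : κ × ((a : α) → Fin (n a) → ι a), A k' p.1 p.2 * (y p.1 * monoForm p.2 x) := by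
    funext k'
    rw [Fintype.sum_prod_type]
    refine Finset.sum_congr rfl fun k _ => ?_
    rw [← hA k' k, Finset.sum_apply, Finset.sum_mul]
    exact Finset.sum_congr rfl fun I _ => by simp only [Pi.smul_apply, smul_eq_mul]; ring
  rw [h1]
  refine (hC fun p => y p.1 * monoForm p.2 x).trans ?_
  rw [absHt_mul hy (monoForm_vec_ne_zero n hx), absHt_monoForm n hx]
  linarith [le_max_left C 0]

/-- A Nullstellensatz identity gives a lower bound for heights. -/
theorem exists_le_absHt_of_identity {κ : Type*} [Fintype κ] (e : ℕ) (p : α → ℕ)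
    (q : ((a : α) → ι a) → κ → ((a : α) → ι a → Qb) → Qb) (hq : ∀ b k, q b k ∈ forms ι p) :
    ∃ C : ℝ, ∀ (x : (a : α) → ι a → Qb) (y : κ → Qb), (∀ a, x a ≠ 0) →
      (∀ b, ∏ a, x a (b a) ^ e = ∑ k, q b k x * y k) →
      e * ∑ a, absHt (x a) ≤ absHt y + ∑ a, p a * absHt (x a) + C := by
  obtain ⟨C, hC⟩ := exists_absHt_combination_le p q hq
  refine ⟨C, fun x y hx hid => ?_⟩
  have h := hC x y hx
  rw [show (fun b => ∑ k, q b k x * y k) = fun b : (a : α) → ι a => ∏ a, x a (b a) ^ e from
    funext fun b => (hid b).symm] at h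
  rw [absHt_prod (fun a i => x a i ^ e) fun a => ?_] at h
  · simpa [absHt_pow, Finset.mul_sum] using h
  · obtain ⟨i, hi⟩ := Function.ne_iff.mp (hx a)
    exact Function.ne_iff.mpr ⟨i, pow_ne_zero _ hi⟩

end FermatLib.AV.MW

end
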