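import Fermat.Agent.AV.MW.Height.Forms
import Mathlib.RingTheory.Nullstellensatz
import Mathlib.RingTheory.MvPolynomial.WeightedHomogeneous

/-!
# Heights of products: a global Gauss lemma

If a bilinear map of finite-dimensional spaces over `ℚ̄` has no zero divisors, then the height
of a product is the sum of the heights up to a constant.
-/

set_option autoImplicit false

open Finset MvPolynomial

noncomputable section

namespace FermatLib.AV.MW

local notation "Qb" => AlgebraicClosure ℚ

theorem weightedHomogeneousComponent_mul_of_homogeneous {σ M R : Type*} [CommRing R]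
    [AddCancelCommMonoid M] {w : σ → M} {n m : M} (q z : MvPolynomial σ R)
    (hz : z.IsWeightedHomogeneous w m) :
    weightedHomogeneousComponent w (n + m) (q * z) =
      weightedHomogeneousComponent w n q * z := by
  classical
  induction q using MvPolynomial.induction_on' with
  | monomial d r =>
    have hd : (monomial d r).IsWeightedHomogeneous w (Finsupp.weight w d) :=
      isWeightedHomogeneous_monomial w d r rfl
    rw [weightedHomogeneousComponent_of_mem ((hd.mul hz : _)),
      weightedHomogeneousComponent_of_mem hd]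
    by_cases h : n = Finsupp.weight w d
    · simp [h]
    · rw [if_neg (fun e => h (add_right_cancel e)), if_neg h, zero_mul]
  | add p p' hp hp' => rw [add_mul, map_add, map_add, hp, hp', add_mul]

variable {α : Type*} [Fintype α] [DecidableEq α] {ι : α → Type*}

/-- The weight recording the multidegree of a polynomial in a family of vector variables. -/
def multiDegWeight (s : Σ a, ι a) : α → ℕ := Pi.single s.1 1

/-- Evaluation of a multihomogeneous polynomial is a form. -/
theorem eval_mem_forms {n : α → ℕ} {q : MvPolynomial (Σ a, ι a) Qb}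
    (hq : q.IsWeightedHomogeneous multiDegWeight n) :
    (fun x => MvPolynomial.eval (fun s : Σ a, ι a => x s.1 s.2) q) ∈ forms ι n := by
  induction hq using MvPolynomial.IsWeightedHomogeneous.induction_on with
  | zero => simp only [map_zero]; exact Submodule.zero_mem _
  | add p p' _ _ hp hp' => simp only [map_add]; exact Submodule.add_mem _ hp hp'
  | monomial d r hd =>
    simp only [eval_monomial]
    refine const_mul_mem_forms r (forms_congr ?_ (prod_mem_forms d.support
      (fun s => d s • multiDegWeight s) (fun s x => x s.1 s.2 ^ d s) fun s _ => ?_))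
    · rw [← hd, Finsupp.weight_apply]
      rfl
    · rw [show (fun x : (a : α) → ι a → Qb => x s.1 s.2 ^ d s) =
        fun x => ∏ _l : Fin (d s), x s.1 s.2 by simp]
      refine forms_congr ?_ (prod_mem_forms Finset.univ (fun _ : Fin (d s) => Pi.single s.1 1)
        (fun _ x => x s.1 s.2) fun _ _ => proj_mem_forms s.1 s.2)
      simp [multiDegWeight]

variable {T : Type*}

/-- Turn a Nullstellensatz membership into a multihomogeneous identity. -/
theorem exists_forms_identity_of_mem_span {κ : Type*} [Fintype κ]
    (z : κ → MvPolynomial (Σ a, ι a) Qb) (n m : α → ℕ)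
    (hz : ∀ k, (z k).IsWeightedHomogeneous multiDegWeight m) {P : MvPolynomial (Σ a, ι a) Qb}
    (hP : P.IsWeightedHomogeneous multiDegWeight (n + m)) (hmem : P ∈ Ideal.span (Set.range z)) :
    ∃ q : κ → ((a : α) → ι a → Qb) → Qb, (∀ k, q k ∈ forms ι n) ∧ ∀ x : (a : α) → ι a → Qb,
      MvPolynomial.eval (fun s => x s.1 s.2) P =
        ∑ k, q k x * MvPolynomial.eval (fun s => x s.1 s.2) (z k) := by
  obtain ⟨c, hc⟩ := Ideal.mem_span_range_iff_exists_fun.mp hmem
  let cn : κ → MvPolynomial (Σ a, ι a) Qb := fun k =>
    weightedHomogeneousComponent multiDegWeight n (c k)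
  have hcn : ∀ k, (cn k).IsWeightedHomogeneous multiDegWeight n := fun k =>
    weightedHomogeneousComponent_isWeightedHomogeneous n (c k)
  let q : κ → ((a : α) → ι a → Qb) → Qb :=
    fun k x => MvPolynomial.eval (fun s => x s.1 s.2) (cn k)
  have hq : ∀ k, q k ∈ forms ι n := fun k => eval_mem_forms (hcn k)
  refine ⟨q, hq, fun x => ?_⟩
  have h : P = ∑ k, cn k * z k := by
    conv_lhs => rw [← hP.weightedHomogeneousComponent_same, ← hc, map_sum]
    exact Finset.sum_congr rfl fun k _ =>
      weightedHomogeneousComponent_mul_of_homogeneous _ _ (hz k)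
  conv_lhs => rw [h, map_sum]
  simp only [map_mul, q]

/-- **Global Gauss lemma.** For a bilinear map without zero divisors the height of the value
is the sum of the heights, up to a constant. -/
theorem exists_abs_absHt_bilinear_sub_le {I J : Type} [Fintype I] [Fintype J] {κ : Type*}
    [Fintype κ] (c : κ → I → J → Qb)
    (hdom : ∀ (f : I → Qb) (g : J → Qb), (∀ k, ∑ i, ∑ j, c k i j * f i * g j = 0) → f = 0 ∨ g = 0) :
    ∃ C : ℝ, ∀ (f : I → Qb) (g : J → Qb), f ≠ 0 → g ≠ 0 →
      |absHt (fun k => ∑ i, ∑ j, c k i j * f i * g j) - (absHt f + absHt g)| ≤ C := by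
  classical
  let β : Bool → Type := fun b => cond b I J
  have : ∀ b, Finite (β b)
    | true => inferInstanceAs (Finite I)
    | false => inferInstanceAs (Finite J)
  let pack : (I → Qb) → (J → Qb) → (b : Bool) → β b → Qb := fun f g b =>
    match b with
    | true => f
    | false => g
  let z : κ → MvPolynomial (Σ b, β b) Qb := fun k =>
    ∑ i : I, ∑ j : J, C (c k i j) * (X ⟨true, i⟩ * X ⟨false, j⟩)
  have hz : ∀ k, (z k).IsWeightedHomogeneous multiDegWeight 1 := fun k =>
    IsWeightedHomogeneous.sum _ _ _ fun i _ => IsWeightedHomogeneous.sum _ _ _ fun j _ => by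
      have h1 : (Pi.single true 1 + Pi.single false 1 : Bool → ℕ) = 1 := by
        funext b; cases b <;> rfl
      rw [← h1]
      exact ((isWeightedHomogeneous_X Qb multiDegWeight _).mul
        (isWeightedHomogeneous_X Qb multiDegWeight _)).C_mul _
  have hev : ∀ (x : (b : Bool) → β b → Qb) k,
      MvPolynomial.eval (fun s => x s.1 s.2) (z k) =
        ∑ i : I, ∑ j : J, c k i j * x true i * x false j := fun x k => by
    simp [z, mul_assoc]
  have hrad : ∀ (i : I) (j : J), ∃ e : ℕ, (X ⟨true, i⟩ * X ⟨false, j⟩ : MvPolynomial (Σ b, β b) Qb) ^ e ∈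
      Ideal.span (Set.range z) := fun i j => by
    rw [← Ideal.mem_radical_iff, ← vanishingIdeal_zeroLocus_eq_radical (K := Qb),
      mem_vanishingIdeal_iff]
    intro u hu
    have h := hdom (fun i => u ⟨true, i⟩) (fun j => u ⟨false, j⟩) fun k => by
      rw [← hev (fun b i => u ⟨b, i⟩) k]
      simpa using hu (z k) (Ideal.subset_span (Set.mem_range_self k))
    rcases h with h | h
    · simpa using Or.inl (congrFun h i)
    · simpa using Or.inr (congrFun h j)
  choose e he using hrad
  let N : ℕ := Finset.univ.sup fun p : I × J => e p.1 p.2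
  have hmem : ∀ (i : I) (j : J), (X ⟨true, i⟩ * X ⟨false, j⟩ : MvPolynomial (Σ b, β b) Qb) ^ (N + 1) ∈
      Ideal.span (Set.range z) := fun i j =>
    Ideal.pow_mem_of_pow_mem _ (he i j) ((Finset.le_sup (f := fun p : I × J => e p.1 p.2)
      (Finset.mem_univ (i, j))).trans (Nat.le_succ N))
  have hP : ∀ (i : I) (j : J), ((X ⟨true, i⟩ * X ⟨false, j⟩ : MvPolynomial (Σ b, β b) Qb) ^
      (N + 1)).IsWeightedHomogeneous multiDegWeight ((fun _ => N) + 1) := fun i j => by
    convert ((isWeightedHomogeneous_X Qb multiDegWeight _).mul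
      (isWeightedHomogeneous_X Qb multiDegWeight _)).pow (N + 1) using 1
    funext b
    cases b <;> simp [multiDegWeight]
  choose q hq hid using fun (i : I) (j : J) =>
    exists_forms_identity_of_mem_span z (fun _ => N) 1 hz (hP i j) (hmem i j)
  let Q : ((b : Bool) → β b) → κ → ((b : Bool) → β b → Qb) → Qb :=
    fun b => q (b true) (b false)
  have hQ : ∀ b k, Q b k ∈ forms β (fun _ => N) := fun b k => hq (b true) (b false) k
  obtain ⟨C₁, hC₁⟩ := exists_le_absHt_of_identity (ι := β) (N + 1) (fun _ => N) Q hQ
  let Z : κ → ((b : Bool) → β b → Qb) → Qb :=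
    fun k x => MvPolynomial.eval (fun s => x s.1 s.2) (z k)
  have hZ : ∀ k, Z k ∈ forms β (1 : Bool → ℕ) := fun k => eval_mem_forms (hz k)
  obtain ⟨C₂, hC₂⟩ := exists_absHt_forms_le (ι := β) (1 : Bool → ℕ) Z hZ
  refine ⟨max C₁ C₂, fun f g hf hg => ?_⟩
  have hx : ∀ b, pack f g b ≠ 0 := by intro b; cases b <;> assumption
  have hy : (fun k => MvPolynomial.eval (fun s => pack f g s.1 s.2) (z k)) =
      fun k => ∑ i, ∑ j, c k i j * f i * g j := funext fun k => hev (pack f g) k
  have h2 := hC₂ (pack f g) hx
  have h1 := hC₁ (pack f g) (fun k => MvPolynomial.eval (fun s => pack f g s.1 s.2) (z k)) hx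
    fun b => by
      rw [← hid (b true) (b false) (pack f g)]
      simp [mul_pow]
  rw [hy] at h1 h2
  simp only [Fintype.sum_bool, Pi.one_apply, Nat.cast_one, one_mul] at h1 h2
  push_cast at h1
  rw [abs_le]
  constructor
  · nlinarith [le_max_left C₁ C₂]
  · linarith [le_max_right C₁ C₂, show pack f g true = f from rfl, show pack f g false = g from rfl]

end FermatLib.AV.MW

end
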