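import Fermat.Agent.AV.MW.Height.Northcott
import Fermat.Agent.AV.MW.Degeneracy

/-!
# The height model of a curve over `ℚ̄` with a marked place

`curveModel O t ht bs` is the `HtModel` whose points are the places of `F` and whose level `n` is
the space `L(n O)` in the basis `bs n`, evaluated with the normalisation `t` at `O`: the scale of
the evaluation at `O` is the leading coefficient of `t` to the power `n`.
-/

set_option autoImplicit false

open AlgebraicCurve FermatLib.Curve MvPolynomial

noncomputable section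

namespace FermatLib.AV.MW

local notation "Qb" => AlgebraicClosure ℚ

variable {F : Type*} [Field F] [Algebra Qb F] [IsCurveOver Qb F]

/-- The divisor `n O`. -/
abbrev multO (O : Place Qb F) (n : ℕ) : Divisor Qb F := Finsupp.single O (n : ℤ)

variable (O : Place Qb F) (t : F)

theorem degree_multO [HasLargeRR Qb F] (n : ℕ) : Divisor.degree (multO O n) = n :=
  degree_single_one O _

omit [IsCurveOver Qb F] in
theorem multO_add (m n : ℕ) : multO O (m + n) = multO O m + multO O n := by
  simp [multO]

open scoped Classical in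
/-- The scale of the normalised evaluation. -/
def evScale (v : Place Qb F) : Qb := if v = O then lc O 1 t else 1

theorem evScale_ne_zero (ht : t ∈ ordGE O 1 ∧ t ∉ ordGE O 2) (v : Place Qb F) :
    evScale O t v ≠ 0 := by
  classical
  rw [evScale]
  split_ifs
  · exact fun h => ht.2 ((lc_eq_zero_iff ht.1).mp h)
  · exact one_ne_zero

/-- Sections of `L(n O)` as functions of the place. -/
def secFun (n : ℕ) : ↥(riemannRochSpace (multO O n)) →ₗ[Qb] (Place Qb F → Qb) :=
  LinearMap.pi fun v => evScale O t v ^ n • evL (multO O n) v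

theorem secFun_apply (n : ℕ) (f : ↥(riemannRochSpace (multO O n))) (v : Place Qb F) :
    secFun O t n f v = evScale O t v ^ n * evL (multO O n) v f := rfl

variable [HasLargeRR Qb F]

omit [HasLargeRR Qb F] in
theorem secFun_eq_zero_iff (ht : t ∈ ordGE O 1 ∧ t ∉ ordGE O 2) (n : ℕ)
    (f : ↥(riemannRochSpace (multO O n))) (v : Place Qb F) :
    secFun O t n f v = 0 ↔ evL (multO O n) v f = 0 := by
  rw [secFun_apply, mul_eq_zero]
  exact or_iff_right (pow_ne_zero _ (evScale_ne_zero O t ht v))

theorem secFun_injective [Infinite (Place Qb F)] (ht : t ∈ ordGE O 1 ∧ t ∉ ordGE O 2) (n : ℕ) :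
    Function.Injective (secFun O t n) := by
  refine (injective_iff_map_eq_zero _).mpr fun f hf => ?_
  by_contra hne
  exact Set.infinite_univ ((finite_zeros f hne).subset fun v _ =>
    (secFun_eq_zero_iff O t ht n f v).mp (congrFun hf v))

omit [HasLargeRR Qb F] in
theorem secFun_mul {m n : ℕ} {f g : F} (hf : f ∈ riemannRochSpace (multO O m))
    (hg : g ∈ riemannRochSpace (multO O n)) :
    ∃ h : f * g ∈ riemannRochSpace (multO O (m + n)),
      secFun O t (m + n) ⟨f * g, h⟩ = secFun O t m ⟨f, hf⟩ * secFun O t n ⟨g, hg⟩ := by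
  have h : f * g ∈ riemannRochSpace (multO O (m + n)) := multO_add O m n ▸ mul_mem_rr hf hg
  refine ⟨h, funext fun v => ?_⟩
  have e : evL (multO O (m + n)) v ⟨f * g, h⟩ =
      evL (multO O m + multO O n) v ⟨f * g, mul_mem_rr hf hg⟩ := by
    rw [evL_apply, evL_apply]
    simp only [multO_add]
  rw [Pi.mul_apply, secFun_apply, secFun_apply, secFun_apply, e, evL_mul v hf hg, pow_add]
  ring

/-- Forms are evaluations of multihomogeneous polynomials. -/
theorem exists_poly_of_mem_forms {α : Type*} [Fintype α] [DecidableEq α] {ι : α → Type*}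
    {n : α → ℕ} {f : ((a : α) → ι a → Qb) → Qb} (hf : f ∈ forms ι n) :
    ∃ p : MvPolynomial (Σ a, ι a) Qb, p.IsWeightedHomogeneous multiDegWeight n ∧
      ∀ x, f x = MvPolynomial.eval (fun s => x s.1 s.2) p := by
  induction hf using Submodule.span_induction with
  | mem u hu =>
    obtain ⟨I, rfl⟩ := hu
    refine ⟨∏ a, ∏ l, X ⟨a, I a l⟩, ?_, fun x => by simp [monoForm]⟩
    have h := IsWeightedHomogeneous.prod (R := Qb) (w := multiDegWeight) Finset.univ
      (fun a => ∏ l, X (⟨a, I a l⟩ : Σ a, ι a)) (fun a => n a • Pi.single a 1) fun a _ => by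
      simpa [multiDegWeight] using IsWeightedHomogeneous.prod (R := Qb) (w := multiDegWeight)
        Finset.univ (fun l : Fin (n a) => X (⟨a, I a l⟩ : Σ a, ι a)) (fun _ => Pi.single a 1)
        fun l _ => isWeightedHomogeneous_X Qb multiDegWeight _
    have e : (∑ a, n a • Pi.single a 1 : α → ℕ) = n := by
      funext b
      simp [Finset.sum_apply, Pi.single_apply]
    rw [e] at h
    exact h
  | zero => exact ⟨0, isWeightedHomogeneous_zero _ _ _, fun x => by simp⟩
  | add v w _ _ hv hw =>
    obtain ⟨p, hp, hpv⟩ := hv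
    obtain ⟨q, hq, hqw⟩ := hw
    exact ⟨p + q, hp.add hq, fun x => by simp [hpv, hqw]⟩
  | smul r v _ hv =>
    obtain ⟨p, hp, hpv⟩ := hv
    exact ⟨C r * p, hp.C_mul r, fun x => by simp [hpv]⟩

variable {δ : ℕ → ℕ} (bs : ∀ n, Module.Basis (Fin (δ n)) Qb ↥(riemannRochSpace (multO O n)))

/-- Coordinates of a place at level `n`. -/
def secEv (n : ℕ) (v : Place Qb F) : Fin (δ n) → Qb := fun a => secFun O t n (bs n a) v

omit [HasLargeRR Qb F] in
theorem span_secEv (n : ℕ) :
    Submodule.span Qb (Set.range fun a v => secEv O t bs n v a) =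
      LinearMap.range (secFun O t n) := by
  rw [LinearMap.range_eq_map, ← (bs n).span_eq, Submodule.map_span, ← Set.range_comp]
  rfl

theorem secDim_eq (n : ℕ) (hn : 2 * rrGenus Qb F ≤ n) (bn : Module.Basis (Fin (δ n)) Qb
    ↥(riemannRochSpace (multO O n))) : δ n + rrGenus Qb F = n + 1 := by
  have h := finrank_rr (D := multO O n) (by rw [degree_multO]; omega)
  rw [degree_multO, Module.finrank_eq_card_basis bn, Fintype.card_fin] at h
  omega

omit [HasLargeRR Qb F] in
theorem secEv_mul_mem (k l : ℕ) (a : Fin (δ k)) (c : Fin (δ l)) :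
    (fun p => secEv O t bs k p a * secEv O t bs l p c) ∈
      Submodule.span Qb (Set.range fun e v => secEv O t bs (k + l) v e) := by
  obtain ⟨h, hh⟩ := secFun_mul O t (bs k a).2 (bs l c).2
  rw [span_secEv]
  exact ⟨_, hh⟩

theorem secEv_le_mul (k l : ℕ) (hk : 2 * rrGenus Qb F ≤ k) (hl : k + 2 * rrGenus Qb F ≤ l)
    (e : Fin (δ (k + l))) :
    (fun p => secEv O t bs (k + l) p e) ∈ Submodule.span Qb (Set.range
      fun (ac : Fin (δ k) × Fin (δ l)) p =>
          secEv O t bs k p ac.1 * secEv O t bs l p ac.2) := by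
  set S := Submodule.span Qb (Set.range
    fun (ac : Fin (δ k) × Fin (δ l)) p => secEv O t bs k p ac.1 * secEv O t bs l p ac.2)
  have hinf : Infinite Qb := inferInstance
  have hmul := rr_mul_eq (A := multO O k) (B := multO O l) (by rw [degree_multO]; omega)
    (by rw [degree_multO, degree_multO]; omega)
  have key : ∀ x ∈ riemannRochSpace (multO O k) * riemannRochSpace (multO O l),
      ∃ h : x ∈ riemannRochSpace (multO O (k + l)), secFun O t (k + l) ⟨x, h⟩ ∈ S := by
    intro x hx
    refine Submodule.mul_induction_on hx (fun f hf g hg => ?_) ?_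
    · obtain ⟨h, hh⟩ := secFun_mul O t hf hg
      refine ⟨h, ?_⟩
      rw [hh, ← (bs k).sum_repr ⟨f, hf⟩, ← (bs l).sum_repr ⟨g, hg⟩, map_sum, map_sum,
        Finset.sum_mul_sum]
      refine Submodule.sum_mem _ fun a _ => Submodule.sum_mem _ fun c _ => ?_
      rw [map_smul, map_smul, smul_mul_smul_comm]
      exact Submodule.smul_mem _ _ (Submodule.subset_span ⟨(a, c), rfl⟩)
    · rintro x y ⟨hx, hx'⟩ ⟨hy, hy'⟩
      refine ⟨add_mem hx hy, ?_⟩
      have e' : (⟨x + y, add_mem hx hy⟩ : ↥(riemannRochSpace (multO O (k + l)))) =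
          ⟨x, hx⟩ + ⟨y, hy⟩ := rfl
      rw [e', map_add]
      exact add_mem hx' hy'
  obtain ⟨h, hh⟩ := key (bs (k + l) e) (by rw [hmul, ← multO_add]; exact (bs (k + l) e).2)
  exact hh

variable (ht : t ∈ ordGE O 1 ∧ t ∉ ordGE O 2)

include ht in
theorem secEv_ne_zero (n : ℕ) (hn : 2 * rrGenus Qb F ≤ n) (v : Place Qb F) :
    secEv O t bs n v ≠ 0 := fun h =>
  evL_ne_zero (D := multO O n) (by rw [degree_multO]; omega) v
    ((bs n).ext fun a => (secFun_eq_zero_iff O t ht n (bs n a) v).mp (congrFun h a))

include ht in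
theorem secEv_sep (n : ℕ) (hn : 2 * rrGenus Qb F + 1 ≤ n) {p q : Place Qb F} (hpq : p ≠ q) :
    wedgeVec (secEv O t bs n p) (secEv O t bs n q) ≠ 0 := by
  intro h
  obtain ⟨a₀, ha₀⟩ := Function.ne_iff.mp (secEv_ne_zero O t bs ht n (by omega) p)
  obtain ⟨f, hfp, hfq⟩ := exists_evL_separate (D := multO O n)
    (by rw [degree_multO]; omega) hpq
  have key : ∀ x, secFun O t n x q =
      secEv O t bs n q a₀ / secEv O t bs n p a₀ * secFun O t n x p := by
    have e : (LinearMap.proj q).comp (secFun O t n) =
        (secEv O t bs n q a₀ / secEv O t bs n p a₀) • (LinearMap.proj p).comp (secFun O t n) :=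
      (bs n).ext fun c => by
        have hw := congrFun h (a₀, c)
        simp only [wedgeVec, Pi.zero_apply] at hw
        show secEv O t bs n q c =
          secEv O t bs n q a₀ / secEv O t bs n p a₀ * secEv O t bs n p c
        rw [div_mul_eq_mul_div, eq_div_iff ha₀]
        linear_combination hw
    exact fun x => LinearMap.congr_fun e x
  refine hfq ((secFun_eq_zero_iff O t ht n f q).mp ?_)
  rw [key, (secFun_eq_zero_iff O t ht n f p).mpr hfp, mul_zero]

include ht in
theorem secEv_card_zeros (n j : ℕ) (f : Place Qb F → Qb)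
    (hf : f ∈ Submodule.span Qb (Set.range fun a v => secEv O t bs n v a)) (hf0 : f ≠ 0)
    (s : Fin j → Place Qb F) (hs : Function.Injective s) (hz : ∀ i, f (s i) = 0) : j ≤ n := by
  classical
  rw [span_secEv] at hf
  obtain ⟨x, rfl⟩ := hf
  by_contra hlt
  refine hf0 ?_
  rw [eq_zero_of_evL_eq_zero x (Finset.univ.image s) ?_ ?_, map_zero]
  · rw [degree_multO, Finset.card_image_of_injective _ hs, Finset.card_univ, Fintype.card_fin]
    omega
  · intro v hv
    obtain ⟨i, -, rfl⟩ := Finset.mem_image.mp hv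
    exact (secFun_eq_zero_iff O t ht n x _).mp (hz i)

include ht in
theorem secEv_span_dim [Infinite (Place Qb F)] (b : ℕ) (hb : 2 * rrGenus Qb F + 1 ≤ b) (d A : ℕ)
    (hA : b + 2 * rrGenus Qb F ≤ A) (p : Fin d → Place Qb F) :
    Module.finrank Qb (Submodule.span Qb (Set.range
      fun (u : Fin (δ A) × (Fin d → Fin (δ b) × Fin (δ b))) q =>
        secEv O t bs A q u.1 *
          ∏ j, wedgeVec (secEv O t bs b (p j)) (secEv O t bs b q) (u.2 j))) + d =
      δ (A + d * b) := by
  classical
  have hN : multO O (A + d * b) = (Fintype.card (Fin d)) • multO O b + multO O A := by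
    rw [Fintype.card_fin]
    simp only [multO, Finsupp.smul_single, ← Finsupp.single_add, nsmul_eq_mul]
    congr 1
    push_cast
    ring
  have hinf : Infinite Qb := inferInstance
  set N := multO O (A + d * b) with hNdef
  have hsp := span_psiVal (σ := Fin d) (bs b) (bs A) (N := N) (by rw [degree_multO]; omega)
    (by rw [degree_multO, degree_multO]; omega) hN p
  have hle : riemannRochSpace (N - tupleDiv p) ≤ riemannRochSpace N := rr_mono fun v => by
    rw [Finsupp.sub_apply]; linarith [tupleDiv_nonneg p v]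
  have hmem : ∀ β, psiVal (bs b) (bs A) p β ∈ riemannRochSpace N := fun β =>
    hle (hsp ▸ Submodule.subset_span ⟨β, rfl⟩)
  set κ : Qb := ∏ j, evScale O t (p j) ^ b with hκ
  have hκ0 : κ ≠ 0 :=
    Finset.prod_ne_zero_iff.mpr fun j _ => pow_ne_zero _ (evScale_ne_zero O t ht _)
  have hval : ∀ β q, κ * secFun O t (A + d * b) ⟨psiVal (bs b) (bs A) p β, hmem β⟩ q =
      secEv O t bs A q β.1 *
        ∏ j, wedgeVec (secEv O t bs b (p j)) (secEv O t bs b q) (β.2 j) := by
    intro β q
    set w : Fin d → ↥(riemannRochSpace (multO O b)) := fun i =>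
      evL (multO O b) (p i) (bs b (β.2 i).1) • bs b (β.2 i).2 -
        evL (multO O b) (p i) (bs b (β.2 i).2) • bs b (β.2 i).1
    have hord : ∀ i ∈ (Finset.univ : Finset (Fin d)), (w i : F) ∈ ordGE q (-(multO O b) q) :=
      fun i _ => (FermatLib.Curve.mem_riemannRochSpace.mp (w i).2) q
    have hprod : (∏ i, (w i : F)) ∈ ordGE q (∑ _i : Fin d, -(multO O b) q) := by
      have : ∀ s : Finset (Fin d), (∏ i ∈ s, (w i : F)) ∈ ordGE q (∑ _i ∈ s, -(multO O b) q) := by
        intro s
        induction s using Finset.induction_on with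
        | empty => simp [one_mem_ordGE]
        | insert i s hi ih =>
          rw [Finset.prod_insert hi, Finset.sum_insert hi]
          exact mul_mem_ordGE (hord i (Finset.mem_univ i)) ih
      exact this Finset.univ
    have e : -(multO O (A + d * b)) q = -(multO O A) q + ∑ _i : Fin d, -(multO O b) q := by
      rw [← hNdef, hN, Finsupp.add_apply, Finsupp.smul_apply, Fintype.card_fin]
      simp
    have hevL : evL (multO O (A + d * b)) q ⟨psiVal (bs b) (bs A) p β, hmem β⟩ =
        evL (multO O A) q (bs A β.1) * ∏ i, evL (multO O b) q (w i) := by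
      rw [evL_apply]
      show lc q (-(multO O (A + d * b)) q) ((bs A β.1 : F) * ∏ i, (w i : F)) = _
      rw [e, lc_mul ((FermatLib.Curve.mem_riemannRochSpace.mp (bs A β.1).2) q) hprod,
        lc_prod q Finset.univ _ _ hord, ← evL_apply]
      simp only [← evL_apply]
    have hw : ∀ i, wedgeVec (secEv O t bs b (p i)) (secEv O t bs b q) (β.2 i) =
        evScale O t (p i) ^ b * evScale O t q ^ b * evL (multO O b) q (w i) := fun i => by
      simp only [wedgeVec, secEv, secFun_apply, w, map_sub, map_smul, smul_eq_mul]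
      ring
    rw [Finset.prod_congr rfl fun i _ => hw i, Finset.prod_mul_distrib, Finset.prod_mul_distrib,
      Finset.prod_const, Finset.card_univ, Fintype.card_fin, secFun_apply, hevL, secEv,
      secFun_apply, ← hκ, pow_add, ← pow_mul, mul_comm d b]
    ring
  have hrange : Submodule.span Qb (Set.range fun
      (β : Fin (δ A) × (Fin d → Fin (δ b) × Fin (δ b))) q => secEv O t bs A q β.1 *
      ∏ j, wedgeVec (secEv O t bs b (p j)) (secEv O t bs b q) (β.2 j)) =
      Submodule.map (secFun O t (A + d * b))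
        ((riemannRochSpace (N - tupleDiv p)).comap (riemannRochSpace N).subtype) := by
    have hS : (riemannRochSpace (N - tupleDiv p)).comap (riemannRochSpace N).subtype =
        Submodule.span Qb (Set.range fun β => (⟨psiVal (bs b) (bs A) p β, hmem β⟩ :
          ↥(riemannRochSpace N))) := by
      refine Submodule.map_injective_of_injective (riemannRochSpace N).injective_subtype ?_
      rw [Submodule.map_comap_subtype, inf_eq_right.mpr hle, ← hsp, Submodule.map_span,
        ← Set.range_comp]
      rfl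
    rw [hS, Submodule.map_span, ← Set.range_comp]
    refine le_antisymm (Submodule.span_le.mpr ?_) (Submodule.span_le.mpr ?_)
    · rintro _ ⟨β, rfl⟩
      have h := Submodule.smul_mem _ κ (Submodule.subset_span (R := Qb) (s := Set.range
        (secFun O t (A + d * b) ∘ fun β => (⟨psiVal (bs b) (bs A) p β, hmem β⟩ :
          ↥(riemannRochSpace N)))) ⟨β, rfl⟩)
      have e : (fun q => secEv O t bs A q β.1 *
          ∏ j, wedgeVec (secEv O t bs b (p j)) (secEv O t bs b q) (β.2 j)) =
            κ • secFun O t (A + d * b) ⟨psiVal (bs b) (bs A) p β, hmem β⟩ :=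
        funext fun q => (hval β q).symm
      exact Set.mem_of_eq_of_mem e h
    · rintro _ ⟨β, rfl⟩
      refine (Submodule.smul_mem_iff _ hκ0).mp (Submodule.subset_span ⟨β, ?_⟩)
      exact funext fun q => (hval β q).symm
  rw [hrange, ← (Submodule.equivMapOfInjective _ (secFun_injective O t ht (A + d * b)) _).finrank_eq,
    (Submodule.comapSubtypeEquivOfLe hle).finrank_eq]
  have h2 := secDim_eq O (A + d * b) (by omega) (bs _)
  have h3 : d ≤ d * b := Nat.le_mul_of_pos_right _ (by omega)
  have h1 := finrank_sub_tuple N p (by rw [hNdef, degree_multO, Fintype.card_fin]; omega)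
  rw [hNdef, degree_multO, Fintype.card_fin] at h1
  rw [← hNdef] at h1
  omega

theorem secEv_null (b : ℕ) (hb : 4 * rrGenus Qb F + 1 ≤ b) (d m : ℕ) (κ : Type) [Fintype κ]
    (ψ : κ → ((Fin d → Fin (δ b) → Qb) → Qb))
    (hψ : ∀ q, ψ q ∈ forms (fun _ : Fin d => Fin (δ b)) (fun _ => m))
    (hnz : ∀ p : Fin d → Place Qb F, ∃ q, ψ q (fun j => secEv O t bs b (p j)) ≠ 0) :
    ∃ (e : ℕ) (g : (Fin d → Fin (δ b)) → κ → ((Fin d → Fin (δ b) → Qb) → Qb)),
      m ≤ e ∧
      (∀ c q, g c q ∈ forms (fun _ : Fin d => Fin (δ b)) (fun _ => e - m)) ∧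
      ∀ (p : Fin d → Place Qb F) c, ∏ j, secEv O t bs b (p j) (c j) ^ e =
        ∑ q, g c q (fun j => secEv O t bs b (p j)) * ψ q (fun j => secEv O t bs b (p j)) := by
  classical
  choose P hP hval using fun q => exists_poly_of_mem_forms (hψ q)
  let lam : (Fin d → Place Qb F) → Fin d → Qb := fun p i => evScale O t (p i) ^ b
  have hsc : ∀ (p : Fin d → Place Qb F) {r : Fin d → ℕ}
      {G : MvPolynomial (Σ _ : Fin d, Fin (δ b)) Qb}, IsMultiHom G r →
      MvPolynomial.eval (fun s => secEv O t bs b (p s.1) s.2) G =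
        (∏ i, lam p i ^ r i) * MvPolynomial.eval (pts (fun _ : Fin d => bs b) p) G :=
    fun p r G hG => hG.eval_scale (lam p) _
  obtain ⟨e₀, he₀⟩ := exists_null_identity (A := fun _ : Fin d => multO O b) (fun _ => bs b)
    (fun _ => by rw [degree_multO]; omega) P (fun _ _ => m) hP fun p => by
      obtain ⟨q, hq⟩ := hnz p
      rw [hval, hsc p (hP q)] at hq
      exact ⟨q, right_ne_zero_of_mul hq⟩
  let e := Finset.univ.sup e₀ + m
  obtain ⟨-, hid⟩ := he₀ (fun _ => e) fun j =>
    (Finset.le_sup (Finset.mem_univ j)).trans (Nat.le_add_right _ m)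
  choose G hG hGid using hid
  let g : (Fin d → Fin (δ b)) → κ → ((Fin d → Fin (δ b) → Qb) → Qb) :=
    fun c q x => MvPolynomial.eval (fun s => x s.1 s.2) (G c q)
  have hg : ∀ c q, g c q ∈ forms (fun _ : Fin d => Fin (δ b)) (fun _ => e - m) :=
    fun c q => eval_mem_forms (hG c q)
  refine ⟨e, g, Nat.le_add_left _ _, hg, fun p c => ?_⟩
  calc ∏ j, secEv O t bs b (p j) (c j) ^ e
      = (∏ i, lam p i ^ e) * ∏ i, pts (fun _ : Fin d => bs b) p ⟨i, c i⟩ ^ e := by
        rw [← Finset.prod_mul_distrib]
        exact Finset.prod_congr rfl fun i _ => mul_pow _ _ _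
    _ = ∑ q, g c q (fun j => secEv O t bs b (p j)) * ψ q (fun j => secEv O t bs b (p j)) := by
        rw [hGid c p, Finset.mul_sum]
        refine Finset.sum_congr rfl fun q _ => ?_
        simp only [g, hval]
        rw [hsc p (hG c q), hsc p (hP q)]
        simp only [Pi.sub_apply]
        have : (∏ i, lam p i ^ (e - m)) * ∏ i, lam p i ^ m = ∏ i, lam p i ^ e := by
          rw [← Finset.prod_mul_distrib]
          exact Finset.prod_congr rfl fun i _ => by
            rw [← pow_add, Nat.sub_add_cancel (Nat.le_add_left m _)]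
        linear_combination -(MvPolynomial.eval (pts (fun _ : Fin d => bs b) p) (G c q) *
          MvPolynomial.eval (pts (fun _ : Fin d => bs b) p) (P q)) * this

/-- The height model of `(F, O)` in the bases `bs`, normalised by `t`. -/
def curveModel [Infinite (Place Qb F)] : HtModel (Place Qb F) where
  g := rrGenus Qb F
  b := 4 * rrGenus Qb F + 1
  lo := 4 * rrGenus Qb F + (4 * rrGenus Qb F + 1)
  dim := δ
  ev := secEv O t bs
  b_pos := by omega
  lo_le_b := by omega
  lo_ge := le_rfl
  infinite := inferInstance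
  dim_eq n hn := secDim_eq O n hn (bs n)
  indep n := (bs n).linearIndependent.map' (secFun O t n)
    (LinearMap.ker_eq_bot.mpr (secFun_injective O t ht n))
  ev_ne_zero := secEv_ne_zero O t bs ht
  mul_mem := secEv_mul_mem O t bs
  le_mul := secEv_le_mul O t bs
  card_zeros := secEv_card_zeros O t bs ht
  sep _ _ := secEv_sep O t bs ht _ (by omega)
  span_dim d A hA := secEv_span_dim O t bs ht _ (by omega) d A (by omega)
  null := secEv_null O t bs _ le_rfl

end FermatLib.AV.MW

end
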