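import Fermat.Agent.AV.MW.Height.Instance
import Fermat.Agent.AV.MW.Classes

/-!
# Divisor classes of a curve as the input of the height machine

`curveClasses O t bs ht` attaches to the height model of `(F, O)` the classes of tuples of places
in `Pic⁰`, and `curveFinite O t bs ht` is the finiteness of the ways to factor a section up to classes.
-/

set_option autoImplicit false

open AlgebraicCurve FermatLib.Curve

noncomputable section

namespace FermatLib.AV.MW

local notation "Qb" => AlgebraicClosure ℚ

section Places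

variable {k F : Type*} [Field k] [Field F] [Algebra k F] [IsAlgClosed k] [IsCurveOver k F]

theorem infinite_places [HasLargeRR k F] [CharZero k] [IsFunctionField k F] :
    Infinite (Place k F) := by
  refine Infinite.of_not_fintype fun h => ?_
  obtain ⟨O⟩ := HasLargeRR.nonempty_place (k := k) (F := F)
  obtain ⟨f, Z, -, -, hZ, hcard, -⟩ := exists_reduced_member
    (Finsupp.single O (2 * (rrGenus k F : ℤ) + 1)) (by rw [degree_single_one]) Set.univ
    Set.finite_univ
  rw [degree_single_one] at hcard
  obtain ⟨v, hv⟩ := Finset.card_pos.mp (by omega : 0 < Z.card)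
  exact hZ v hv trivial

omit [IsAlgClosed k] [IsCurveOver k F] in
theorem tupleDiv_append {d e : ℕ} (D : Fin d → Place k F) (E : Fin e → Place k F) :
    tupleDiv (Fin.append D E) = tupleDiv D + tupleDiv E := by
  simp [tupleDiv, Fin.sum_univ_add]

theorem pc_append (O : Place k F) {d e : ℕ} (D : Fin d → Place k F) (E : Fin e → Place k F) :
    pc O (Fin.append D E) = pc O D + pc O E := by
  rw [pc, pc, pc, ← Pic0.mk_add]
  congr 1
  ext1
  simp only [AddSubgroup.coe_add, tupleDiv_append, Fintype.card_fin, Nat.cast_add,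
    Finsupp.single_add]
  abel

/-- A section vanishing at distinct places is a section of the smaller divisor. -/
theorem mem_rr_sub_tupleDiv {A : Divisor k F} {d : ℕ} {D : Fin d → Place k F}
    (hD : Function.Injective D) (f : ↥(riemannRochSpace A))
    (hz : ∀ i, evL A (D i) f = 0) : (f : F) ∈ riemannRochSpace (A - tupleDiv D) := by
  classical
  rw [FermatLib.Curve.mem_riemannRochSpace]
  intro w
  rw [Finsupp.sub_apply, tupleDiv, Finsupp.finsetSum_apply]
  by_cases hw : ∃ i, D i = w
  · obtain ⟨i, rfl⟩ := hw
    rw [Finset.sum_eq_single i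
      (fun j _ hj => Finsupp.single_eq_of_ne fun e => hj (hD e.symm))
      (fun h => absurd (Finset.mem_univ i) h), Finsupp.single_eq_same]
    simpa using (FermatLib.Curve.mem_riemannRochSpace.mp ((evL_eq_zero_iff f).mp (hz i))) (D i)
  · rw [Finset.sum_eq_zero fun j _ => Finsupp.single_eq_of_ne fun e => hw ⟨j, e.symm⟩]
    simpa using (FermatLib.Curve.mem_riemannRochSpace.mp f.2) w

end Places

variable {F : Type*} [Field F] [Algebra Qb F] [IsCurveOver Qb F] [HasLargeRR Qb F]
  (O : Place Qb F) (t : F) {δ : ℕ → ℕ}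
  (bs : ∀ n, Module.Basis (Fin (δ n)) Qb ↥(riemannRochSpace (multO O n)))
  (ht : t ∈ ordGE O 1 ∧ t ∉ ordGE O 2)

/-- The section with given coordinates. -/
def toSec (n : ℕ) (c : Fin (δ n) → Qb) :
    ↥(riemannRochSpace (multO O n)) :=
  (bs n).equivFun.symm c

omit [IsCurveOver Qb F] [HasLargeRR Qb F] in
theorem toSec_ne_zero {n : ℕ} {c : Fin (δ n) → Qb}
    (hc : c ≠ 0) : (toSec O bs n c : F) ≠ 0 := fun h =>
  hc ((bs n).equivFun.symm.map_eq_zero_iff.mp (Subtype.ext h))

include ht in
theorem secFun_eq_of_eq {m n : ℕ} [Infinite (Place Qb F)] (h : m = n)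
    (x : ↥(riemannRochSpace (multO O m))) (y : ↥(riemannRochSpace (multO O n)))
    (e : secFun O t m x = secFun O t n y) : (x : F) = y := by
  subst h
  exact congrArg _ (secFun_injective O t ht m e)

include ht in
theorem coe_mul_eq_of_secFun [Infinite (Place Qb F)] {m n k l : ℕ} (h : m + n = k + l)
    (f : ↥(riemannRochSpace (multO O m))) (g : ↥(riemannRochSpace (multO O n)))
    (f' : ↥(riemannRochSpace (multO O k))) (g' : ↥(riemannRochSpace (multO O l)))
    (e : secFun O t m f * secFun O t n g = secFun O t k f' * secFun O t l g') :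
    (f : F) * g = f' * g' := by
  obtain ⟨h₁, e₁⟩ := secFun_mul O t f.2 g.2
  obtain ⟨h₂, e₂⟩ := secFun_mul O t f'.2 g'.2
  exact secFun_eq_of_eq O t ht h _ _ (e₁.trans (e.trans e₂.symm))

omit [HasLargeRR Qb F] in
theorem secFun_toSec (n : ℕ) (c : Fin (δ n) → Qb)
    (p : Place Qb F) : ∑ a, c a * secEv O t bs n p a = secFun O t n (toSec O bs n c) p := by
  rw [toSec, Module.Basis.equivFun_symm_apply, map_sum, Finset.sum_apply]
  exact Finset.sum_congr rfl fun a _ => by rw [map_smul]; rfl

theorem curveModel_val [Infinite (Place Qb F)] (n : ℕ)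
    (c : Fin ((curveModel O t bs ht).dim n) → Qb) :
    (curveModel O t bs ht).val n c = secFun O t n (toSec O bs n c) :=
  funext fun p => secFun_toSec O t bs n c p

/-- The divisor of a section with zero set `S`. -/
theorem ord_of_isZeroSet [Infinite (Place Qb F)] {n : ℕ}
    {c : Fin ((curveModel O t bs ht).dim n) → Qb} {S : Fin n → Place Qb F}
    (hc : (curveModel O t bs ht).IsZeroSet c S) (v : Place Qb F) :
    v.ord (toSec O bs n c : F) + multO O n v = tupleDiv S v := by
  have hm := mem_rr_sub_tupleDiv hc.inj (toSec O bs n c)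
    fun i => (secFun_eq_zero_iff O t ht _ _ _).mp
      ((congrFun (curveModel_val O t bs ht n c) (S i)).symm.trans (hc.zero i))
  obtain ⟨Z, hZ, hpos, hdeg⟩ := exists_effective hm (toSec_ne_zero O bs hc.ne)
  rw [map_sub, degree_multO, degree_tupleDiv, Fintype.card_fin, sub_self] at hdeg
  have hZ0 : Z v = 0 := by
    by_contra hv
    have hle : Divisor.degree (Finsupp.single v (1 : ℤ)) ≤ Divisor.degree Z :=
      degree_mono IsCurveOver.forall_deg_eq_one_of_isAlgClosed fun w => by
        rcases eq_or_ne w v with rfl | hw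
        · rw [Finsupp.single_eq_same]
          have := hpos w
          omega
        · rw [Finsupp.single_eq_of_ne hw]
          exact hpos w
    rw [degree_single_one, hdeg] at hle
    omega
  rw [hZ, Finsupp.sub_apply] at hZ0
  omega

/-- Classes of tuples of places, over the height model of `(F, O)`. -/
def curveClasses [IsFunctionField Qb F] [Infinite (Place Qb F)] :
    HtClasses (curveModel O t bs ht) (Pic0 Qb F) where
  d₀ := 2 * rrGenus Qb F + 1
  cls D := pc O D
  cls_append D E := pc_append O D E
  exists_rep d hd x T hT := by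
    obtain ⟨P, h₁, h₂, h₃⟩ := exists_rep_reduced O d hd x T hT
    exact ⟨P, h₁, h₃, h₂⟩
  exists_zeroSet d _ S hS h := by
    rw [pc_eq_zero_iff, Fintype.card_fin] at h
    obtain ⟨f, hf, hf0⟩ := Submodule.exists_mem_ne_zero_of_ne_bot h
    have hle : riemannRochSpace (multO O d - tupleDiv S) ≤ riemannRochSpace (multO O d) :=
      rr_mono fun v => by rw [Finsupp.sub_apply]; linarith [tupleDiv_nonneg S v]
    have hf' : f ∈ riemannRochSpace (multO O d) := hle hf
    refine ⟨(bs d).equivFun ⟨f, hf'⟩, hS, fun e => hf0 ?_, fun i => ?_⟩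
    · exact congrArg Subtype.val ((bs d).equivFun.map_eq_zero_iff.mp e)
    · refine (congrFun (curveModel_val O t bs ht d ((bs d).equivFun ⟨f, hf'⟩)) (S i)).trans ?_
      rw [secFun_eq_zero_iff O t ht, toSec, LinearEquiv.symm_apply_apply, evL_eq_zero_iff]
      refine rr_mono (fun v => ?_) hf
      classical
      have h1 : tupleDiv S v = ∑ j, Finsupp.single (S j) (1 : ℤ) v := Finsupp.finsetSum_apply _ _ _
      have h2 := Finset.single_le_sum (f := fun j => (Finsupp.single (S j) (1 : ℤ)) v)
        (fun j _ => by rw [Finsupp.single_apply]; split_ifs <;> simp) (Finset.mem_univ i)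
      rw [Finsupp.sub_apply, Finsupp.sub_apply]
      show multO O d v - tupleDiv S v ≤ multO O d v - _
      linarith

/-- The finiteness input of the Kummer fibres. -/
theorem curveFinite [IsFunctionField Qb F] [Infinite (Place Qb F)] :
    HtFinite (curveClasses O t bs ht) where
  finite_classes d u hu := by
    classical
    obtain ⟨U, hU, hUpos, -⟩ := exists_effective (toSec O bs ((curveModel O t bs ht).klvl d) u).2
      (toSec_ne_zero O bs hu)
    let R : Divisor Qb F → Pic0 Qb F → Prop := fun E x => ∃ (D : Fin d → Place Qb F) (f : F),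
      f ≠ 0 ∧ pc O D = x ∧ ∀ v, v.ord f + multO O ((curveModel O t bs ht).lvl d) v - tupleDiv D v = E v
    have hsub : ∀ E, {x | R E x}.Subsingleton := by
      rintro E x ⟨D, f, hf, rfl, hD⟩ y ⟨D₁, f₁, hf₁, rfl, hD₁⟩
      rw [pc, pc, pic0_mk_eq_mk_iff]
      refine ⟨f₁ / f, div_ne_zero hf₁ hf, fun v => ?_⟩
      simp only [Finsupp.sub_apply, div_eq_mul_inv, v.ord_mul hf₁ (inv_ne_zero hf), v.ord_inv]
      have := hD v
      have := hD₁ v
      omega
    refine ((Set.finite_Icc (0 : Divisor Qb F) U).biUnion fun E _ => (hsub E).finite).subset ?_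
    rintro x ⟨D, D', c, a, a', hc, rfl, ha, ha', he⟩
    have hF := coe_mul_eq_of_secFun O t ht ((curveModel O t bs ht).lvl_add_lvl d).symm _ _ _ _
      (((congrArg₂ (· * ·) (curveModel_val O t bs ht _ a)
        (curveModel_val O t bs ht _ a')).symm.trans he).trans
        (congrArg₂ (· * ·) (curveModel_val O t bs ht _ c) (curveModel_val O t bs ht _ u)))
    have hc0 : (toSec O bs (d + d) c : F) ≠ 0 := toSec_ne_zero O bs hc.ne
    have hu0 : (toSec O bs ((curveModel O t bs ht).klvl d) u : F) ≠ 0 := toSec_ne_zero O bs hu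
    obtain ⟨ha0, ha0'⟩ := mul_ne_zero_iff.mp (hF ▸ mul_ne_zero hc0 hu0)
    have hD : Function.Injective D := fun i j h => Fin.castAdd_injective d d
      (hc.inj (by simpa using h))
    have hD' : Function.Injective D' := fun i j h => Fin.natAdd_injective d d
      (hc.inj (by rw [Fin.append_right, Fin.append_right]; exact h))
    have hm := mem_rr_sub_tupleDiv hD (toSec O bs ((curveModel O t bs ht).lvl d) a)
      fun i => (secFun_eq_zero_iff O t ht _ _ _).mp
        ((congrFun (curveModel_val O t bs ht _ a) (D i)).symm.trans (ha i))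
    have hm' := mem_rr_sub_tupleDiv hD' (toSec O bs ((curveModel O t bs ht).lvl d) a')
      fun i => (secFun_eq_zero_iff O t ht _ _ _).mp
        ((congrFun (curveModel_val O t bs ht _ a') (D' i)).symm.trans (ha' i))
    obtain ⟨E, hE, hEpos, -⟩ := exists_effective hm ha0
    obtain ⟨E', hE', hEpos', -⟩ := exists_effective hm' ha0'
    refine Set.mem_biUnion (x := E) ⟨hEpos, fun v => ?_⟩
      ⟨D, (toSec O bs ((curveModel O t bs ht).lvl d) a : F), ha0, rfl, fun v => by
        rw [hE, Finsupp.sub_apply]; ring⟩
    have h1 := ord_of_isZeroSet O t bs ht hc v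
    have h2 := congrArg v.ord hF
    rw [v.ord_mul ha0 ha0', v.ord_mul hc0 hu0] at h2
    have h3 : multO O (d + d) v + multO O ((curveModel O t bs ht).klvl d) v =
        multO O ((curveModel O t bs ht).lvl d) v + multO O ((curveModel O t bs ht).lvl d) v := by
      rw [← Finsupp.add_apply, ← multO_add, (curveModel O t bs ht).lvl_add_lvl d, multO_add, Finsupp.add_apply]
    have h4 := hE v
    have h5 := hE' v
    have h6 := hU v
    have h7 := hEpos' v
    rw [tupleDiv_append, Finsupp.add_apply] at h1
    rw [Finsupp.sub_apply] at h4 h5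
    omega

end FermatLib.AV.MW

end
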