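import Fermat.Agent.AV.MW.Height.InstanceClasses
import Fermat.Agent.AV.MW.CuspBasis

/-!
# The height machine of `X₀(N)`

The instance of the height machine at the cusp `∞` in rational bases, and the descent: the rational
points of `J₀(N)` are finitely generated as soon as their quotient by `2` is finite.
-/

set_option autoImplicit false

open AlgebraicCurve ModularCurve FermatLib.Curve

noncomputable section

namespace FermatLib.AV.MW

local notation "Qb" => AlgebraicClosure ℚ
local notation "Γℚ" => (AlgebraicClosure ℚ ≃ₐ[ℚ] AlgebraicClosure ℚ)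

variable (N : ℕ) [NeZero N]

instance infinite_placeX0 : Infinite (Place Qb (FX0 N)) := infinite_places

/-- The height model of `X₀(N)`. -/
def x0Model : HtModel (Place Qb (FX0 N)) :=
  curveModel (cuspPl N) (cuspT N) (cuspBasis N) ⟨cuspT_mem N, cuspT_not_mem N⟩

/-- The classes of `X₀(N)`. -/
def x0Classes : HtClasses (x0Model N) (JZero N) :=
  curveClasses (cuspPl N) (cuspT N) (cuspBasis N) ⟨cuspT_mem N, cuspT_not_mem N⟩

theorem x0Finite : HtFinite (x0Classes N) :=
  curveFinite (cuspPl N) (cuspT N) (cuspBasis N) ⟨cuspT_mem N, cuspT_not_mem N⟩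

/-- The Galois action on the height model of `X₀(N)`. -/
def x0Galois : HtGalois (x0Classes N) Γℚ where
  act σ v := galAct N σ • v
  act_bijective σ := MulAction.bijective (galAct N σ)
  conj σ := (σ : Qb →+* Qb)
  ev_act σ k p a := cuspEv_galAct N σ k p a
  cls_act σ _ D := ((smul_JZero N σ _).trans (smul_pc (galAct N σ) (galAct_cuspPl N σ) D)).symm
  fixed _ h := galAct_fixed h

/-- **Descent** for the rational points of `J₀(N)`. -/
theorem fg_fixedPoints_JZero_of_finiteIndex
    (h2 : (nsmulAddMonoidHom
      (α := ↥(FixedPoints.addSubgroup Γℚ (JZero N))) 2).range.FiniteIndex) :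
    AddGroup.FG ↥(FixedPoints.addSubgroup Γℚ (JZero N)) :=
  (x0Galois N).fg_fixed_of_finiteIndex (x0Finite N) _ (fun _ hx => hx) h2

end FermatLib.AV.MW

end
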