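import Fermat.Agent.AV.MW.Height.Classes

/-!
# The Kummer array of a pair of complementary point sets
-/

set_option autoImplicit false

open Finset Matrix

noncomputable section

namespace FermatLib.AV.MW

local notation "Qb" => AlgebraicClosure ℚ

namespace HtModel

variable {P : Type*} (M : HtModel P)

/-- The level of point arrays used for the height of degree `d`. -/
def lvl (d : ℕ) : ℕ := (d + d) + (M.lo + (d + d) * M.b)

/-- The level of Kummer arrays. -/
def klvl (d : ℕ) : ℕ := M.lvl d + (M.lo + (d + d) * M.b)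

/-- The number of variables of the arrays. -/
def nvar (d : ℕ) : ℕ := M.dim (M.lvl d) - d

theorem le_lvl (d : ℕ) : M.lo + (d + d) * M.b ≤ M.lvl d := Nat.le_add_left _ _

theorem le_klvl (d : ℕ) : M.lo + (d + d) * M.b ≤ M.klvl d := Nat.le_add_left _ _

theorem lvl_add_lvl (d : ℕ) : (d + d) + M.klvl d = M.lvl d + M.lvl d := by
  simp only [klvl, lvl]
  omega

theorem le_lvl_one (d : ℕ) : M.lo + d * M.b ≤ M.lvl d :=
  (Nat.add_le_add_left (Nat.mul_le_mul_right _ (Nat.le_add_right d d)) _).trans (M.le_lvl d)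

theorem add_nvar (d : ℕ) : d + M.nvar d = M.dim (M.lvl d) := by
  have h1 := M.dim_eq (M.lvl d) (by have := M.two_g_le_lo; have := M.le_lvl d; omega)
  have h2 := M.le_lvl d
  have h3 := M.lo_ge
  simp only [nvar, lvl] at *
  omega

/-- The value at `R` of the array of `D`. -/
def pointVal {d : ℕ} (D : Fin d → P) (R : Fin (M.nvar d) → P) : Qb :=
  M.tval (M.lvl d) (M.tD (M.lvl d) (M.add_nvar d) D) R

/-- `F` is a Kummer array of the complementary point sets `D`, `D'` with section `c`. -/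
def IsKummer {d : ℕ} (D D' : Fin d → P) (c : Fin (M.dim (d + d)) → Qb)
    (F : (Fin (M.nvar d) → Fin (M.dim (M.klvl d))) → Qb) : Prop :=
  ∀ R : Fin (M.nvar d) → P,
    (∏ b, M.val (d + d) c (R b)) * M.tval (M.klvl d) F R = M.pointVal D R * M.pointVal D' R

theorem exists_isKummer {d : ℕ} {D D' : Fin d → P} {c : Fin (M.dim (d + d)) → Qb}
    (hc : M.IsZeroSet c (Fin.append D D')) : ∃ F, M.IsKummer D D' c F := by
  classical
  have hD : Function.Injective D := fun i j h => Fin.castAdd_injective d d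
    (hc.inj (by simpa using h))
  have hD' : Function.Injective D' := fun i j h => Fin.natAdd_injective d d
    (hc.inj (by rw [Fin.append_right, Fin.append_right]; exact h))
  have hmD := M.minors_ne_zero (M.le_lvl_one d) hD
  have hmD' := M.minors_ne_zero (M.le_lvl_one d) hD'
  have hfr : ∀ {E : Fin d → P}, M.minors (M.lvl d) E ≠ 0 →
      Module.finrank Qb (M.vanish (M.lvl d) E) = M.nvar d := fun {E} hE => by
    have h1 := M.finrank_vanish hE
    have h2 := M.add_nvar d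
    omega
  let bs := Module.finBasisOfFinrankEq Qb _ (hfr hmD)
  let bs' := Module.finBasisOfFinrankEq Qb _ (hfr hmD')
  let s : Fin (M.nvar d) → Fin (M.dim (M.lvl d)) → Qb := fun r => (bs r : _)
  let s' : Fin (M.nvar d) → Fin (M.dim (M.lvl d)) → Qb := fun r => (bs' r : _)
  have hex : ∀ i j, ∃ u : Fin (M.dim (M.klvl d)) → Qb,
      M.val (M.lvl d) (s i) * M.val (M.lvl d) (s' j) =
        M.val (d + d) c * M.val (M.klvl d) u := fun i j =>
    M.exists_eq_val_mul hc (M.lvl_add_lvl d) (M.le_klvl d)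
      (M.mul_mem_W (M.val_mem _ _) (M.val_mem _ _))
      (Fin.addCases
        (fun l => by rw [Pi.mul_apply, Fin.append_left,
          M.mem_vanish.mp (bs i).2 l, zero_mul])
        fun l => by rw [Pi.mul_apply, Fin.append_right,
          M.mem_vanish.mp (bs' j).2 l, mul_zero])
  choose u hu using hex
  obtain ⟨r, -, htv⟩ := M.exists_tval_tD_eq_sval (M.lvl d) (M.add_nvar d) hmD (s := s)
    (bs.linearIndependent.map' (M.vanish _ D).subtype (Submodule.ker_subtype _))
    fun i l => M.mem_vanish.mp (bs i).2 l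
  obtain ⟨r', -, htv'⟩ := M.exists_tval_tD_eq_sval (M.lvl d) (M.add_nvar d) hmD' (s := s')
    (bs'.linearIndependent.map' (M.vanish _ D').subtype (Submodule.ker_subtype _))
    fun i l => M.mem_vanish.mp (bs' i).2 l
  refine ⟨fun I => r * r' * ∑ σ : Equiv.Perm (Fin (M.nvar d)), ∑ τ : Equiv.Perm (Fin (M.nvar d)),
    ((Equiv.Perm.sign σ : ℤ) : Qb) * ((Equiv.Perm.sign τ : ℤ) : Qb) *
      ∏ b, u (σ b) (τ b) (I b), fun R => ?_⟩
  have hval : ∀ σ τ : Equiv.Perm (Fin (M.nvar d)),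
      M.tval (M.klvl d) (fun I => ∏ b, u (σ b) (τ b) (I b)) R =
        ∏ b, M.val (M.klvl d) (u (σ b) (τ b)) (R b) := fun σ τ => by
    simp only [val]
    rw [Fintype.prod_sum]
    exact Finset.sum_congr rfl fun I _ => by rw [Finset.prod_mul_distrib]
  have hlin : M.tval (M.klvl d) (fun I => r * r' * ∑ σ : Equiv.Perm (Fin (M.nvar d)),
      ∑ τ : Equiv.Perm (Fin (M.nvar d)),
      ((Equiv.Perm.sign σ : ℤ) : Qb) * ((Equiv.Perm.sign τ : ℤ) : Qb) *
        ∏ b, u (σ b) (τ b) (I b)) R = r * r' * ∑ σ : Equiv.Perm (Fin (M.nvar d)),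
      ∑ τ : Equiv.Perm (Fin (M.nvar d)),
      ((Equiv.Perm.sign σ : ℤ) : Qb) * ((Equiv.Perm.sign τ : ℤ) : Qb) *
        M.tval (M.klvl d) (fun I => ∏ b, u (σ b) (τ b) (I b)) R := by
    simp only [tval, Finset.mul_sum, Finset.sum_mul, mul_assoc]
    rw [Finset.sum_comm]
    exact Finset.sum_congr rfl fun σ _ => Finset.sum_comm
  rw [hlin, pointVal, pointVal, htv, htv', sval_eq_det, sval_eq_det, Matrix.det_apply,
    Matrix.det_apply]
  simp only [Matrix.of_apply, hval, Units.smul_def, zsmul_eq_mul, Finset.mul_sum, Finset.sum_mul]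
  rw [Finset.sum_comm]
  refine Finset.sum_congr rfl fun τ _ => Finset.sum_congr rfl fun σ _ => ?_
  have h : ∀ b, M.val (M.lvl d) (s (σ b)) (R b) * M.val (M.lvl d) (s' (τ b)) (R b) =
      M.val (d + d) c (R b) * M.val (M.klvl d) (u (σ b) (τ b)) (R b) := fun b =>
    congrFun (hu (σ b) (τ b)) (R b)
  calc _ = r * r' * ((Equiv.Perm.sign σ : ℤ) : Qb) * ((Equiv.Perm.sign τ : ℤ) : Qb) *
          ∏ b, M.val (d + d) c (R b) * M.val (M.klvl d) (u (σ b) (τ b)) (R b) := by
        rw [Finset.prod_mul_distrib]; ring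
    _ = _ := by rw [← Finset.prod_congr rfl fun b _ => h b, Finset.prod_mul_distrib]; ring

theorem exists_absHt_kummer (d : ℕ) :
    ∃ C : ℝ, ∀ (D D' : Fin d → P) (c : Fin (M.dim (d + d)) → Qb)
      (F : (Fin (M.nvar d) → Fin (M.dim (M.klvl d))) → Qb),
      M.IsZeroSet c (Fin.append D D') → M.IsKummer D D' c F →
        F ≠ 0 ∧ |absHt F - (M.qHt D + M.qHt D')| ≤ C := by
  obtain ⟨C₁, hC₁⟩ := M.exists_absHt_tD (M.lvl d) (M.add_nvar d)
  obtain ⟨C₂, hC₂⟩ := M.exists_abs_minors_sub_vdm_le (M.le_lvl_one d)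
  obtain ⟨C₃, hC₃⟩ := M.exists_tmul (M.lvl d) (M.lvl d) (M.nvar d)
  obtain ⟨C₄, hC₄⟩ := M.exists_tmul (d + d) (M.klvl d) (M.nvar d)
  obtain ⟨C₅, hC₅⟩ := M.exists_absHt_zeroSet (d + d)
  refine ⟨2 * C₁ + 2 * C₂ + C₃ + C₄ + M.nvar d * C₅, fun D D' c F hc hF => ?_⟩
  have hD : Function.Injective D := fun i j h => Fin.castAdd_injective d d
    (hc.inj (by simpa using h))
  have hD' : Function.Injective D' := fun i j h => Fin.natAdd_injective d d
    (hc.inj (by rw [Fin.append_right, Fin.append_right]; exact h))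
  have hmD := M.minors_ne_zero (M.le_lvl_one d) hD
  have hmD' := M.minors_ne_zero (M.le_lvl_one d) hD'
  obtain ⟨e, he, hne⟩ := hC₃ (M.tD (M.lvl d) (M.add_nvar d) D) (M.tD (M.lvl d) (M.add_nvar d) D')
  obtain ⟨he0, hb⟩ := hne (M.tD_ne_zero _ _ hmD) (M.tD_ne_zero _ _ hmD')
  obtain ⟨e', he', hne'⟩ := hC₄ (M.tpow (M.nvar d) c) F
  have heq : ∀ R, M.tval _ e' R = M.tval _ e R := fun R => by
    rw [he', he, Pi.mul_apply, Pi.mul_apply, M.tval_tpow]
    exact hF R
  have hF0 : F ≠ 0 := fun h0 => he0 <| M.tval_injective _ <| funext fun R => by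
    rw [← heq R, he', h0, M.tval_zero, mul_zero]
  refine ⟨hF0, ?_⟩
  obtain ⟨-, hb'⟩ := hne' (M.tpow_ne_zero _ hc.ne) hF0
  have hee : absHt e' = absHt e :=
    M.absHt_eq_of_tval_eq (M.lvl_add_lvl d) one_ne_zero fun R => by rw [one_mul, heq]
  rw [M.absHt_tpow _ hc.ne, hee] at hb'
  have a := abs_le.mp hb
  have a' := abs_le.mp hb'
  have t := abs_le.mp (hC₁ D)
  have t' := abs_le.mp (hC₁ D')
  have q := abs_le.mp (hC₂ D hD)
  have q' := abs_le.mp (hC₂ D' hD')
  rw [M.vdmHt_eq_qHt (M.add_nvar d) (M.two_g_le_lo.trans ((Nat.le_add_right _ _).trans (M.le_lvl d)))]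
    at q q'
  have z := abs_le.mp (hC₅ c _ hc)
  simp only [Fin.sum_univ_add, Fin.append_left, Fin.append_right] at z
  have hm : (0 : ℝ) ≤ M.nvar d := Nat.cast_nonneg _
  rw [abs_le]
  constructor <;> linarith [mul_le_mul_of_nonneg_left z.1 hm, mul_le_mul_of_nonneg_left z.2 hm]

end HtModel

namespace HtClasses

variable {P : Type*} {M : HtModel P} {J : Type*} [AddCommGroup J] (G : HtClasses M J)

/-- A representation of a class by complementary point sets, with its section and Kummer array. -/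
structure Rep (d : ℕ) (x : J) where
  D : Fin d → P
  D' : Fin d → P
  c : Fin (M.dim (d + d)) → Qb
  F : (Fin (M.nvar d) → Fin (M.dim (M.klvl d))) → Qb
  zeroSet : M.IsZeroSet c (Fin.append D D')
  cls_D : G.cls D = x
  cls_D' : G.cls D' = -x
  isKummer : M.IsKummer D D' c F

variable {G}

theorem Rep.inj {d : ℕ} {x : J} (r : G.Rep d x) : Function.Injective r.D := fun i j h =>
  Fin.castAdd_injective d d (r.zeroSet.inj (by simpa using h))

theorem Rep.inj' {d : ℕ} {x : J} (r : G.Rep d x) : Function.Injective r.D' := fun i j h =>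
  Fin.natAdd_injective d d (r.zeroSet.inj (by rw [Fin.append_right, Fin.append_right]; exact h))

variable (G)

theorem exists_rep_avoiding (d : ℕ) (hd : G.d₀ ≤ d) (x : J) {T : Set P} (hT : T.Finite) :
    ∃ r : G.Rep d x, (∀ i, r.D i ∉ T) ∧ ∀ i, r.D' i ∉ T := by
  obtain ⟨D, hD, hx, hDT⟩ := G.exists_rep d hd x T hT
  obtain ⟨D', hD', hx', hDT'⟩ := G.exists_rep d hd (-x) (T ∪ Set.range D)
    (hT.union (Set.finite_range D))
  obtain ⟨c, hc⟩ := G.exists_zeroSet (d + d) (hd.trans (Nat.le_add_right d d)) _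
    (injective_append hD hD' fun i j e => hDT' j (Or.inr ⟨i, e⟩))
    (by rw [G.cls_append, hx, hx', add_neg_cancel])
  obtain ⟨F, hF⟩ := M.exists_isKummer hc
  exact ⟨⟨D, D', c, F, hc, hx, hx', hF⟩, hDT, fun i h => hDT' i (Or.inl h)⟩

/-- The height of any Kummer array of a class is its symmetric height, up to a constant. -/
theorem exists_absHt_sub_Hsym (d : ℕ) (hd : G.d₀ ≤ d) :
    ∃ C : ℝ, ∀ (x : J) (r : G.Rep d x), r.F ≠ 0 ∧ |absHt r.F - G.Hsym d x| ≤ C := by
  obtain ⟨C₁, h₁⟩ := M.exists_absHt_kummer d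
  obtain ⟨C₂, h₂⟩ := G.exists_qHt_sub_Q d hd
  refine ⟨C₁ + C₂ + C₂, fun x r => ?_⟩
  obtain ⟨h0, hb⟩ := h₁ r.D r.D' r.c r.F r.zeroSet r.isKummer
  have a := abs_le.mp hb
  have b := abs_le.mp (h₂ r.D r.inj)
  have b' := abs_le.mp (h₂ r.D' r.inj')
  rw [r.cls_D] at b
  rw [r.cls_D'] at b'
  refine ⟨h0, ?_⟩
  simp only [Hsym]
  rw [abs_le]
  constructor <;> linarith

theorem exists_le_Hsym (d : ℕ) (hd : G.d₀ ≤ d) : ∃ C : ℝ, ∀ x : J, -C ≤ G.Hsym d x := by
  obtain ⟨C, hC⟩ := G.exists_absHt_sub_Hsym d hd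
  refine ⟨C, fun x => ?_⟩
  obtain ⟨r, -, -⟩ := G.exists_rep_avoiding d hd x Set.finite_empty
  have a := abs_le.mp (hC x r).2
  linarith [absHt_nonneg r.F]

theorem tval_eq_zero_of_prod_mul {k l m : ℕ} {c : Fin (M.dim k) → Qb} (hc : c ≠ 0)
    {F : (Fin m → Fin (M.dim l)) → Qb}
    (h : ∀ R, (∏ b, M.val k c (R b)) * M.tval l F R = 0) : F = 0 := by
  refine (M.tval_mul_eq_zero k l (c := M.tpow m c) (c' := F) (funext fun R => ?_)).resolve_left
    (M.tpow_ne_zero m hc)
  rw [Pi.mul_apply, M.tval_tpow]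
  exact h R

/-- Kummer arrays depend on the class only, up to a scalar. -/
theorem kummer_unique (d : ℕ) (hd : G.d₀ ≤ d) {x : J} (r r' : G.Rep d x) :
    ∃ z : Qb, z ≠ 0 ∧ ∀ I, r'.F I = z * r.F I := by
  classical
  -- one step: change `D` keeping `D'`
  have step : ∀ {x : J} (a b : G.Rep d x), a.D' = b.D' → (∀ i j, a.D i ≠ b.D j) →
      ∃ z : Qb, z ≠ 0 ∧ ∀ I, b.F I = z * a.F I := by
    intro x a b hD' hdis
    have hzb : M.IsZeroSet b.c (Fin.append b.D a.D') := hD' ▸ b.zeroSet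
    obtain ⟨z, hz, hrel⟩ := M.exists_tD_mul_eq (M.le_lvl d) (M.add_nvar d) a.zeroSet hzb hdis
    refine ⟨z⁻¹, inv_ne_zero hz, fun I => ?_⟩
    have hdiff : (fun I => z * b.F I - a.F I) = 0 := by
      have hlin : ∀ R, M.tval (M.klvl d) (fun I => z * b.F I - a.F I) R =
          z * M.tval (M.klvl d) b.F R - M.tval (M.klvl d) a.F R := fun R => by
        simp [HtModel.tval, sub_mul, Finset.sum_sub_distrib, Finset.mul_sum, mul_assoc]
      obtain ⟨_, hmul⟩ := M.exists_tmul (d + d) (M.klvl d) (M.nvar d)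
      obtain ⟨e, he, -⟩ := hmul (M.tpow (M.nvar d) a.c) (fun I => z * b.F I - a.F I)
      have he0 : e = 0 := tval_eq_zero_of_prod_mul (M := M) (k := d + d) b.zeroSet.ne fun R => by
        have ha := a.isKummer R
        have hb := b.isKummer R
        have hr := hrel R
        rw [← hD'] at hb
        simp only [HtModel.pointVal] at ha hb
        rw [he, Pi.mul_apply, M.tval_tpow, hlin]
        simp only [HtModel.val] at ha hb hr ⊢
        linear_combination (z * (∏ q, ∑ i, a.c i * M.ev (d + d) (R q) i)) * hb -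
          (∏ q, ∑ i, b.c i * M.ev (d + d) (R q) i) * ha -
          M.tval (M.lvl d) (M.tD (M.lvl d) (M.add_nvar d) a.D') R * hr
      refine tval_eq_zero_of_prod_mul (M := M) (k := d + d) a.zeroSet.ne fun R => ?_
      have h := congrFun he R
      rw [he0, M.tval_zero, Pi.zero_apply, Pi.mul_apply, M.tval_tpow] at h
      exact h.symm
    have hI := congrFun hdiff I
    simp only [Pi.zero_apply, sub_eq_zero] at hI
    rw [← hI, inv_mul_cancel_left₀ hz]
  -- swapping the two halves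
  have swap : ∀ {x : J} (a : G.Rep d x), ∃ a' : G.Rep d (-x),
      a'.D = a.D' ∧ a'.D' = a.D ∧ a'.F = a.F := fun {x} a => by
    refine ⟨⟨a.D', a.D, a.c, a.F, ⟨injective_append a.inj' a.inj fun i j e => ?_,
      a.zeroSet.ne, Fin.addCases (fun i => ?_) fun i => ?_⟩, a.cls_D', by rw [neg_neg, a.cls_D],
      fun R => (a.isKummer R).trans (mul_comm _ _)⟩, rfl, rfl, rfl⟩
    · have h := congrArg Fin.val (a.zeroSet.inj (a₁ := Fin.natAdd d i) (a₂ := Fin.castAdd d j)
        (by rw [Fin.append_left, Fin.append_right]; exact e))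
      simp only [Fin.val_natAdd, Fin.val_castAdd] at h
      omega
    · rw [Fin.append_left]
      simpa only [Fin.append_right] using a.zeroSet.zero (Fin.natAdd d i)
    · rw [Fin.append_right]
      simpa only [Fin.append_left] using a.zeroSet.zero (Fin.castAdd d i)
  obtain ⟨m, hm, hm'⟩ := G.exists_rep_avoiding d hd x
    (((Set.finite_range r.D).union (Set.finite_range r.D')).union
      ((Set.finite_range r'.D).union (Set.finite_range r'.D')))
  have join : ∀ a : G.Rep d x, (∀ i j, a.D i ≠ m.D j) → (∀ i j, a.D' i ≠ m.D j) →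
      (∀ i j, a.D' i ≠ m.D' j) → ∃ z : Qb, z ≠ 0 ∧ ∀ I, m.F I = z * a.F I := by
    intro a h₁ h₂ h₃
    obtain ⟨c, hc⟩ := G.exists_zeroSet (d + d) (hd.trans (Nat.le_add_right d d)) _
      (injective_append m.inj a.inj' fun i j e => h₂ j i e.symm)
      (by rw [G.cls_append, m.cls_D, a.cls_D', add_neg_cancel])
    obtain ⟨F, hF⟩ := M.exists_isKummer hc
    let n : G.Rep d x := ⟨m.D, a.D', c, F, hc, m.cls_D, a.cls_D', hF⟩
    obtain ⟨z₁, hz₁, e₁⟩ := step a n rfl h₁
    obtain ⟨n', hn, hn', hnF⟩ := swap n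
    obtain ⟨m', hmD, hmD', hmF⟩ := swap m
    obtain ⟨z₂, hz₂, e₂⟩ := step n' m' (by rw [hn', hmD'])
      (by rw [hn, hmD]; exact h₃)
    rw [hnF, hmF] at e₂
    exact ⟨z₂ * z₁, mul_ne_zero hz₂ hz₁, fun I => by rw [e₂, show n.F I = _ from e₁ I, mul_assoc]⟩
  obtain ⟨z, hz, e⟩ := join r (fun i j h => hm j (Or.inl (Or.inl ⟨i, h⟩)))
    (fun i j h => hm j (Or.inl (Or.inr ⟨i, h⟩))) fun i j h => hm' j (Or.inl (Or.inr ⟨i, h⟩))
  obtain ⟨z', hz', e'⟩ := join r' (fun i j h => hm j (Or.inr (Or.inl ⟨i, h⟩)))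
    (fun i j h => hm j (Or.inr (Or.inr ⟨i, h⟩))) fun i j h => hm' j (Or.inr (Or.inr ⟨i, h⟩))
  refine ⟨z / z', div_ne_zero hz hz', fun I => ?_⟩
  field_simp
  rw [← e I, e' I]
  ring

end HtClasses

end FermatLib.AV.MW

end
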