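import Mathlib.LinearAlgebra.Matrix.Rank
import Mathlib.LinearAlgebra.Matrix.NonsingularInverse
import Mathlib.LinearAlgebra.Matrix.Adjugate
import Mathlib.LinearAlgebra.Dimension.StrongRankCondition
import Mathlib.LinearAlgebra.Matrix.ToLin

/-!
# Minors and Cramer's rule for vectors spanning a subspace
-/

set_option autoImplicit false

open Matrix

noncomputable section

namespace FermatLib.AV.MW

variable {K : Type*} [Field K] {n : ℕ} {U : Type*} (v : U → Fin n → K) {m : ℕ}

theorem exists_span_minor_ne_zero (hm : Module.finrank K (Submodule.span K (Set.range v)) = m) :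
    ∃ (I : Fin m → Fin n) (J : Fin m → U), (Matrix.of fun i l => v (J l) (I i)).det ≠ 0 := by
  subst hm
  obtain ⟨f, hf, -, hind⟩ := Submodule.exists_fun_fin_finrank_span_eq K (Set.range v)
  choose J hJ using hf
  let B : Matrix (Fin (Module.finrank K (Submodule.span K (Set.range v)))) (Fin n) K :=
    Matrix.of fun l a => v (J l) a
  have hB : LinearIndependent K B.row := by
    rw [show B.row = f from funext hJ]
    exact hind
  have hrank := hB.rank_matrix
  rw [B.rank_eq_finrank_span_cols, Fintype.card_fin] at hrank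
  obtain ⟨g, hg, -, hgind⟩ := Submodule.exists_fun_fin_finrank_span_eq K (Set.range B.col)
  choose I hI using hg
  refine ⟨fun i => I (Fin.cast hrank.symm i), J, ?_⟩
  have hA : LinearIndependent K
      (Matrix.of fun i l => v (J l) (I (Fin.cast hrank.symm i))).row := by
    rw [show (Matrix.of fun i l => v (J l) (I (Fin.cast hrank.symm i))).row =
      g ∘ Fin.cast hrank.symm from funext fun i => hI (Fin.cast hrank.symm i)]
    exact hgind.comp _ (Fin.cast_injective _)
  exact ((Matrix.isUnit_iff_isUnit_det _).mp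
    (Matrix.linearIndependent_rows_iff_isUnit.mp hA)).ne_zero

/-- Cramer's rule in the span of `v`, valid also for vanishing minors. -/
theorem sum_cramer_eq_det_smul (hm : Module.finrank K (Submodule.span K (Set.range v)) = m)
    {f : Fin n → K} (hf : f ∈ Submodule.span K (Set.range v)) (I : Fin m → Fin n)
    (J : Fin m → U) :
    ∑ l, ((Matrix.of fun i l => v (J l) (I i)).adjugate *ᵥ fun i => f (I i)) l • v (J l) =
      (Matrix.of fun i l => v (J l) (I i)).det • f := by
  let S := Submodule.span K (Set.range v)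
  let e : Module.Basis (Fin m) K S := Module.finBasisOfFinrankEq K S hm
  let E : (Fin m → K) →ₗ[K] (Fin n → K) := S.subtype.comp e.equivFun.symm.toLinearMap
  have hS : ∀ w (hw : w ∈ S), E (e.equivFun ⟨w, hw⟩) = w := fun w hw => by simp [E]
  let R : Matrix (Fin m) (Fin m) K := Matrix.of fun i k => E (Pi.single k 1) (I i)
  have hE : ∀ c i, E c (I i) = (R *ᵥ c) i := fun c i => by
    conv_lhs => rw [pi_eq_sum_univ' c]
    simp [map_sum, Matrix.mulVec, dotProduct, R, Finset.sum_apply, mul_comm]
  let Jm : Matrix (Fin m) (Fin m) K := Matrix.of fun k l =>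
    e.equivFun ⟨v (J l), Submodule.subset_span ⟨J l, rfl⟩⟩ k
  have hA : (Matrix.of fun i l => v (J l) (I i)) = R * Jm := by
    ext i l
    conv_lhs => rw [Matrix.of_apply, ← hS (v (J l)) (Submodule.subset_span ⟨J l, rfl⟩), hE]
    rfl
  have hfI : (fun i => f (I i)) = R *ᵥ e.equivFun ⟨f, hf⟩ := funext fun i => by
    rw [← hE, hS]
  have hz : ∀ c : Fin m → K, ∑ l, c l • v (J l) = E (Jm *ᵥ c) := fun c => by
    have : Jm *ᵥ c = ∑ l, c l • fun k => Jm k l := by
      funext k
      simp [Matrix.mulVec, dotProduct, mul_comm]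
    rw [this, map_sum]
    refine Finset.sum_congr rfl fun l _ => ?_
    rw [map_smul]
    exact congrArg (c l • ·) (hS _ _).symm
  rw [hz, hA, hfI, Matrix.adjugate_mul_distrib, Matrix.mulVec_mulVec, Matrix.mulVec_mulVec,
    show Jm * (Jm.adjugate * R.adjugate) * R = (Jm * Jm.adjugate) * (R.adjugate * R) by
      simp only [Matrix.mul_assoc],
    Matrix.mul_adjugate, Matrix.adjugate_mul, smul_mul_smul_comm, Matrix.one_mul,
    Matrix.det_mul, mul_comm R.det, Matrix.smul_mulVec, Matrix.one_mulVec, map_smul, hS]

end FermatLib.AV.MW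

end
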