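import Fermat.Agent.AV.MW.Height.Gauss
import Mathlib.LinearAlgebra.FiniteDimensional.Lemmas

/-!
# The abstract input of the height machine

A `HtModel P` packages what the height machine uses about a curve with a marked rational
point: the type `P` of points and, for each `k`, the evaluation map `ev k` in a basis of the
space of functions with a pole of order at most `k` at the marked point.
-/

set_option autoImplicit false

open Finset

noncomputable section

namespace FermatLib.AV.MW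

local notation "Qb" => AlgebraicClosure ℚ

/-- The `2 × 2` minors of two vectors. -/
def wedgeVec {n : ℕ} (u v : Fin n → Qb) : Fin n × Fin n → Qb :=
  fun ab => u ab.1 * v ab.2 - u ab.2 * v ab.1

/-- Abstract data for the height machine of a curve with a marked point. -/
structure HtModel (P : Type*) where
  g : ℕ
  b : ℕ
  lo : ℕ
  dim : ℕ → ℕ
  ev : (k : ℕ) → P → Fin (dim k) → Qb
  b_pos : 1 ≤ b
  lo_le_b : 2 * g + 1 ≤ b
  lo_ge : 4 * g + b ≤ lo
  infinite : Infinite P
  dim_eq : ∀ k, 2 * g ≤ k → dim k + g = k + 1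
  indep : ∀ k, LinearIndependent Qb fun (a : Fin (dim k)) p => ev k p a
  ev_ne_zero : ∀ k, 2 * g ≤ k → ∀ p, ev k p ≠ 0
  mul_mem : ∀ k l (a : Fin (dim k)) (c : Fin (dim l)),
    (fun p => ev k p a * ev l p c) ∈
      Submodule.span Qb (Set.range fun (e : Fin (dim (k + l))) p => ev (k + l) p e)
  le_mul : ∀ k l, 2 * g ≤ k → k + 2 * g ≤ l → ∀ e : Fin (dim (k + l)),
    (fun p => ev (k + l) p e) ∈ Submodule.span Qb
      (Set.range fun (ac : Fin (dim k) × Fin (dim l)) p => ev k p ac.1 * ev l p ac.2)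
  card_zeros : ∀ (k j : ℕ) (f : P → Qb),
    f ∈ Submodule.span Qb (Set.range fun (a : Fin (dim k)) p => ev k p a) → f ≠ 0 →
    ∀ s : Fin j → P, Function.Injective s → (∀ i, f (s i) = 0) → j ≤ k
  sep : ∀ p q, p ≠ q → wedgeVec (ev b p) (ev b q) ≠ 0
  span_dim : ∀ (d A : ℕ), lo ≤ A → ∀ p : Fin d → P,
    Module.finrank Qb (Submodule.span Qb (Set.range
      fun (u : Fin (dim A) × (Fin d → Fin (dim b) × Fin (dim b))) q =>
        ev A q u.1 * ∏ j, wedgeVec (ev b (p j)) (ev b q) (u.2 j))) + d = dim (A + d * b)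
  null : ∀ (d m : ℕ) (κ : Type) [Fintype κ]
    (ψ : κ → ((Fin d → Fin (dim b) → Qb) → Qb)),
    (∀ k, ψ k ∈ forms (fun _ : Fin d => Fin (dim b)) (fun _ => m)) →
    (∀ p : Fin d → P, ∃ k, ψ k (fun j => ev b (p j)) ≠ 0) →
    ∃ (e : ℕ) (q : (Fin d → Fin (dim b)) → κ → ((Fin d → Fin (dim b) → Qb) → Qb)),
      m ≤ e ∧ (∀ c k, q c k ∈ forms (fun _ : Fin d => Fin (dim b)) (fun _ => e - m)) ∧
      ∀ (p : Fin d → P) c, ∏ j, ev b (p j) (c j) ^ e =
        ∑ k, q c k (fun j => ev b (p j)) * ψ k (fun j => ev b (p j))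

namespace HtModel

variable {P : Type*} (M : HtModel P)

/-- The space of functions of level `k`. -/
def W (k : ℕ) : Submodule Qb (P → Qb) :=
  Submodule.span Qb (Set.range fun (a : Fin (M.dim k)) p => M.ev k p a)

theorem ev_mem_W {k : ℕ} (a : Fin (M.dim k)) : (fun p => M.ev k p a) ∈ M.W k :=
  Submodule.subset_span (Set.mem_range_self a)

theorem mul_mem_W {k l : ℕ} {f h : P → Qb} (hf : f ∈ M.W k) (hh : h ∈ M.W l) :
    f * h ∈ M.W (k + l) := by
  induction hf using Submodule.span_induction with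
  | mem u hu =>
    induction hh using Submodule.span_induction with
    | mem v hv =>
      obtain ⟨a, rfl⟩ := hu
      obtain ⟨c, rfl⟩ := hv
      exact M.mul_mem k l a c
    | zero => simp
    | add v w _ _ hv hw => rw [mul_add]; exact add_mem hv hw
    | smul r v _ hv => rw [mul_smul_comm]; exact Submodule.smul_mem _ r hv
  | zero => simp
  | add v w _ _ hv hw => rw [add_mul]; exact add_mem hv hw
  | smul r v _ hv => rw [smul_mul_assoc]; exact Submodule.smul_mem _ r hv

theorem mem_W_iff {k : ℕ} {f : P → Qb} :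
    f ∈ M.W k ↔ ∃ c : Fin (M.dim k) → Qb, ∀ p, f p = ∑ a, c a * M.ev k p a := by
  rw [W, Submodule.mem_span_range_iff_exists_fun]
  refine exists_congr fun c => ⟨fun h p => by rw [← h]; simp, fun h => funext fun p => ?_⟩
  simp [h p]

/-- The normalised height of a point. -/
def h1 (p : P) : ℝ := absHt (M.ev M.b p) / M.b

/-- The pairing of two distinct points given by their distance in the base embedding. -/
def pairB (p q : P) : ℝ :=
  absHt (wedgeVec (M.ev M.b p) (M.ev M.b q)) - M.b * M.h1 p - M.b * M.h1 q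

theorem absHt_ev_b (p : P) : absHt (M.ev M.b p) = M.b * M.h1 p := by
  rw [h1, mul_div_cancel₀]
  exact Nat.cast_ne_zero.mpr (Nat.one_le_iff_ne_zero.mp M.b_pos)

theorem exists_absHt_ev_add (k l : ℕ) (hk : 2 * M.g ≤ k) (hl : k + 2 * M.g ≤ l) :
    ∃ C : ℝ, ∀ p, |absHt (M.ev (k + l) p) - (absHt (M.ev k p) + absHt (M.ev l p))| ≤ C := by
  choose c hc using fun (ac : Fin (M.dim k) × Fin (M.dim l)) =>
    (Submodule.mem_span_range_iff_exists_fun Qb).mp (M.mul_mem k l ac.1 ac.2)
  choose c' hc' using fun e => (Submodule.mem_span_range_iff_exists_fun Qb).mp (M.le_mul k l hk hl e)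
  obtain ⟨C₁, hC₁⟩ := exists_absHt_linearMap_le c
  obtain ⟨C₂, hC₂⟩ := exists_absHt_linearMap_le c'
  refine ⟨max C₁ C₂, fun p => ?_⟩
  have hmul : absHt (fun ac : Fin (M.dim k) × Fin (M.dim l) => M.ev k p ac.1 * M.ev l p ac.2) =
      absHt (M.ev k p) + absHt (M.ev l p) :=
    absHt_mul (M.ev_ne_zero k hk p) (M.ev_ne_zero l (by omega) p)
  have e1 : (fun ac : Fin (M.dim k) × Fin (M.dim l) => M.ev k p ac.1 * M.ev l p ac.2) =
      fun ac => ∑ e, c ac e * M.ev (k + l) p e := funext fun ac => by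
    simpa using (congrFun (hc ac) p).symm
  have e2 : M.ev (k + l) p = fun e => ∑ ac : Fin (M.dim k) × Fin (M.dim l),
      c' e ac * (M.ev k p ac.1 * M.ev l p ac.2) := funext fun e => by
    simpa using (congrFun (hc' e) p).symm
  have h₁ := hC₁ (M.ev (k + l) p)
  rw [← e1, hmul] at h₁
  have h₂ := hC₂ (fun ac => M.ev k p ac.1 * M.ev l p ac.2)
  rw [← e2, hmul] at h₂
  rw [abs_le]
  constructor <;> linarith [le_max_left C₁ C₂, le_max_right C₁ C₂]

theorem exists_absHt_ev_mul_b (n : ℕ) (hn : 1 ≤ n) :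
    ∃ C : ℝ, ∀ p, |absHt (M.ev (n * M.b) p) - n * (M.b * M.h1 p)| ≤ C := by
  induction n, hn using Nat.le_induction with
  | base => exact ⟨0, fun p => by rw [one_mul, M.absHt_ev_b]; simp⟩
  | succ n hn ih =>
    obtain ⟨C, hC⟩ := ih
    by_cases h1 : n = 1
    · subst h1
      -- split `2b` as `k + l` through `3b` to keep the hypothesis of `le_mul`
      obtain ⟨C₁, hC₁⟩ := M.exists_absHt_ev_add M.b (2 * M.b) (by have := M.lo_le_b; omega)
        (by have := M.lo_le_b; omega)
      obtain ⟨C₂, hC₂⟩ := M.exists_absHt_ev_add M.b (3 * M.b) (by have := M.lo_le_b; omega)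
        (by have := M.lo_le_b; omega)
      obtain ⟨C₃, hC₃⟩ := M.exists_absHt_ev_add (2 * M.b) (4 * M.b) (by have := M.lo_le_b; omega)
        (by have := M.lo_le_b; omega)
      obtain ⟨C₄, hC₄⟩ := M.exists_absHt_ev_add M.b (5 * M.b) (by have := M.lo_le_b; omega)
        (by have := M.lo_le_b; omega)
      obtain ⟨C₅, hC₅⟩ := M.exists_absHt_ev_add M.b (4 * M.b) (by have := M.lo_le_b; omega)
        (by have := M.lo_le_b; omega)
      refine ⟨C₁ + C₂ + C₃ + C₄ + C₅, fun p => ?_⟩
      have a := abs_le.mp (hC₁ p)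
      have b := abs_le.mp (hC₂ p)
      have c := abs_le.mp (hC₃ p)
      have d := abs_le.mp (hC₄ p)
      have e := abs_le.mp (hC₅ p)
      have hb := M.absHt_ev_b p
      rw [show M.b + 2 * M.b = 3 * M.b by ring] at a
      rw [show M.b + 3 * M.b = 4 * M.b by ring] at b
      rw [show 2 * M.b + 4 * M.b = 6 * M.b by ring] at c
      rw [show M.b + 5 * M.b = 6 * M.b by ring] at d
      rw [show M.b + 4 * M.b = 5 * M.b by ring] at e
      rw [abs_le]
      push_cast
      constructor <;> linarith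
    · obtain ⟨C₁, hC₁⟩ := M.exists_absHt_ev_add M.b (n * M.b) (by have := M.lo_le_b; omega)
        (by
          have h2 : 2 * M.b ≤ n * M.b := Nat.mul_le_mul_right _ (by omega)
          have := M.lo_le_b
          omega)
      refine ⟨C + C₁, fun p => ?_⟩
      have a := abs_le.mp (hC p)
      have b := abs_le.mp (hC₁ p)
      have hb := M.absHt_ev_b p
      rw [show M.b + n * M.b = (n + 1) * M.b by ring] at b
      rw [abs_le]
      push_cast
      constructor <;> linarith

/-- The height in level `k` is `k` times the normalised height. -/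
theorem exists_absHt_ev (k : ℕ) (hk : 2 * M.g ≤ k) :
    ∃ C : ℝ, ∀ p, |absHt (M.ev k p) - k * M.h1 p| ≤ C := by
  -- telescope: `n * b + j * k`
  have key : ∀ j : ℕ, ∀ n : ℕ, k + 2 * M.g ≤ n → ∃ C : ℝ, ∀ p,
      |absHt (M.ev (n + j * k) p) - absHt (M.ev n p) - j * absHt (M.ev k p)| ≤ C := by
    intro j
    induction j with
    | zero => exact fun n _ => ⟨0, fun p => by rw [Nat.zero_mul, Nat.add_zero]; simp⟩
    | succ j ih =>
      intro n hn
      obtain ⟨C, hC⟩ := ih n hn
      obtain ⟨C', hC'⟩ := M.exists_absHt_ev_add k (n + j * k) hk (by omega)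
      refine ⟨C + C', fun p => ?_⟩
      have a := abs_le.mp (hC p)
      have b := abs_le.mp (hC' p)
      rw [show n + (j + 1) * k = k + (n + j * k) by ring, abs_le]
      push_cast
      constructor <;> linarith
  have hb := M.b_pos
  let n₀ : ℕ := k + 2 * M.g + 1
  have hn₀ : k + 2 * M.g ≤ n₀ * M.b :=
    le_trans (by omega) (Nat.le_mul_of_pos_right n₀ hb)
  obtain ⟨C, hC⟩ := key M.b (n₀ * M.b) hn₀
  obtain ⟨C₁, hC₁⟩ := M.exists_absHt_ev_mul_b n₀ (by omega)
  obtain ⟨C₂, hC₂⟩ := M.exists_absHt_ev_mul_b (n₀ + k) (by omega)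
  refine ⟨(C + C₁ + C₂) / M.b, fun p => ?_⟩
  have a := abs_le.mp (hC p)
  have c := abs_le.mp (hC₁ p)
  have d := abs_le.mp (hC₂ p)
  rw [show (n₀ + k) * M.b = n₀ * M.b + M.b * k by ring] at d
  have hbR : (0 : ℝ) < M.b := Nat.cast_pos.mpr hb
  rw [le_div_iff₀ hbR, ← abs_of_pos hbR, ← abs_mul, abs_le]
  push_cast at d
  constructor <;> linarith

end HtModel

end FermatLib.AV.MW

end
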