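import Fermat.Agent.AV.MW.Height.Fibre
import Mathlib.Algebra.Ring.Action.Submonoid
import Mathlib.GroupTheory.GroupAction.FixedPoints
import Mathlib.GroupTheory.Descent

/-!
# The Northcott property on rational classes
-/

set_option autoImplicit false

open Finset

noncomputable section

namespace FermatLib.AV.MW

local notation "Qb" => AlgebraicClosure ℚ

/-- A group of automorphisms of a height model, acting on coordinates through automorphisms of
`ℚ̄` with fixed field `ℚ`. -/
structure HtGalois {P : Type*} {M : HtModel P} {J : Type*} [AddCommGroup J] (G : HtClasses M J)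
    (Γ : Type*) [Monoid Γ] [DistribMulAction Γ J] where
  act : Γ → P → P
  act_bijective : ∀ γ, Function.Bijective (act γ)
  conj : Γ → (Qb →+* Qb)
  ev_act : ∀ γ k p a, M.ev k (act γ p) a = conj γ (M.ev k p a)
  cls_act : ∀ γ {d : ℕ} (D : Fin d → P), G.cls (fun i => act γ (D i)) = γ • G.cls D
  fixed : ∀ z : Qb, (∀ γ, conj γ z = z) → ∃ q : ℚ, (q : Qb) = z

theorem finite_absHt_le_rat {ι : Type*} [Finite ι] (i₀ : ι) (B : ℝ) :
    {y : ι → ℚ | y i₀ = 1 ∧ absHt (fun i => (y i : Qb)) ≤ B}.Finite := by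
  refine (Set.Finite.pi fun _ : ι => NumberField.finite_setOfPred_logHeight₁_le (K := ℚ) B).subset ?_
  rintro y ⟨hy, hB⟩ i -
  show Height.logHeight₁ (y i) ≤ B
  rw [absHt_ratCast] at hB
  rw [Height.logHeight₁_eq_logHeight]
  refine le_trans (le_of_eq ?_) ((Height.logHeight_comp_le ![i, i₀] y).trans hB)
  congr 1
  funext j
  fin_cases j <;> simp [hy]

namespace HtGalois

variable {P : Type*} {M : HtModel P} {J : Type*} [AddCommGroup J] {G : HtClasses M J}
  {Γ : Type*} [Monoid Γ] [DistribMulAction Γ J] (S : HtGalois G Γ)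

theorem val_act (γ : Γ) (k : ℕ) (c : Fin (M.dim k) → Qb) (p : P) :
    M.val k (fun a => S.conj γ (c a)) (S.act γ p) = S.conj γ (M.val k c p) := by
  simp [HtModel.val, S.ev_act, map_sum]

theorem tval_act (γ : Γ) (k : ℕ) {m : ℕ} (c : (Fin m → Fin (M.dim k)) → Qb) (R : Fin m → P) :
    M.tval k (fun I => S.conj γ (c I)) (fun b => S.act γ (R b)) = S.conj γ (M.tval k c R) := by
  simp [HtModel.tval, S.ev_act, map_sum, map_prod]

theorem tD_act (γ : Γ) (N : ℕ) {d m : ℕ} (hdm : d + m = M.dim N) (D : Fin d → P) :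
    M.tD N hdm (fun l => S.act γ (D l)) = fun I => S.conj γ (M.tD N hdm D I) := by
  funext I
  rw [HtModel.tD, HtModel.tD, M.blockDet_apply, M.blockDet_apply, RingHom.map_det]
  congr 1
  ext x i
  rcases x with l | b
  · simp [S.ev_act]
  · simp [Pi.single_apply, apply_ite (S.conj γ)]

/-- The conjugate of a representation. -/
def actRep (γ : Γ) {d : ℕ} {x : J} (r : G.Rep d x) : G.Rep d (γ • x) where
  D := fun i => S.act γ (r.D i)
  D' := fun i => S.act γ (r.D' i)
  c := fun a => S.conj γ (r.c a)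
  F := fun I => S.conj γ (r.F I)
  zeroSet := by
    have e : Fin.append (fun i => S.act γ (r.D i)) (fun i => S.act γ (r.D' i)) =
        fun i => S.act γ (Fin.append r.D r.D' i) := by
      funext i
      induction i using Fin.addCases with
      | left i => simp only [Fin.append_left]
      | right i => simp only [Fin.append_right]
    rw [e]
    refine ⟨(S.act_bijective γ).1.comp r.zeroSet.inj, fun h => r.zeroSet.ne ?_, fun i => ?_⟩
    · funext a
      exact (S.conj γ).injective (by simpa using congrFun h a)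
    · rw [S.val_act, r.zeroSet.zero, map_zero]
  cls_D := by rw [S.cls_act, r.cls_D]
  cls_D' := by rw [S.cls_act, r.cls_D', smul_neg]
  isKummer := fun R => by
    choose R' hR' using fun b => (S.act_bijective γ).2 (R b)
    obtain rfl : (fun b => S.act γ (R' b)) = R := funext hR'
    simp only [HtModel.pointVal, S.val_act, S.tD_act, S.tval_act, ← map_prod, ← map_mul]
    exact congrArg _ (r.isKummer R')

include S in
/-- A fixed class has a Kummer array proportional to a rational normalised one. -/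
theorem exists_rat_kummer (d : ℕ) (hd : G.d₀ ≤ d) {x : J} (hx : ∀ γ : Γ, γ • x = x) :
    ∃ (r : G.Rep d x) (i₀ : Fin (M.nvar d) → Fin (M.dim (M.klvl d)))
      (y : (Fin (M.nvar d) → Fin (M.dim (M.klvl d))) → ℚ) (z : Qb),
      y i₀ = 1 ∧ z ≠ 0 ∧ ∀ I, r.F I = z * (y I : Qb) := by
  obtain ⟨C, hC⟩ := G.exists_absHt_sub_Hsym d hd
  obtain ⟨r, -, -⟩ := G.exists_rep_avoiding d hd x Set.finite_empty
  obtain ⟨i₀, hi₀⟩ := Function.ne_iff.mp (hC x r).1
  have hfix : ∀ I γ, S.conj γ (r.F I / r.F i₀) = r.F I / r.F i₀ := fun I γ => by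
    let r₀ := S.actRep γ r
    let r₁ : G.Rep d x :=
      ⟨r₀.D, r₀.D', r₀.c, r₀.F, r₀.zeroSet, r₀.cls_D.trans (hx γ),
        r₀.cls_D'.trans (congrArg Neg.neg (hx γ)), r₀.isKummer⟩
    obtain ⟨z, hz, he⟩ := G.kummer_unique d hd r r₁
    have hI : S.conj γ (r.F I) = z * r.F I := he I
    have h0 : S.conj γ (r.F i₀) = z * r.F i₀ := he i₀
    rw [map_div₀, hI, h0, mul_div_mul_left _ _ hz]
  choose y hy using fun I => S.fixed _ (hfix I)
  refine ⟨r, i₀, y, r.F i₀, ?_, hi₀, fun I => ?_⟩
  · have h := hy i₀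
    rw [div_self hi₀] at h
    exact_mod_cast h
  · rw [hy I, mul_div_cancel₀ _ hi₀]

include S in
/-- **Northcott:** finitely many fixed classes of bounded height. -/
theorem finite_fixed_Hsym_le (hfin : HtFinite G) (d : ℕ) (hd : G.d₀ ≤ d) (B : ℝ) :
    {x : J | (∀ γ : Γ, γ • x = x) ∧ G.Hsym d x ≤ B}.Finite := by
  classical
  obtain ⟨C, hC⟩ := G.exists_absHt_sub_Hsym d hd
  let Y : Set ((Fin (M.nvar d) → Fin (M.dim (M.klvl d))) → ℚ) :=
    ⋃ i₀, {y | y i₀ = 1 ∧ absHt (fun I => (y I : Qb)) ≤ B + C}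
  have hY : Y.Finite := Set.finite_iUnion fun i₀ => finite_absHt_le_rat i₀ _
  refine ((hY.biUnion (t := fun y => if (fun I => (y I : Qb)) = 0 then (∅ : Set J) else
    {x : J | ∃ (r : G.Rep d x) (z : Qb), ∀ I, r.F I = z * (y I : Qb)}) fun y _ => ?_)).subset ?_
  · split_ifs with h
    · exact Set.finite_empty
    · exact G.finite_fibre hfin d hd h
  rintro x ⟨hx, hB⟩
  obtain ⟨r, i₀, y, z, hy1, hz, hr⟩ := S.exists_rat_kummer d hd hx
  obtain ⟨h0, hb⟩ := hC x r
  have hy : y ∈ Y := Set.mem_iUnion.mpr ⟨i₀, hy1, by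
    have hH : absHt r.F = absHt (fun I => (y I : Qb)) := by
      rw [show r.F = fun I => z * (y I : Qb) from funext hr]
      exact absHt_smul _ hz
    linarith [(abs_le.mp hb).2]⟩
  refine Set.mem_biUnion hy ?_
  rw [if_neg fun h => by simpa [hy1] using congrFun h i₀]
  exact ⟨r, z, hr⟩

include S in
/-- **Descent:** if `A / 2A` is finite for the fixed points `A`, then `A` is finitely generated. -/
theorem fg_fixed_of_finiteIndex (hfin : HtFinite G) (A : AddSubgroup J)
    (hA : ∀ x ∈ A, ∀ γ : Γ, γ • x = x)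
    (h2 : (nsmulAddMonoidHom (α := A) 2).range.FiniteIndex) : AddGroup.FG A := by
  obtain ⟨C, hC⟩ := G.exists_parallelogram G.d₀ le_rfl
  obtain ⟨C', hC'⟩ := G.exists_le_Hsym G.d₀ le_rfl
  let h : A → ℝ := fun x => G.Hsym G.d₀ (x : J) + C'
  have hN : Northcott h := ⟨fun B => by
    refine Set.Finite.of_finite_image ?_ Subtype.val_injective.injOn
    refine (S.finite_fixed_Hsym_le hfin G.d₀ le_rfl (B - C')).subset ?_
    rintro _ ⟨x, hx, rfl⟩
    exact ⟨hA _ x.2, le_sub_iff_add_le.mpr hx⟩⟩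
  refine AddCommGroup.fg_of_descent' (h := h) (C := C + 2 * |C'|) h2
    (fun x => by linarith [hC' (x : J)]) fun x y => ?_
  have a := abs_le.mp (hC (x : J) (y : J))
  simp only [h, AddSubgroup.coe_add, AddSubgroup.coe_sub]
  rw [abs_le]
  constructor <;> linarith [le_abs_self C', neg_abs_le C']

end HtGalois

end FermatLib.AV.MW

end
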