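import Fermat.Agent.AV.MW.Height.Model
import Mathlib.LinearAlgebra.Matrix.Determinant.Basic

/-!
# Sections depending on parameters, and minors of evaluation matrices
-/

set_option autoImplicit false

open Finset

noncomputable section

namespace FermatLib.AV.MW

local notation "Qb" => AlgebraicClosure ℚ

namespace HtModel

variable {P : Type*} (M : HtModel P) {α : Type*} [Fintype α]

/-- Parameter vectors in level `b`. -/
abbrev BVars (α : Type*) : Type _ := α → Fin (M.dim M.b) → Qb

/-- Sections of level `k` depending by forms of multidegree `n` on parameters. -/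
def secs (n : α → ℕ) (k : ℕ) : Submodule Qb (M.BVars α → P → Qb) :=
  Submodule.span Qb {G | ∃ f ∈ forms (fun _ : α => Fin (M.dim M.b)) n, ∃ h ∈ M.W k,
    G = fun x q => f x * h q}

theorem mk_mem_secs {n : α → ℕ} {k : ℕ} {f : M.BVars α → Qb} {h : P → Qb}
    (hf : f ∈ forms (fun _ : α => Fin (M.dim M.b)) n) (hh : h ∈ M.W k) :
    (fun x q => f x * h q) ∈ M.secs n k :=
  Submodule.subset_span ⟨f, hf, h, hh, rfl⟩

theorem secs_congr {n n' : α → ℕ} {k k' : ℕ} (hn : n = n') (hk : k = k')
    {G : M.BVars α → P → Qb} (hG : G ∈ M.secs n k) : G ∈ M.secs n' k' := hn ▸ hk ▸ hG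

theorem mul_mem_secs {n n' : α → ℕ} {k k' : ℕ} {G G' : M.BVars α → P → Qb}
    (hG : G ∈ M.secs n k) (hG' : G' ∈ M.secs n' k') : G * G' ∈ M.secs (n + n') (k + k') := by
  induction hG using Submodule.span_induction with
  | mem u hu =>
    induction hG' using Submodule.span_induction with
    | mem v hv =>
      obtain ⟨f, hf, h, hh, rfl⟩ := hu
      obtain ⟨f', hf', h', hh', rfl⟩ := hv
      have e : ((fun x q => f x * h q) * fun x q => f' x * h' q : M.BVars α → P → Qb) =
          fun x q => (f * f') x * (h * h') q := by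
        funext x q
        simp only [Pi.mul_apply]
        ring
      rw [e]
      exact M.mk_mem_secs (mul_mem_forms hf hf') (M.mul_mem_W hh hh')
    | zero => simp
    | add v w _ _ hv hw => rw [mul_add]; exact add_mem hv hw
    | smul r v _ hv => rw [mul_smul_comm]; exact Submodule.smul_mem _ r hv
  | zero => simp
  | add v w _ _ hv hw => rw [add_mul]; exact add_mem hv hw
  | smul r v _ hv => rw [smul_mul_assoc]; exact Submodule.smul_mem _ r hv

theorem const_sec_mem {k : ℕ} {h : P → Qb} (hh : h ∈ M.W k) :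
    (fun _ q => h q) ∈ M.secs (0 : α → ℕ) k := by
  simpa using M.mk_mem_secs (const_mem_forms (ι := fun _ : α => Fin (M.dim M.b)) 1) hh

/-- The section `q ↦ (x_j ∧ φ_b q)`. -/
theorem wedge_mem_secs [DecidableEq α] (j : α) (ab : Fin (M.dim M.b) × Fin (M.dim M.b)) :
    (fun x q => wedgeVec (x j) (M.ev M.b q) ab) ∈ M.secs (Pi.single j 1) M.b :=
  Submodule.sub_mem _
    (M.mk_mem_secs (proj_mem_forms (ι := fun _ : α => Fin (M.dim M.b)) j ab.1) (M.ev_mem_W ab.2))
    (M.mk_mem_secs (proj_mem_forms (ι := fun _ : α => Fin (M.dim M.b)) j ab.2) (M.ev_mem_W ab.1))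

/-- A section times a product of wedges with the parameters indexed by `s`. -/
theorem prod_wedge_mem_secs [DecidableEq α] (s : Finset α)
    (u : α → Fin (M.dim M.b) × Fin (M.dim M.b)) {A N : ℕ} (hN : A + s.card * M.b = N)
    {h : P → Qb} (hh : h ∈ M.W A) :
    (fun x q => h q * ∏ j ∈ s, wedgeVec (x j) (M.ev M.b q) (u j)) ∈
      M.secs (∑ j ∈ s, Pi.single j 1) N := by
  induction s using Finset.induction_on generalizing N with
  | empty =>
    simp only [Finset.card_empty, zero_mul, add_zero] at hN
    subst hN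
    simpa using M.const_sec_mem (α := α) hh
  | insert j s hj ih =>
    rw [Finset.card_insert_of_notMem hj] at hN
    have h1 := M.mul_mem_secs (ih rfl) (M.wedge_mem_secs j (u j))
    rw [Finset.sum_insert hj]
    refine M.secs_congr (k := A + s.card * M.b + M.b) (add_comm _ _) (by rw [← hN]; ring) ?_
    have e : (fun x q => h q * ∏ i ∈ insert j s, wedgeVec (x i) (M.ev M.b q) (u i) :
        M.BVars α → P → Qb) =
        (fun x q => h q * ∏ i ∈ s, wedgeVec (x i) (M.ev M.b q) (u i)) *
          fun x q => wedgeVec (x j) (M.ev M.b q) (u j) := by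
      funext x q
      simp only [Finset.prod_insert hj, Pi.mul_apply]
      ring
    rw [e]
    exact h1

theorem exists_coeff_of_mem_secs {n : α → ℕ} {k : ℕ} {G : M.BVars α → P → Qb}
    (hG : G ∈ M.secs n k) :
    ∃ c : Fin (M.dim k) → M.BVars α → Qb,
      (∀ a, c a ∈ forms (fun _ : α => Fin (M.dim M.b)) n) ∧
      ∀ x q, G x q = ∑ a, c a x * M.ev k q a := by
  induction hG using Submodule.span_induction with
  | mem u hu =>
    obtain ⟨f, hf, h, hh, rfl⟩ := hu
    obtain ⟨c, hc⟩ := M.mem_W_iff.mp hh
    refine ⟨fun a x => c a * f x, fun a => const_mul_mem_forms _ hf, fun x q => ?_⟩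
    simp only [hc, Finset.mul_sum]
    exact Finset.sum_congr rfl fun a _ => by ring
  | zero => exact ⟨0, fun _ => Submodule.zero_mem _, by simp⟩
  | add v w _ _ hv hw =>
    obtain ⟨c, hc, hcv⟩ := hv
    obtain ⟨c', hc', hcw⟩ := hw
    exact ⟨c + c', fun a => Submodule.add_mem _ (hc a) (hc' a), fun x q => by
      simp [hcv, hcw, add_mul, Finset.sum_add_distrib]⟩
  | smul r v _ hv =>
    obtain ⟨c, hc, hcv⟩ := hv
    exact ⟨fun a => r • c a, fun a => Submodule.smul_mem _ r (hc a), fun x q => by
      simp [hcv, mul_assoc, Finset.mul_sum]⟩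

/-- The minors of the evaluation matrix of `d` points in level `N`, indexed by row choices. -/
def minors (N : ℕ) {d : ℕ} (p : Fin d → P) : (Fin d → Fin (M.dim N)) → Qb :=
  fun t => (Matrix.of fun i l => M.ev N (p l) (t i)).det

/-- Expansion of a determinant of sections evaluated at points, by multilinearity in rows. -/
theorem det_sections_eq_sum {N d : ℕ} (c : Fin d → Fin (M.dim N) → Qb) (p : Fin d → P) :
    (Matrix.of fun i l => ∑ a, c i a * M.ev N (p l) a).det =
      ∑ t : Fin d → Fin (M.dim N), (∏ i, c i (t i)) * M.minors N p t := by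
  have h : (Matrix.of fun i l => ∑ a, c i a * M.ev N (p l) a) =
      fun i => ∑ a, c i a • fun l => M.ev N (p l) a := by
    funext i l
    simp
  show Matrix.detRowAlternating.toMultilinearMap _ = _
  rw [h, MultilinearMap.map_sum]
  refine Finset.sum_congr rfl fun t _ => ?_
  rw [MultilinearMap.map_smul_univ]
  rfl

end HtModel

end FermatLib.AV.MW

end
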