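import Fermat.Agent.AV.MW.Height.VdmUpper

/-!
# Functions of several points, as coefficient arrays

A coefficient array `c : (Fin m → Fin (dim k)) → ℚ̄` gives the function
`tval c R = ∑ I, c I * ∏ b, ev k (R b) (I b)` of `m` points.
-/

set_option autoImplicit false

open Finset

noncomputable section

namespace FermatLib.AV.MW

local notation "Qb" => AlgebraicClosure ℚ

namespace HtModel

variable {P : Type*} (M : HtModel P)

theorem W_finite_zeros {k : ℕ} {f : P → Qb} (hf : f ∈ M.W k) (hf0 : f ≠ 0) :
    {p | f p = 0}.Finite := by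
  by_contra h
  have h' : Set.Infinite {p | f p = 0} := h
  have := h'.to_subtype
  let e := Infinite.natEmbedding {p | f p = 0}
  have := M.card_zeros k (k + 1) f hf hf0 (fun i => (e i.1).1)
    (fun i j hij => Fin.ext (e.injective (Subtype.ext hij))) fun i => (e i.1).2
  omega

/-- Functions in the spaces `W` form a domain. -/
theorem W_mul_eq_zero {k l : ℕ} {f h : P → Qb} (hf : f ∈ M.W k) (hh : h ∈ M.W l)
    (hfh : f * h = 0) : f = 0 ∨ h = 0 := by
  by_contra! hne
  have := M.infinite
  refine Set.infinite_univ (α := P) (((M.W_finite_zeros hf hne.1).union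
    (M.W_finite_zeros hh hne.2)).subset fun p _ => ?_)
  simpa using congrFun hfh p

/-- The value at `m` points of a coefficient array. -/
def tval (k : ℕ) {m : ℕ} (c : (Fin m → Fin (M.dim k)) → Qb) (R : Fin m → P) : Qb :=
  ∑ I, c I * ∏ b, M.ev k (R b) (I b)

theorem tval_smul (k : ℕ) {m : ℕ} (r : Qb) (c : (Fin m → Fin (M.dim k)) → Qb) :
    M.tval k (fun I => r * c I) = fun R => r * M.tval k c R := by
  funext R
  simp [tval, Finset.mul_sum, mul_assoc]

theorem tval_zero (k : ℕ) {m : ℕ} : M.tval k (0 : (Fin m → Fin (M.dim k)) → Qb) = 0 := by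
  funext R
  simp [tval]

/-- Splitting off the first point. -/
theorem tval_cons (k : ℕ) {m : ℕ} (c : (Fin (m + 1) → Fin (M.dim k)) → Qb) (q : P)
    (R : Fin m → P) :
    M.tval k c (Fin.cons q R) =
      ∑ a, M.tval k (fun J => c (Fin.cons a J)) R * M.ev k q a := by
  simp only [tval]
  rw [← Equiv.sum_comp (Fin.consEquiv fun _ : Fin (m + 1) => Fin (M.dim k)),
    Fintype.sum_prod_type]
  refine Finset.sum_congr rfl fun a _ => ?_
  rw [Finset.sum_mul]
  refine Finset.sum_congr rfl fun J _ => ?_
  show c (Fin.cons a J) * _ = _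
  simp only [Fin.prod_univ_succ, Fin.cons_zero, Fin.cons_succ, Fin.consEquiv, Equiv.coe_fn_mk]
  ring

theorem tval_injective (k : ℕ) {m : ℕ} {c : (Fin m → Fin (M.dim k)) → Qb}
    (h : M.tval k c = 0) : c = 0 := by
  induction m with
  | zero =>
    funext I
    have h' : M.tval k c (fun i => i.elim0) = 0 := by rw [h]; rfl
    rw [tval, Fintype.sum_unique] at h'
    simpa [Subsingleton.elim I default] using h'
  | succ m ih =>
    funext I
    have key : ∀ a, M.tval k (fun J => c (Fin.cons a J)) = 0 := fun a => funext fun R => by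
      refine Fintype.linearIndependent_iff.mp (M.indep k)
        (fun a => M.tval k (fun J => c (Fin.cons a J)) R) ?_ a
      funext q
      simpa [M.tval_cons] using congrFun h (Fin.cons q R)
    simpa using congrFun (ih (key (I 0))) (Fin.tail I)

theorem tval_ext (k : ℕ) {m : ℕ} {c c' : (Fin m → Fin (M.dim k)) → Qb}
    (h : M.tval k c = M.tval k c') : c = c' := by
  refine sub_eq_zero.mp (M.tval_injective k (funext fun R => ?_))
  simp only [tval, Pi.sub_apply, sub_mul, Finset.sum_sub_distrib, Pi.zero_apply]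
  exact sub_eq_zero.mpr (congrFun h R)

theorem tval_mul_eq_zero (k l : ℕ) {m : ℕ} {c : (Fin m → Fin (M.dim k)) → Qb}
    {c' : (Fin m → Fin (M.dim l)) → Qb} (h : M.tval k c * M.tval l c' = 0) : c = 0 ∨ c' = 0 := by
  induction m with
  | zero =>
      refine (mul_eq_zero.mp (congrFun h fun i => i.elim0)).imp (fun h' => ?_) (fun h' => ?_) <;>
      · funext I
        rw [tval, Fintype.sum_unique] at h'
        simpa [Subsingleton.elim I default] using h'
  | succ m ih =>
      have hpair : ∀ a a', M.tval k (fun J => c (Fin.cons a J)) *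
          M.tval l (fun J => c' (Fin.cons a' J)) = 0 := fun a a' => funext fun R => by
        let f : P → Qb := fun q => ∑ a, M.tval k (fun J => c (Fin.cons a J)) R * M.ev k q a
        let f' : P → Qb := fun q => ∑ a, M.tval l (fun J => c' (Fin.cons a J)) R * M.ev l q a
        have hff : f * f' = 0 := funext fun q => by
          simpa [f, f', M.tval_cons] using congrFun h (Fin.cons q R)
        rcases M.W_mul_eq_zero (M.mem_W_iff.mpr ⟨_, fun _ => rfl⟩ : f ∈ M.W k)
          (M.mem_W_iff.mpr ⟨_, fun _ => rfl⟩ : f' ∈ M.W l) hff with h0 | h0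
        · refine mul_eq_zero_of_left (Fintype.linearIndependent_iff.mp (M.indep k)
            (fun a => M.tval k (fun J => c (Fin.cons a J)) R) ?_ a) _
          funext q
          simpa [f] using congrFun h0 q
        · refine mul_eq_zero_of_right _ (Fintype.linearIndependent_iff.mp (M.indep l)
            (fun a => M.tval l (fun J => c' (Fin.cons a J)) R) ?_ a')
          funext q
          simpa [f'] using congrFun h0 q
      by_cases hc : c = 0
      · exact Or.inl hc
      right
      obtain ⟨I, hI⟩ := Function.ne_iff.mp hc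
      funext J
      rcases ih (hpair (I 0) (J 0)) with h0 | h0
      · exact absurd (by simpa using congrFun h0 (Fin.tail I)) hI
      · simpa using congrFun h0 (Fin.tail J)

/-- Products of arrays: bilinear structure constants, and heights add. -/
theorem exists_tmul (k l m : ℕ) :
    ∃ C : ℝ, ∀ (c : (Fin m → Fin (M.dim k)) → Qb) (c' : (Fin m → Fin (M.dim l)) → Qb),
      ∃ e : (Fin m → Fin (M.dim (k + l))) → Qb, M.tval (k + l) e = M.tval k c * M.tval l c' ∧
        (c ≠ 0 → c' ≠ 0 → e ≠ 0 ∧ |absHt e - (absHt c + absHt c')| ≤ C) := by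
  choose μ hμ using fun a a' => (Submodule.mem_span_range_iff_exists_fun Qb).mp (M.mul_mem k l a a')
  let T : (Fin m → Fin (M.dim (k + l))) → (Fin m → Fin (M.dim k)) → (Fin m → Fin (M.dim l)) → Qb :=
    fun K I J => ∏ b, μ (I b) (J b) (K b)
  have hT : ∀ (c : (Fin m → Fin (M.dim k)) → Qb) (c' : (Fin m → Fin (M.dim l)) → Qb),
      M.tval (k + l) (fun K => ∑ I, ∑ J, T K I J * c I * c' J) = M.tval k c * M.tval l c' := by
    intro c c'
    funext R
    simp only [tval, Pi.mul_apply]
    rw [Finset.sum_mul_sum]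
    simp only [Finset.sum_mul]
    rw [Finset.sum_comm]
    refine Finset.sum_congr rfl fun (I : Fin m → Fin (M.dim k)) _ => ?_
    rw [Finset.sum_comm]
    refine Finset.sum_congr rfl fun (J : Fin m → Fin (M.dim l)) _ => ?_
    calc ∑ K, T K I J * c I * c' J * ∏ b, M.ev (k + l) (R b) (K b)
        = c I * c' J * ∑ K : Fin m → Fin (M.dim (k + l)),
            ∏ b, μ (I b) (J b) (K b) * M.ev (k + l) (R b) (K b) := by
          rw [Finset.mul_sum]
          exact Finset.sum_congr rfl fun K _ => by simp only [T, Finset.prod_mul_distrib]; ring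
      _ = c I * c' J * ∏ b, (M.ev k (R b) (I b) * M.ev l (R b) (J b)) := by
          rw [← Fintype.prod_sum (fun (b : Fin m) (e : Fin (M.dim (k + l))) =>
            μ (I b) (J b) e * M.ev (k + l) (R b) e)]
          congr 1
          refine Finset.prod_congr rfl fun b _ => ?_
          simpa using congrFun (hμ (I b) (J b)) (R b)
      _ = _ := by rw [Finset.prod_mul_distrib]; ring
  obtain ⟨C, hC⟩ := exists_abs_absHt_bilinear_sub_le T fun f h hfh => by
    refine M.tval_mul_eq_zero k l ?_
    rw [← hT, funext hfh]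
    exact M.tval_zero _
  refine ⟨C, fun c c' => ⟨_, hT c c', fun hc hc' => ⟨fun h0 => ?_, hC c c' hc hc'⟩⟩⟩
  rcases M.tval_mul_eq_zero k l (by rw [← hT, h0]; exact M.tval_zero _) with h | h
  exacts [hc h, hc' h]

/-- The tensor power of a section. -/
def tpow {k : ℕ} (m : ℕ) (c : Fin (M.dim k) → Qb) : (Fin m → Fin (M.dim k)) → Qb :=
  fun I => ∏ b, c (I b)

theorem tval_tpow {k : ℕ} (m : ℕ) (c : Fin (M.dim k) → Qb) (R : Fin m → P) :
    M.tval k (M.tpow m c) R = ∏ b, ∑ a, c a * M.ev k (R b) a := by
  rw [Fintype.prod_sum]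
  exact Finset.sum_congr rfl fun I _ => by rw [tpow, Finset.prod_mul_distrib]

theorem absHt_tpow {k : ℕ} (m : ℕ) {c : Fin (M.dim k) → Qb} (hc : c ≠ 0) :
    absHt (M.tpow m c) = m * absHt c :=
  (absHt_prod (fun _ : Fin m => c) fun _ => hc).trans (by simp)

theorem tpow_ne_zero {k : ℕ} (m : ℕ) {c : Fin (M.dim k) → Qb} (hc : c ≠ 0) : M.tpow m c ≠ 0 := by
  obtain ⟨a, ha⟩ := Function.ne_iff.mp hc
  exact Function.ne_iff.mpr ⟨fun _ => a, Finset.prod_ne_zero_iff.mpr fun _ _ => ha⟩

end HtModel

end FermatLib.AV.MW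

end
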