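import Fermat.Agent.AV.MW.Height.Tensor
import Mathlib.LinearAlgebra.Multilinear.Curry
import Mathlib.Logic.Equiv.Set
import Mathlib.Data.Nat.Factorial.Basic

/-!
# The array attached to a set of points

`tD N p` is the coefficient array of `R ↦ det [ev N p | ev N R]`. Its height is the height of the
minors, and as a function it is proportional to the determinant of any basis of the space of
functions vanishing at the points.
-/

set_option autoImplicit false

open Finset Matrix

noncomputable section

namespace FermatLib.AV.MW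

local notation "Qb" => AlgebraicClosure ℚ

namespace HtModel

variable {P : Type*} (M : HtModel P) (N : ℕ) {d m : ℕ} (hdm : d + m = M.dim N)

/-- The identification of index sets. -/
def colEquiv : Fin d ⊕ Fin m ≃ Fin (M.dim N) := finSumFinEquiv.trans (finCongr hdm)

/-- The determinant of `dim N` vectors as an alternating map. -/
def blockDet : (Fin (M.dim N) → Qb) [⋀^(Fin d ⊕ Fin m)]→ₗ[Qb] Qb :=
  (Matrix.detRowAlternating (n := Fin d ⊕ Fin m) (R := Qb)).compLinearMap
    (LinearMap.funLeft Qb Qb (M.colEquiv N hdm))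

theorem blockDet_apply (u : Fin d ⊕ Fin m → Fin (M.dim N) → Qb) :
    M.blockDet N hdm u = (Matrix.of fun x i => u x (M.colEquiv N hdm i)).det := rfl

/-- The coefficient array of the function `R ↦ det [ev N p | ev N R]`. -/
def tD (p : Fin d → P) : (Fin m → Fin (M.dim N)) → Qb :=
  fun I => M.blockDet N hdm
    (Sum.elim (fun l => M.ev N (p l)) fun b => Pi.single (I b) (1 : Qb))

theorem tval_tD (p : Fin d → P) (R : Fin m → P) :
    M.tval N (M.tD N hdm p) R =
      M.blockDet N hdm (Sum.elim (fun l => M.ev N (p l)) fun b => M.ev N (R b)) := by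
  have h : (fun b => M.ev N (R b)) = fun b : Fin m =>
      ∑ a : Fin (M.dim N), M.ev N (R b) a • (Pi.single a 1 : Fin (M.dim N) → Qb) :=
    funext fun b => pi_eq_sum_univ' _
  have h' := congrArg
    ((M.blockDet N hdm).toMultilinearMap.currySum fun l => M.ev N (p l)) h
  rw [MultilinearMap.map_sum] at h'
  simp only [MultilinearMap.currySum_apply', MultilinearMap.map_smul_univ, smul_eq_mul] at h'
  rw [show M.blockDet N hdm (Sum.elim (fun l => M.ev N (p l)) fun b => M.ev N (R b)) = _ from h']
  exact Finset.sum_congr rfl fun I _ => mul_comm _ _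

theorem tD_eq_sum (p : Fin d → P) (I : Fin m → Fin (M.dim N)) :
    M.tD N hdm p I = ∑ g : Fin d → Fin (M.dim N), (∏ l, M.ev N (p l) (g l)) *
      M.blockDet N hdm (Sum.elim (fun l => Pi.single (g l) (1 : Qb))
        fun b => Pi.single (I b) (1 : Qb)) := by
  have h : (fun l => M.ev N (p l)) = fun l : Fin d =>
      ∑ a : Fin (M.dim N), M.ev N (p l) a • (Pi.single a 1 : Fin (M.dim N) → Qb) :=
    funext fun l => pi_eq_sum_univ' _
  have h' := congrArg (fun u => (M.blockDet N hdm).toMultilinearMap.currySum u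
    fun b => (Pi.single (I b) 1 : Fin (M.dim N) → Qb)) h
  simp only [MultilinearMap.map_sum, MultilinearMap.map_smul_univ, _root_.sum_apply,
    _root_.smul_apply, MultilinearMap.currySum_apply', smul_eq_mul] at h'
  exact h'

theorem factorial_mul_tD (p : Fin d → P) (I : Fin m → Fin (M.dim N)) :
    (d.factorial : Qb) * M.tD N hdm p I = ∑ g : Fin d → Fin (M.dim N),
      M.blockDet N hdm (Sum.elim (fun l => Pi.single (g l) (1 : Qb))
        fun b => Pi.single (I b) (1 : Qb)) * M.minors N p g := by
  set a : (Fin d → Fin (M.dim N)) → Qb := fun g =>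
    M.blockDet N hdm (Sum.elim (fun l => Pi.single (g l) (1 : Qb))
      fun b => Pi.single (I b) (1 : Qb)) with ha
  have hperm : ∀ (σ : Equiv.Perm (Fin d)) g, a (g ∘ σ) = Equiv.Perm.sign σ • a g := fun σ g => by
    have h := (M.blockDet N hdm).map_perm
      (Sum.elim (fun l => Pi.single (g l) (1 : Qb)) fun b => Pi.single (I b) (1 : Qb))
      (Equiv.sumCongr σ (1 : Equiv.Perm (Fin m)))
    rw [show Equiv.Perm.sign (Equiv.sumCongr σ (1 : Equiv.Perm (Fin m))) = Equiv.Perm.sign σ by
      rw [show Equiv.sumCongr σ (1 : Equiv.Perm (Fin m)) = Equiv.Perm.sumCongr σ 1 from rfl,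
        Equiv.Perm.sign_sumCongr, map_one, mul_one]] at h
    refine Eq.trans ?_ h
    simp only [ha]
    congr 1
    funext x
    cases x <;> rfl
  have hS : ∀ σ : Equiv.Perm (Fin d), M.tD N hdm p I =
      ∑ g : Fin d → Fin (M.dim N),
        a g * (Equiv.Perm.sign σ • ∏ l, M.ev N (p l) (g (σ l))) := fun σ => by
    rw [M.tD_eq_sum, ← Equiv.sum_comp (Equiv.arrowCongr σ.symm (Equiv.refl (Fin (M.dim N))))]
    refine Finset.sum_congr rfl fun g _ => ?_
    have hg : (Equiv.arrowCongr σ.symm (Equiv.refl (Fin (M.dim N)))) g = g ∘ σ := rfl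
    rw [hg]
    show _ * a (g ∘ σ) = _
    rw [hperm, Function.comp_def]
    simp only [Units.smul_def, zsmul_eq_mul]
    ring
  calc (d.factorial : Qb) * M.tD N hdm p I = ∑ _σ : Equiv.Perm (Fin d), M.tD N hdm p I := by
        simp [Fintype.card_perm]
    _ = ∑ g : Fin d → Fin (M.dim N), a g * M.minors N p g := by
        rw [Finset.sum_congr rfl fun σ _ => hS σ, Finset.sum_comm]
        refine Finset.sum_congr rfl fun g _ => ?_
        rw [minors, Matrix.det_apply, Finset.mul_sum]
        rfl

theorem exists_minor_eq_mul_tD (g : Fin d → Fin (M.dim N)) :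
    ∃ (r : Qb) (I : Fin m → Fin (M.dim N)), ∀ p : Fin d → P,
      M.minors N p g = r * M.tD N hdm p I := by
  classical
  by_cases hg : Function.Injective g
  · have hcard : Fintype.card ↥(Set.range g)ᶜ = m := by
      rw [Fintype.card_compl_set, Set.card_range_of_injective hg, Fintype.card_fin,
        Fintype.card_fin]
      omega
    let π : Fin d ⊕ Fin m ≃ Fin (M.dim N) :=
      (Equiv.sumCongr (Equiv.ofInjective g hg) (Fintype.equivFinOfCardEq hcard).symm).trans
        (Equiv.Set.sumCompl (Set.range g))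
    have hπ : ∀ l, π (Sum.inl l) = g l := fun l => by simp [π]
    let τ : Equiv.Perm (Fin d ⊕ Fin m) := π.trans (M.colEquiv N hdm).symm
    refine ⟨((Equiv.Perm.sign τ : ℤ) : Qb), fun b => π (Sum.inr b), fun p => ?_⟩
    rw [tD, blockDet_apply, ← Matrix.det_permute']
    have h : (Matrix.of fun x i => (Sum.elim (fun l => M.ev N (p l))
          (fun b => (Pi.single (π (Sum.inr b)) 1 : Fin (M.dim N) → Qb)) x)
            (M.colEquiv N hdm i)).submatrix id τ =
        Matrix.fromBlocks (Matrix.of fun l l' => M.ev N (p l) (g l'))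
          (Matrix.of fun l b => M.ev N (p l) (π (Sum.inr b))) 0 1 := by
      ext x i
      have hτ : M.colEquiv N hdm (τ i) = π i := by simp [τ]
      rw [Matrix.submatrix_apply, id_eq, Matrix.of_apply, hτ]
      rcases x with l | b <;> rcases i with l' | b'
      · simp [hπ]
      · simp
      · simp [π.injective.eq_iff]
      · simp [Pi.single_apply, π.injective.eq_iff, Matrix.one_apply, eq_comm]
    rw [h, Matrix.det_fromBlocks_zero₂₁, Matrix.det_one, mul_one, minors, ← Matrix.det_transpose]
    rfl
  · obtain ⟨I⟩ : Nonempty (Fin m → Fin (M.dim N)) := ⟨fun b => M.colEquiv N hdm (Sum.inr b)⟩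
    refine ⟨0, I, fun p => ?_⟩
    obtain ⟨i, j, hij, hne⟩ : ∃ i j, g i = g j ∧ i ≠ j := by
      simpa [Function.Injective] using hg
    rw [zero_mul, minors]
    exact Matrix.det_zero_of_row_eq hne (funext fun l => by simp [hij])

theorem exists_absHt_tD :
    ∃ C : ℝ, ∀ p : Fin d → P, |absHt (M.tD N hdm p) - absHt (M.minors N p)| ≤ C := by
  classical
  obtain ⟨C₁, hC₁⟩ := exists_absHt_linearMap_le
    (fun (I : Fin m → Fin (M.dim N)) (g : Fin d → Fin (M.dim N)) => (d.factorial : Qb)⁻¹ *
      M.blockDet N hdm (Sum.elim (fun l => Pi.single (g l) (1 : Qb))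
        fun b => Pi.single (I b) (1 : Qb)))
  choose r J hr using M.exists_minor_eq_mul_tD N hdm
  obtain ⟨C₂, hC₂⟩ := exists_absHt_linearMap_le
    (fun (g : Fin d → Fin (M.dim N)) (I : Fin m → Fin (M.dim N)) => if I = J g then r g else 0)
  refine ⟨max C₁ C₂, fun p => ?_⟩
  have e₁ : M.tD N hdm p = fun I => ∑ g : Fin d → Fin (M.dim N), (d.factorial : Qb)⁻¹ *
      M.blockDet N hdm (Sum.elim (fun l => Pi.single (g l) (1 : Qb))
        fun b => Pi.single (I b) (1 : Qb)) * M.minors N p g := by
    funext I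
    simp only [mul_assoc]
    rw [← Finset.mul_sum, ← M.factorial_mul_tD, inv_mul_cancel_left₀]
    exact_mod_cast d.factorial_ne_zero
  have e₂ : M.minors N p = fun g => ∑ I, (if I = J g then r g else 0) * M.tD N hdm p I := by
    funext g
    simp [hr g p]
  have h₁ := hC₁ (M.minors N p)
  rw [← e₁] at h₁
  have h₂ := hC₂ (M.tD N hdm p)
  rw [← e₂] at h₂
  rw [abs_le]
  constructor <;> linarith [le_max_left C₁ C₂, le_max_right C₁ C₂]

theorem tD_ne_zero {p : Fin d → P} (h : M.minors N p ≠ 0) : M.tD N hdm p ≠ 0 := by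
  obtain ⟨g, hg⟩ := Function.ne_iff.mp h
  obtain ⟨r, I, hr⟩ := M.exists_minor_eq_mul_tD N hdm g
  intro h0
  exact hg (by rw [hr p, h0, Pi.zero_apply, mul_zero]; rfl)

/-- The determinant of a family of sections at a tuple of points. -/
def sval (s : Fin m → Fin (M.dim N) → Qb) (R : Fin m → P) : Qb :=
  (Matrix.of fun r b => ∑ a, s r a * M.ev N (R b) a).det

/-- The array of the points is the determinant of any basis of the vanishing sections. -/
theorem exists_tval_tD_eq_sval {p : Fin d → P} (hp : M.minors N p ≠ 0)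
    {s : Fin m → Fin (M.dim N) → Qb} (hs : LinearIndependent Qb s)
    (hvan : ∀ r l, ∑ a, s r a * M.ev N (p l) a = 0) :
    ∃ r : Qb, r ≠ 0 ∧ ∀ R, M.tval N (M.tD N hdm p) R = r * M.sval N s R := by
  classical
  obtain ⟨g, hg⟩ := Function.ne_iff.mp hp
  set e := M.colEquiv N hdm
  let w : Fin d ⊕ Fin m → Fin (M.dim N) → Qb := Sum.elim (fun j => Pi.single (g j) 1) s
  let G : Matrix (Fin d ⊕ Fin m) (Fin d ⊕ Fin m) Qb := Matrix.of fun y i => w y (e i)
  have hmul : ∀ R : Fin m → P, G * (Matrix.of fun x i =>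
      (Sum.elim (fun l => M.ev N (p l)) (fun b => M.ev N (R b)) x) (e i))ᵀ =
      Matrix.fromBlocks (Matrix.of fun j l => M.ev N (p l) (g j))
        (Matrix.of fun j b => M.ev N (R b) (g j)) 0
        (Matrix.of fun r b => ∑ a, s r a * M.ev N (R b) a) := fun R => by
    ext y x
    simp only [Matrix.mul_apply, G, Matrix.transpose_apply, Matrix.of_apply]
    rw [Equiv.sum_comp e fun a => w y a *
      (Sum.elim (fun l => M.ev N (p l)) (fun b => M.ev N (R b)) x) a]
    rcases y with j | r <;> rcases x with l | b <;>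
      simp [w, hvan, Pi.single_apply]
  have hG : G.det ≠ 0 := by
    refine ((Matrix.isUnit_iff_isUnit_det _).mp
      (Matrix.linearIndependent_rows_iff_isUnit.mp ?_)).ne_zero
    refine Fintype.linearIndependent_iff.mpr fun c hc => ?_
    have hw : ∀ a, ∑ y, c y * w y a = 0 := fun a => by
      simpa [G] using congrFun hc (e.symm a)
    have h1 : Matrix.vecMul (fun j => c (Sum.inl j))
        (Matrix.of fun j l => M.ev N (p l) (g j)) = 0 := by
      funext l
      have hz : ∑ a, (∑ y, c y * w y a) * M.ev N (p l) a = 0 := by simp [hw]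
      simp only [Finset.sum_mul, mul_assoc] at hz
      rw [Finset.sum_comm] at hz
      simp only [← Finset.mul_sum, Fintype.sum_sum_type] at hz
      simpa [w, Matrix.vecMul, dotProduct, hvan, Pi.single_apply] using hz
    have h2 : ∀ j, c (Sum.inl j) = 0 :=
      congrFun (Matrix.eq_zero_of_vecMul_eq_zero hg h1)
    have h3 := Fintype.linearIndependent_iff.mp hs (fun r => c (Sum.inr r)) (funext fun a => by
      simpa [w, h2, Fintype.sum_sum_type] using hw a)
    rintro (j | r)
    exacts [h2 j, h3 r]
  refine ⟨M.minors N p g / G.det, div_ne_zero hg hG, fun R => ?_⟩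
  rw [M.tval_tD, M.blockDet_apply, div_mul_eq_mul_div, eq_div_iff hG]
  have h := congrArg Matrix.det (hmul R)
  rw [Matrix.det_mul, Matrix.det_transpose, Matrix.det_fromBlocks_zero₂₁] at h
  rw [mul_comm]
  exact h

end HtModel

end FermatLib.AV.MW

end
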