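import Fermat.Agent.AV.MW.Height.Sections
import Mathlib.LinearAlgebra.Matrix.Block
import Mathlib.Algebra.BigOperators.Fin

/-!
# Lower half of the Vandermonde height formula
-/

set_option autoImplicit false

open Finset

noncomputable section

namespace FermatLib.AV.MW

local notation "Qb" => AlgebraicClosure ℚ

namespace HtModel

variable {P : Type*} (M : HtModel P)

/-- The expected height of the minors of `d` points in level `N`. -/
def vdmHt (N : ℕ) {d : ℕ} (p : Fin d → P) : ℝ :=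
  N * ∑ l, M.h1 (p l) + ∑ i, ∑ j ∈ Finset.Iio i, M.pairB (p j) (p i)

theorem two_g_le_lo : 2 * M.g ≤ M.lo := by
  have := M.lo_ge
  omega

variable {N d : ℕ}

theorem le_sub_mul_of_lt (hN : M.lo + d * M.b ≤ N) (i : Fin d) :
    M.lo ≤ N - i.1 * M.b ∧ N - i.1 * M.b + i.1 * M.b = N := by
  have h : i.1 * M.b ≤ d * M.b := Nat.mul_le_mul_right _ i.2.le
  omega

/-- Triangular systems show that the minors do not vanish, and give the triangular identity. -/
theorem prod_tri_eq_det (p : Fin d → P) (a : (i : Fin d) → Fin (M.dim (N - i.1 * M.b)))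
    (u : (i : Fin d) → Fin d → Fin (M.dim M.b) × Fin (M.dim M.b)) :
    (∏ i, M.ev (N - i.1 * M.b) (p i) (a i) *
        ∏ j ∈ Finset.Iio i, wedgeVec (M.ev M.b (p j)) (M.ev M.b (p i)) (u i j)) =
      (Matrix.of fun i l : Fin d => M.ev (N - i.1 * M.b) (p l) (a i) *
        ∏ j ∈ Finset.Iio i, wedgeVec (M.ev M.b (p j)) (M.ev M.b (p l)) (u i j)).det := by
  rw [Matrix.det_of_isUpperTriangular]
  · rfl
  · intro i l hli
    refine mul_eq_zero_of_right _ (Finset.prod_eq_zero (Finset.mem_Iio.mpr hli) ?_)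
    simp [wedgeVec, mul_comm]

theorem exists_minors_ge (hN : M.lo + d * M.b ≤ N) :
    ∃ C : ℝ, ∀ p : Fin d → P, Function.Injective p →
      M.vdmHt N p ≤ absHt (M.minors N p) + C ∧ M.minors N p ≠ 0 := by
  classical
  let K := (i : Fin d) → Fin (M.dim (N - i.1 * M.b)) ×
    ({j // j ∈ Finset.Iio i} → Fin (M.dim M.b) × Fin (M.dim M.b))
  let val : (p : Fin d → P) → K → Qb := fun p w => ∏ i, M.ev (N - i.1 * M.b) (p i) (w i).1 *
    ∏ j : {j // j ∈ Finset.Iio i}, wedgeVec (M.ev M.b (p j.1)) (M.ev M.b (p i)) ((w i).2 j)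
  have hne0 : Nonempty (Fin (M.dim M.b) × Fin (M.dim M.b)) := by
    have h1 := M.dim_eq M.b (by have := M.lo_le_b; omega)
    have h2 := M.lo_le_b
    exact ⟨⟨0, by omega⟩, ⟨0, by omega⟩⟩
  let ext : K → (i : Fin d) → Fin d → Fin (M.dim M.b) × Fin (M.dim M.b) := fun w i j =>
    if h : j ∈ Finset.Iio i then (w i).2 ⟨j, h⟩ else Classical.arbitrary _
  have hsec : ∀ (w : K) (i : Fin d), (fun x q => M.ev (N - i.1 * M.b) q (w i).1 *
      ∏ j ∈ Finset.Iio i, wedgeVec (x j) (M.ev M.b q) (ext w i j)) ∈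
      M.secs (∑ j ∈ Finset.Iio i, Pi.single j 1) N := fun w i =>
    M.prod_wedge_mem_secs _ _ (by rw [Fin.card_Iio]; exact (M.le_sub_mul_of_lt hN i).2)
      (M.ev_mem_W _)
  choose c hc hcoeff using fun w i => M.exists_coeff_of_mem_secs (hsec w i)
  let n : Fin d → ℕ := ∑ i, ∑ j ∈ Finset.Iio i, Pi.single j 1
  let q : K → (Fin d → Fin (M.dim N)) → M.BVars (Fin d) → Qb :=
    fun w t x => ∏ i, c w i (t i) x
  have hq : ∀ w t, q w t ∈ forms (fun _ : Fin d => Fin (M.dim M.b)) n := fun w t =>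
    prod_mem_forms _ _ _ fun i _ => hc w i (t i)
  obtain ⟨C, hC⟩ := exists_absHt_combination_le n q hq
  choose Ce hCe using fun i : Fin d =>
    M.exists_absHt_ev (N - i.1 * M.b) (M.two_g_le_lo.trans (M.le_sub_mul_of_lt hN i).1)
  refine ⟨C + ∑ i, Ce i, fun p hp => ?_⟩
  have hval : val p = fun w => ∑ t, q w t (fun j => M.ev M.b (p j)) * M.minors N p t := by
    funext w
    rw [← M.det_sections_eq_sum (fun i a => c w i a fun j => M.ev M.b (p j)) p]
    simp only [← hcoeff]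
    rw [← M.prod_tri_eq_det]
    refine Finset.prod_congr rfl fun i _ => ?_
    rw [← Finset.prod_coe_sort (Finset.Iio i)]
    congr 1
    exact Finset.prod_congr rfl fun j _ => by simp only [ext]; rw [dif_pos j.2]
  have hw : ∀ (i : Fin d) (j : {j // j ∈ Finset.Iio i}),
      wedgeVec (M.ev M.b (p j.1)) (M.ev M.b (p i)) ≠ 0 := fun i j =>
    M.sep _ _ fun h => (Finset.mem_Iio.mp j.2).ne (hp h)
  have he : ∀ i : Fin d, M.ev (N - i.1 * M.b) (p i) ≠ 0 := fun i =>
    M.ev_ne_zero _ (M.two_g_le_lo.trans (M.le_sub_mul_of_lt hN i).1) _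
  have hpr : ∀ i : Fin d, (fun u : {j // j ∈ Finset.Iio i} → Fin (M.dim M.b) × Fin (M.dim M.b) =>
      ∏ j : {j // j ∈ Finset.Iio i}, wedgeVec (M.ev M.b (p j.1)) (M.ev M.b (p i)) (u j)) ≠ 0 :=
    fun i => by
      choose u hu using fun j => Function.ne_iff.mp (hw i j)
      exact Function.ne_iff.mpr ⟨u, Finset.prod_ne_zero_iff.mpr fun j _ => hu j⟩
  have hfac : ∀ i : Fin d, (fun w : Fin (M.dim (N - i.1 * M.b)) ×
      ({j // j ∈ Finset.Iio i} → Fin (M.dim M.b) × Fin (M.dim M.b)) =>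
      M.ev (N - i.1 * M.b) (p i) w.1 *
        ∏ j : {j // j ∈ Finset.Iio i}, wedgeVec (M.ev M.b (p j.1)) (M.ev M.b (p i)) (w.2 j)) ≠ 0 :=
    fun i => by
      obtain ⟨a, ha⟩ := Function.ne_iff.mp (he i)
      obtain ⟨u, hu⟩ := Function.ne_iff.mp (hpr i)
      exact Function.ne_iff.mpr ⟨(a, u), mul_ne_zero ha hu⟩
  have hht : absHt (val p) = ∑ i, (absHt (M.ev (N - i.1 * M.b) (p i)) +
      ∑ j ∈ Finset.Iio i, absHt (wedgeVec (M.ev M.b (p j)) (M.ev M.b (p i)))) := by
    refine (absHt_prod _ hfac).trans (Finset.sum_congr rfl fun i _ => ?_)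
    rw [absHt_mul (he i) (hpr i), absHt_prod _ (hw i), ← Finset.sum_coe_sort (Finset.Iio i)]
  have hne : M.minors N p ≠ 0 := by
    intro h0
    choose w hw0 using fun i => Function.ne_iff.mp (hfac i)
    have h1 : val p w ≠ 0 := Finset.prod_ne_zero_iff.mpr fun i _ => hw0 i
    exact h1 (by rw [hval]; simp [h0])
  refine ⟨?_, hne⟩
  have hb := hC (fun j => M.ev M.b (p j)) (M.minors N p) fun j =>
    M.ev_ne_zero _ (by have := M.lo_le_b; omega) _
  rw [← hval, hht] at hb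
  have hn : (∑ j, (n j : ℝ) * absHt (M.ev M.b (p j))) =
      ∑ i : Fin d, ∑ j ∈ Finset.Iio i, (M.b * M.h1 (p j) : ℝ) := by
    simp only [n, Finset.sum_apply, Nat.cast_sum, Finset.sum_mul]
    rw [Finset.sum_comm]
    refine Finset.sum_congr rfl fun i _ => ?_
    rw [Finset.sum_comm]
    refine Finset.sum_congr rfl fun j _ => ?_
    simp [Pi.single_apply, M.absHt_ev_b]
  rw [hn] at hb
  have key : ∀ i : Fin d, (N : ℝ) * M.h1 (p i) + ∑ j ∈ Finset.Iio i, M.pairB (p j) (p i) ≤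
      absHt (M.ev (N - i.1 * M.b) (p i)) +
        ∑ j ∈ Finset.Iio i, absHt (wedgeVec (M.ev M.b (p j)) (M.ev M.b (p i))) -
        ∑ j ∈ Finset.Iio i, (M.b * M.h1 (p j) : ℝ) + Ce i := fun i => by
    have h1 := (abs_le.mp (hCe i (p i))).1
    rw [Nat.cast_sub (by have := (M.le_sub_mul_of_lt hN i).2; omega), Nat.cast_mul] at h1
    simp only [pairB, Finset.sum_sub_distrib, Finset.sum_const, Fin.card_Iio, nsmul_eq_mul]
    linarith
  have hs := Finset.sum_le_sum fun i (_ : i ∈ Finset.univ) => key i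
  simp only [Finset.sum_add_distrib, Finset.sum_sub_distrib, ← Finset.mul_sum] at hs hb
  simp only [vdmHt]
  linarith

end HtModel

end FermatLib.AV.MW

end
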