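import Fermat.Agent.AV.MW.Height.VdmLower
import Fermat.Agent.AV.MW.Height.LinAlg
import Mathlib.LinearAlgebra.Dimension.Constructions

/-!
# Upper half of the Vandermonde height formula
-/

set_option autoImplicit false

open Finset Matrix

noncomputable section

namespace FermatLib.AV.MW

local notation "Qb" => AlgebraicClosure ℚ

namespace HtModel

variable {P : Type*} (M : HtModel P)

theorem vdmHt_succ (N : ℕ) {d : ℕ} (p : Fin (d + 1) → P) :
    M.vdmHt N p = M.vdmHt N (p ∘ Fin.castSucc) + N * M.h1 (p (Fin.last d)) +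
      ∑ j : Fin d, M.pairB (p j.castSucc) (p (Fin.last d)) := by
  simp only [vdmHt, Fin.sum_univ_castSucc, Fin.Iio_castSucc, Fin.Iio_last_eq_map, Finset.sum_map,
    Fin.coe_castSuccEmb, Function.comp]
  ring

/-- The minors of `d + 1` points as a linear form in the last point. -/
def lastCoeff (N : ℕ) {d : ℕ} (t : Fin (d + 1) → Fin (M.dim N))
    (y : (Fin d → Fin (M.dim N)) → Qb) : Fin (M.dim N) → Qb :=
  fun a => ∑ i : Fin (d + 1), if t i = a then (-1) ^ (i.1 + d) * y (t ∘ i.succAbove) else 0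

theorem minors_snoc (N : ℕ) {d : ℕ} (D : Fin d → P) (q : P) (t : Fin (d + 1) → Fin (M.dim N)) :
    M.minors N (Fin.snoc D q) t =
      ∑ a, M.lastCoeff N t (M.minors N D) a * M.ev N q a := by
  rw [minors, Matrix.det_succ_column _ (Fin.last d)]
  simp only [lastCoeff, Finset.sum_mul, ite_mul, zero_mul]
  rw [Finset.sum_comm]
  refine Finset.sum_congr rfl fun i _ => ?_
  rw [Finset.sum_ite_eq Finset.univ (t i), if_pos (Finset.mem_univ _)]
  simp only [Matrix.of_apply, Fin.snoc_last, Fin.val_last, minors, Fin.succAbove_last]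
  have h : (Matrix.of fun i' l => M.ev N ((Fin.snoc D q : Fin (d + 1) → P) l) (t i')).submatrix
      i.succAbove Fin.castSucc = Matrix.of fun i' l => M.ev N (D l) ((t ∘ i.succAbove) i') := by
    ext i' l
    simp
  rw [h]
  ring

section Step

variable {N d : ℕ}

theorem finrank_coeff_span {U : Type*} {c : U → Fin (M.dim N) → Qb} {W : Submodule Qb (P → Qb)}
    (h : Submodule.span Qb (Set.range fun u q => ∑ a, c u a * M.ev N q a) = W) :
    Module.finrank Qb (Submodule.span Qb (Set.range c)) = Module.finrank Qb W := by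
  have hinj := (M.indep N).fintypeLinearCombination_injective
  rw [← h, (Submodule.equivMapOfInjective _ hinj (Submodule.span Qb (Set.range c))).finrank_eq,
    Submodule.map_span, ← Set.range_comp]
  have e : ⇑(Fintype.linearCombination Qb fun a p => M.ev N p a) ∘ c =
      fun u q => ∑ a, c u a * M.ev N q a := by
    funext u q
    simp [Fintype.linearCombination_apply]
  rw [e]

/-- The combined coefficient of the Cramer identity. -/
def stepCoeff {U : Type} {m : ℕ} [DecidableEq U]
    (adj : (Fin m → Fin (M.dim N)) → (Fin m → U) → Fin m → Fin m → M.BVars (Fin d) → Qb)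
    (k : ((Fin m → Fin (M.dim N)) × (Fin m → U)) × (Fin (d + 1) → Fin (M.dim N)))
    (su : (Fin d → Fin (M.dim N)) × U) : M.BVars (Fin d) → Qb :=
  fun x => ∑ l : Fin m, ∑ i : Fin (d + 1), ∑ i' : Fin m,
    (if k.2 i = k.1.1 i' ∧ k.2 ∘ i.succAbove = su.1 ∧ k.1.2 l = su.2 then (-1) ^ (i.1 + d) else 0) *
      adj k.1.1 k.1.2 l i' x

theorem sum_stepCoeff {U : Type} [Fintype U] {m : ℕ} [DecidableEq U]
    (adj : (Fin m → Fin (M.dim N)) → (Fin m → U) → Fin m → Fin m → M.BVars (Fin d) → Qb)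
    (k : ((Fin m → Fin (M.dim N)) × (Fin m → U)) × (Fin (d + 1) → Fin (M.dim N)))
    (x : M.BVars (Fin d)) (y : (Fin d → Fin (M.dim N)) → Qb) (z : U → Qb) :
    ∑ su : (Fin d → Fin (M.dim N)) × U, M.stepCoeff adj k su x * (y su.1 * z su.2) =
      ∑ l, (∑ i', adj k.1.1 k.1.2 l i' x * M.lastCoeff N k.2 y (k.1.1 i')) * z (k.1.2 l) := by
  simp only [stepCoeff, lastCoeff, Finset.sum_mul, Finset.mul_sum, ite_mul, mul_ite, zero_mul,
    mul_zero]
  rw [Finset.sum_comm]
  refine Finset.sum_congr rfl fun l _ => ?_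
  rw [Finset.sum_comm, Finset.sum_comm (γ := Fin m)]
  refine Finset.sum_congr rfl fun i _ => ?_
  rw [Finset.sum_comm]
  refine Finset.sum_congr rfl fun i' _ => ?_
  by_cases h : k.2 i = k.1.1 i'
  · rw [Finset.sum_eq_single (k.2 ∘ i.succAbove, k.1.2 l)]
    · rw [if_pos ⟨h, rfl, rfl⟩, if_pos h]
      ring
    · rintro ⟨s, u⟩ _ hne
      rw [if_neg fun hh => hne (by rw [hh.2.1, hh.2.2])]
    · simp
  · simp [h]

theorem minors_step (hN : M.lo + (d + 1) * M.b ≤ N)
    (ih : ∃ C : ℝ, ∀ p : Fin d → P, Function.Injective p →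
      absHt (M.minors N p) ≤ M.vdmHt N p + C) :
    ∃ C : ℝ, ∀ p : Fin (d + 1) → P, Function.Injective p →
      absHt (M.minors N p) ≤ M.vdmHt N p + C := by
  classical
  obtain ⟨C₀, hC₀⟩ := ih
  have hdb : (d + 1) * M.b = d * M.b + M.b := by ring
  obtain ⟨A, rfl⟩ : ∃ A, A + d * M.b = N := ⟨N - d * M.b, by omega⟩
  have hA : M.lo ≤ A := by omega
  set N := A + d * M.b with hNdef
  have hd1 : d + 1 ≤ M.dim N := by
    have h1 := M.dim_eq N (by have := M.lo_ge; omega)
    have h2 : d ≤ d * M.b := Nat.le_mul_of_pos_right _ M.b_pos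
    have h3 := M.lo_ge
    have h4 := M.b_pos
    omega
  obtain ⟨m', hm'⟩ : ∃ m', m' + 1 + d = M.dim N := ⟨M.dim N - (d + 1), by omega⟩
  set m := m' + 1 with hm
  let U := Fin (M.dim A) × (Fin d → Fin (M.dim M.b) × Fin (M.dim M.b))
  have hsec : ∀ u : U, (fun x q => M.ev A q u.1 *
      ∏ j, wedgeVec (x j) (M.ev M.b q) (u.2 j)) ∈ M.secs (∑ j, Pi.single j 1) N := fun u =>
    M.prod_wedge_mem_secs _ _ (by simp [hNdef]) (M.ev_mem_W _)
  choose c hc hcol using fun u => M.exists_coeff_of_mem_secs (hsec u)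
  have hone : (∑ j : Fin d, Pi.single j 1 : Fin d → ℕ) = fun _ => 1 :=
    Finset.univ_sum_single fun _ => 1
  rw [hone] at hc
  let v : M.BVars (Fin d) → U → Fin (M.dim N) → Qb := fun x u a => c u a x
  let xb : (Fin d → P) → M.BVars (Fin d) := fun D j => M.ev M.b (D j)
  have hspan : ∀ D : Fin d → P,
      Module.finrank Qb (Submodule.span Qb (Set.range (v (xb D)))) = m := fun D => by
    rw [M.finrank_coeff_span (W := Submodule.span Qb (Set.range fun (u : U) q =>
      M.ev A q u.1 * ∏ j, wedgeVec (xb D j) (M.ev M.b q) (u.2 j)))]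
    · have h1 := M.span_dim d A hA D
      change _ + d = M.dim N at h1
      rw [← hm'] at h1
      exact Nat.add_right_cancel h1
    · simp only [v, ← hcol]
  -- minors of the coefficient matrix
  let κ := (Fin m → Fin (M.dim N)) × (Fin m → U)
  let ψ : κ → M.BVars (Fin d) → Qb := fun k x =>
    (Matrix.of fun i l => c (k.2 l) (k.1 i) x).det
  have hψ : ∀ k, ψ k ∈ forms (fun _ : Fin d => Fin (M.dim M.b)) (fun _ => m) := fun k => by
    refine forms_congr ?_ (det_mem_forms (fun _ : Fin m => fun _ : Fin d => 1)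
      (fun i l => c (k.2 l) (k.1 i)) fun i l => hc _ _)
    funext j
    simp [Finset.sum_apply]
  have hψ0 : ∀ D : Fin d → P, ∃ k, ψ k (xb D) ≠ 0 := fun D => by
    obtain ⟨I, J, h⟩ := exists_span_minor_ne_zero (v (xb D)) (hspan D)
    exact ⟨(I, J), h⟩
  obtain ⟨e, qn, hme, hqn, hid⟩ := M.null d m κ ψ hψ hψ0
  obtain ⟨C₁, hC₁⟩ := exists_le_absHt_of_identity e (fun _ => e - m) qn hqn
  -- entries of the adjugate
  let adj : (Fin m → Fin (M.dim N)) → (Fin m → U) → Fin m → Fin m → M.BVars (Fin d) → Qb :=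
    fun I J l i x => (Matrix.of fun i' l' => c (J l') (I i') x).adjugate l i
  have hadj : ∀ I J l i, adj I J l i ∈ forms (fun _ : Fin d => Fin (M.dim M.b)) (fun _ => m') := by
    intro I J l i
    have h : adj I J l i = fun x => (Matrix.of fun a b : Fin m =>
        (if b = i then fun _ => (Pi.single l 1 : Fin m → Qb) a else c (J a) (I b)) x).det := by
      funext x
      rw [← Matrix.det_transpose]
      simp only [adj, Matrix.adjugate_apply]
      congr 1
      ext b a
      rw [Matrix.updateRow_apply, Matrix.transpose_apply, Matrix.of_apply, Matrix.of_apply]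
      split_ifs <;> rfl
    rw [h]
    refine forms_congr ?_ (det_mem_forms (fun b : Fin m => if b = i then 0 else fun _ : Fin d => 1)
      _ fun a b => ?_)
    · funext j
      simp [Finset.sum_apply, ite_apply, Finset.sum_ite, Finset.filter_ne', hm]
    · split_ifs with hb
      · exact const_mem_forms _
      · exact hc _ _
  have hq : ∀ k su, M.stepCoeff adj k su ∈
      forms (fun _ : Fin d => Fin (M.dim M.b)) (fun _ => m') := fun k su =>
    sum_mem_forms _ _ fun l _ => sum_mem_forms _ _ fun i _ => sum_mem_forms _ _ fun i' _ =>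
      const_mul_mem_forms _ (hadj _ _ _ _)
  obtain ⟨C₂, hC₂⟩ := exists_absHt_combination_le (fun _ => m') (M.stepCoeff adj) hq
  obtain ⟨C₃, hC₃⟩ := M.exists_absHt_ev A (M.two_g_le_lo.trans hA)
  obtain ⟨_, hlow⟩ := M.exists_minors_ge (d := d) (N := N) (by omega)
  obtain ⟨_, hlow'⟩ := M.exists_minors_ge (d := d + 1) (N := N) hN
  refine ⟨C₀ + C₁ + C₂ + C₃, fun p hp => ?_⟩
  set D : Fin d → P := p ∘ Fin.castSucc with hDdef
  set q : P := p (Fin.last d) with hqdef
  have hpD : p = Fin.snoc D q := (Fin.snoc_init_self p).symm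
  have hD : Function.Injective D := hp.comp (Fin.castSucc_injective d)
  set x := xb D with hxdef
  have hx : ∀ j, x j ≠ 0 := fun j => M.ev_ne_zero _ (by have := M.lo_le_b; omega) _
  -- the span is the space of functions vanishing at the points
  let Φ : (Fin (M.dim N) → Qb) →ₗ[Qb] (Fin d → Qb) :=
    Fintype.linearCombination Qb fun a j => M.ev N (D j) a
  have hΦ : ∀ w j, Φ w j = ∑ a, w a * M.ev N (D j) a := fun w j => by
    simp [Φ, Fintype.linearCombination_apply]
  have hker : Submodule.span Qb (Set.range (v x)) = LinearMap.ker Φ := by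
    refine Submodule.eq_of_le_of_finrank_le (Submodule.span_le.mpr ?_) ?_
    · rintro _ ⟨u, rfl⟩
      rw [SetLike.mem_coe, LinearMap.mem_ker]
      funext j
      simp only [hΦ, v, ← hcol, Pi.zero_apply]
      exact mul_eq_zero_of_right _
        (Finset.prod_eq_zero (Finset.mem_univ j) (by simp [x, xb, wedgeVec, mul_comm]))
    · obtain ⟨-, hne⟩ := hlow D hD
      obtain ⟨t, ht⟩ := Function.ne_iff.mp hne
      have hsurj : Function.Surjective Φ := fun z => by
        let Mt : Matrix (Fin d) (Fin d) Qb := Matrix.of fun i l => M.ev N (D l) (t i)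
        refine ⟨∑ i, (z ᵥ* Mt⁻¹) i • Pi.single (t i) 1, funext fun l => ?_⟩
        have hu : IsUnit Mt.det := (Ne.isUnit ht : _)
        calc Φ (∑ i, (z ᵥ* Mt⁻¹) i • Pi.single (t i) 1) l = ((z ᵥ* Mt⁻¹) ᵥ* Mt) l := by
              simp [map_sum, Φ, Matrix.vecMul, dotProduct, Mt, Finset.sum_apply]
          _ = z l := by rw [Matrix.vecMul_vecMul, Matrix.nonsing_inv_mul _ hu, Matrix.vecMul_one]
      have := LinearMap.finrank_range_add_finrank_ker Φ
      rw [LinearMap.range_eq_top.mpr hsurj, finrank_top, Module.finrank_pi, Module.finrank_pi,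
        Fintype.card_fin, Fintype.card_fin] at this
      rw [hspan D]
      omega
  let z : U → Qb := fun u => M.ev A q u.1 * ∏ j, wedgeVec (x j) (M.ev M.b q) (u.2 j)
  have hid' : ∀ (k : κ) (t : Fin (d + 1) → Fin (M.dim N)),
      ψ k x * M.minors N p t =
        ∑ su : (Fin d → Fin (M.dim N)) × U,
          M.stepCoeff adj (k, t) su x * (M.minors N D su.1 * z su.2) := by
    intro k t
    rw [M.sum_stepCoeff adj (k, t) x (M.minors N D) z]
    have hw : M.lastCoeff N t (M.minors N D) ∈ Submodule.span Qb (Set.range (v x)) := by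
      rw [hker, LinearMap.mem_ker]
      funext j
      rw [hΦ, ← M.minors_snoc, Pi.zero_apply]
      refine Matrix.det_zero_of_column_eq (i := j.castSucc) (j := Fin.last d)
        (Fin.castSucc_lt_last j).ne fun i => ?_
      simp
    have h := sum_cramer_eq_det_smul (v x) (hspan D) hw k.1 k.2
    have h' := congrArg (fun f : Fin (M.dim N) → Qb => ∑ a, f a * M.ev N q a) h
    simp only [Finset.sum_apply, Pi.smul_apply, smul_eq_mul, Finset.sum_mul, mul_assoc] at h'
    rw [Finset.sum_comm] at h'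
    simp only [← Finset.mul_sum] at h'
    rw [hpD, M.minors_snoc]
    refine h'.symm.trans (Finset.sum_congr rfl fun l _ => ?_)
    simp only [z, hcol]
    rfl
  obtain ⟨-, hne⟩ := hlow D hD
  obtain ⟨-, hne'⟩ := hlow' p hp
  have hψx : (fun k => ψ k x) ≠ 0 := Function.ne_iff.mpr (hψ0 D)
  have hw : ∀ j, wedgeVec (x j) (M.ev M.b q) ≠ 0 := fun j =>
    M.sep _ _ fun h => (Fin.castSucc_lt_last j).ne (hp h)
  have hAq := M.ev_ne_zero A (M.two_g_le_lo.trans hA) q
  have hpr : (fun u : Fin d → Fin (M.dim M.b) × Fin (M.dim M.b) =>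
      ∏ j, wedgeVec (x j) (M.ev M.b q) (u j)) ≠ 0 := by
    choose u hu using fun j => Function.ne_iff.mp (hw j)
    exact Function.ne_iff.mpr ⟨u, Finset.prod_ne_zero_iff.mpr fun j _ => hu j⟩
  have hz : z ≠ 0 := by
    obtain ⟨a, ha⟩ := Function.ne_iff.mp hAq
    obtain ⟨u, hu⟩ := Function.ne_iff.mp hpr
    exact Function.ne_iff.mpr ⟨(a, u), mul_ne_zero ha hu⟩
  have hzht : absHt z = absHt (M.ev A q) + ∑ j, absHt (wedgeVec (x j) (M.ev M.b q)) := by
    rw [← absHt_prod _ hw]
    exact absHt_mul hAq hpr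
  have h2 := hC₂ x (fun su => M.minors N D su.1 * z su.2) hx
  rw [← show (fun kt : κ × (Fin (d + 1) → Fin (M.dim N)) => ψ kt.1 x * M.minors N p kt.2) = _ from
    funext fun kt => hid' kt.1 kt.2, absHt_mul hψx hne', absHt_mul hne hz, hzht] at h2
  have h1 := hC₁ x (fun k => ψ k x) hx (hid D)
  have hS : (∑ j, absHt (x j)) = M.b * ∑ j, M.h1 (D j) := by
    simp [x, xb, M.absHt_ev_b, Finset.mul_sum]
  simp only [← Finset.mul_sum, Nat.cast_sub hme, hS] at h1
  simp only [← Finset.mul_sum, hS] at h2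
  have h3 := (abs_le.mp (hC₃ q)).2
  have h0 := hC₀ D hD
  have hB : (∑ j, absHt (wedgeVec (x j) (M.ev M.b q))) =
      ∑ j, M.pairB (D j) q + M.b * ∑ j, M.h1 (D j) + (d : ℝ) * (M.b * M.h1 q) := by
    simp [x, xb, pairB, Finset.sum_sub_distrib, Finset.mul_sum]
    ring
  rw [hB] at h2
  rw [M.vdmHt_succ, ← hDdef, ← hqdef]
  have hmR : (m : ℝ) = m' + 1 := by simp [hm]
  rw [hmR] at h1
  simp only [hNdef, Nat.cast_add, Nat.cast_mul] at h0 h1 h2 ⊢
  simp only [D, q, Function.comp] at h0 h1 h2 h3 ⊢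
  linarith

end Step

theorem exists_minors_le {N : ℕ} :
    ∀ {d : ℕ}, M.lo + d * M.b ≤ N →
      ∃ C : ℝ, ∀ p : Fin d → P, Function.Injective p →
        absHt (M.minors N p) ≤ M.vdmHt N p + C
  | 0, _ => ⟨absHt (fun _ : Fin 0 → Fin (M.dim N) => (1 : Qb)), fun p _ => by
      have : M.minors N p = fun _ => 1 := funext fun t => by simp [minors]
      simp [this, vdmHt]⟩
  | d + 1, h => M.minors_step h (exists_minors_le (by
      have : (d + 1) * M.b = d * M.b + M.b := by ring
      omega))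

/-- **Vandermonde height formula.** -/
theorem exists_abs_minors_sub_vdm_le {N d : ℕ} (hN : M.lo + d * M.b ≤ N) :
    ∃ C : ℝ, ∀ p : Fin d → P, Function.Injective p →
      |absHt (M.minors N p) - M.vdmHt N p| ≤ C := by
  obtain ⟨C₁, h₁⟩ := M.exists_minors_le hN
  obtain ⟨C₂, h₂⟩ := M.exists_minors_ge (d := d) hN
  refine ⟨max C₁ C₂, fun p hp => abs_le.mpr ⟨?_, ?_⟩⟩
  · linarith [(h₂ p hp).1, le_max_right C₁ C₂]
  · linarith [h₁ p hp, le_max_left C₁ C₂]

end HtModel

end FermatLib.AV.MW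

end
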